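import Mathlib

/-!
# S44 / Alg / Node : the (REG-NODE) lemma   [key S44/ALG-NODE]   (Mathlib only)   (helper27)

`R` a local domain, `P0`, `Pi` two primes with `P0 ⊓ Pi = (ϖ)` (the two components through the node), `X ∈ P0` a local parameter of the
component `R ⧸ Pi` (`𝔪 = Pi + (X)`), `Y ∈ Pi` a local parameter of `R ⧸ P0`, and `x * x' = ϖ ^ m` with `x ∉ Pi`, `x' ∉ P0`,
`ord_s (x mod Pi) ≥ m`, `ord_s (x' mod P0) ≥ m`.   Then `X * Y = ϖ * unit` (thickness one), `P0 = (X)`, `Pi = (Y)`.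
Hence `X`, `Y` are prime elements and (if `R` is noetherian) `R ⧸ (X)`, `R ⧸ (Y)` are principal ideal rings: `UFD.lean` applies.
-/

set_option autoImplicit false

open Ideal IsLocalRing

namespace Fermat.Agent.S44.Alg

variable {R : Type*} [CommRing R]

/-- an element killed into `(ϖ ^ m)` by multipliers outside `P0` and outside `Pi` is divisible by `ϖ ^ m` -/
theorem nodeAux_dvd [IsDomain R] {ϖ : R} (hϖ : ϖ ≠ 0) {P0 Pi : Ideal R} [h0 : P0.IsPrime] [hi : Pi.IsPrime]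
    (hinf : P0 ⊓ Pi = span {ϖ}) (m : ℕ) : ∀ (r t t' : R), t ∉ P0 → t' ∉ Pi → ϖ ^ m ∣ t * r → ϖ ^ m ∣ t' * r →
      ϖ ^ m ∣ r := by
  induction m with
  | zero => intro r t t' _ _ _ _; simp
  | succ m ih =>
    intro r t t' ht ht' h1 h2
    have hϖ0 : ϖ ∈ P0 := by
      have : ϖ ∈ P0 ⊓ Pi := by rw [hinf]; exact mem_span_singleton_self ϖ
      exact this.1
    have hϖi : ϖ ∈ Pi := by
      have : ϖ ∈ P0 ⊓ Pi := by rw [hinf]; exact mem_span_singleton_self ϖ
      exact this.2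
    have hr0 : r ∈ P0 := by
      have : t * r ∈ P0 := by
        obtain ⟨a, ha⟩ := h1
        rw [ha, pow_succ, mul_assoc]
        exact P0.mul_mem_left _ (P0.mul_mem_right _ hϖ0)
      exact (h0.mem_or_mem this).resolve_left ht
    have hri : r ∈ Pi := by
      have : t' * r ∈ Pi := by
        obtain ⟨a, ha⟩ := h2
        rw [ha, pow_succ, mul_assoc]
        exact Pi.mul_mem_left _ (Pi.mul_mem_right _ hϖi)
      exact (hi.mem_or_mem this).resolve_left ht'
    have hr : r ∈ span {ϖ} := by rw [← hinf]; exact ⟨hr0, hri⟩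
    obtain ⟨r', rfl⟩ := mem_span_singleton.1 hr
    have h1' : ϖ ^ m ∣ t * r' := by
      obtain ⟨a, ha⟩ := h1
      refine ⟨a, mul_left_cancel₀ hϖ ?_⟩
      rw [pow_succ] at ha
      linear_combination ha
    have h2' : ϖ ^ m ∣ t' * r' := by
      obtain ⟨a, ha⟩ := h2
      refine ⟨a, mul_left_cancel₀ hϖ ?_⟩
      rw [pow_succ] at ha
      linear_combination ha
    obtain ⟨b, rfl⟩ := ih r' t t' ht ht' h1' h2'
    exact ⟨b, by rw [pow_succ]; ring⟩

/-- half of (REG-NODE): `x = X ^ m * unit` -/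
theorem nodeAux_unit [IsDomain R] [IsLocalRing R] {ϖ : R} (hϖ : ϖ ≠ 0) {P0 Pi : Ideal R} [h0 : P0.IsPrime]
    [hi : Pi.IsPrime] (hinf : P0 ⊓ Pi = span {ϖ}) {X Y : R} (hX : X ∈ P0) (hY : Y ∈ Pi) (hY0 : Y ∉ P0)
    (hmX : maximalIdeal R = Pi ⊔ span {X}) {m : ℕ} (hm : 0 < m) {x x' : R} (hxx : x * x' = ϖ ^ m)
    (hx : x ∉ Pi) (hxm : x ∈ Pi ⊔ span {X ^ m}) : ∃ ξ : R, IsUnit ξ ∧ X ^ m = ξ * x := by
  have hXY : ϖ ∣ X * Y := by
    have : X * Y ∈ P0 ⊓ Pi := ⟨P0.mul_mem_right _ hX, Pi.mul_mem_left _ hY⟩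
    rw [hinf] at this
    exact mem_span_singleton.1 this
  have hXi : X ∉ Pi := by
    intro h
    apply hx
    have : Pi ⊔ span {X ^ m} ≤ Pi := sup_le le_rfl ((span_singleton_le_iff_mem _).2 (Pi.pow_mem_of_mem h m hm))
    exact this hxm
  -- `ϖ ^ m ∣ X ^ m * x'`
  have hdvd : ϖ ^ m ∣ X ^ m * x' := by
    refine nodeAux_dvd hϖ hinf m (X ^ m * x') (Y ^ m) x (fun h => hY0 (h0.mem_of_pow_mem m h)) hx ?_ ?_
    · have : Y ^ m * (X ^ m * x') = (X * Y) ^ m * x' := by rw [mul_pow]; ring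
      rw [this]
      exact Dvd.dvd.mul_right (pow_dvd_pow_of_dvd hXY m) _
    · have : x * (X ^ m * x') = ϖ ^ m * X ^ m := by rw [← hxx]; ring
      rw [this]
      exact Dvd.intro _ rfl
  obtain ⟨ξ, hξ⟩ := hdvd
  have hϖm : ϖ ^ m ≠ 0 := pow_ne_zero _ hϖ
  have e : X ^ m = ξ * x := by
    apply mul_left_cancel₀ hϖm
    calc ϖ ^ m * X ^ m = x * (X ^ m * x') := by rw [← hxx]; ring
      _ = ϖ ^ m * (ξ * x) := by rw [hξ]; ring
  refine ⟨ξ, ?_, e⟩
  by_contra hu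
  have hξm : ξ ∈ maximalIdeal R := (mem_maximalIdeal ξ).2 hu
  rw [hmX] at hξm
  obtain ⟨a, ha, b', hb', hab⟩ := Submodule.mem_sup.1 hξm
  obtain ⟨b, rfl⟩ := mem_span_singleton.1 hb'
  obtain ⟨a2, ha2, c', hc', hac⟩ := Submodule.mem_sup.1 hxm
  obtain ⟨c, rfl⟩ := mem_span_singleton.1 hc'
  -- `X ^ m * (1 - X b c) ∈ Pi`
  have h1 : X ^ m * (1 - X * b * c) ∈ Pi := by
    have : X ^ m * (1 - X * b * c) = a * x + X * b * a2 := by
      rw [← hac] at e ⊢
      rw [← hab] at e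
      linear_combination e
    rw [this]
    exact Pi.add_mem (Pi.mul_mem_right _ ha) (Pi.mul_mem_left _ ha2)
  have hXm : X ∈ maximalIdeal R := by
    rw [hmX]; exact Submodule.mem_sup_right (mem_span_singleton_self X)
  have h2 : IsUnit (1 - X * b * c) := by
    by_contra h
    have h3 : 1 - X * b * c ∈ maximalIdeal R := (mem_maximalIdeal _).2 h
    have h4 : (1 : R) ∈ maximalIdeal R := by
      have := (maximalIdeal R).add_mem h3
        ((maximalIdeal R).mul_mem_right c ((maximalIdeal R).mul_mem_right b hXm))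
      simp at this
    exact (Ideal.ne_top_iff_one _).1 (maximalIdeal.isMaximal R).ne_top h4
  rcases hi.mem_or_mem h1 with h | h
  · exact hXi (hi.mem_of_pow_mem m h)
  · exact hi.ne_top (Ideal.eq_top_of_isUnit_mem _ h h2)

/-- **(REG-NODE)** -/
theorem reg_node [IsDomain R] [IsLocalRing R] {ϖ : R} (hϖ : ϖ ≠ 0) {P0 Pi : Ideal R} [h0 : P0.IsPrime]
    [hi : Pi.IsPrime] (hinf : P0 ⊓ Pi = span {ϖ}) {X Y : R} (hX : X ∈ P0) (hY : Y ∈ Pi)
    (hmX : maximalIdeal R = Pi ⊔ span {X}) (hmY : maximalIdeal R = P0 ⊔ span {Y})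
    {m : ℕ} (hm : 0 < m) {x x' : R} (hxx : x * x' = ϖ ^ m) (hx : x ∉ Pi) (hx' : x' ∉ P0)
    (hxm : x ∈ Pi ⊔ span {X ^ m}) (hxm' : x' ∈ P0 ⊔ span {Y ^ m}) :
    (∃ c : R, IsUnit c ∧ X * Y = ϖ * c) ∧ P0 = span {X} ∧ Pi = span {Y} := by
  have hXi : X ∉ Pi := by
    intro h
    apply hx
    have : Pi ⊔ span {X ^ m} ≤ Pi := sup_le le_rfl ((span_singleton_le_iff_mem _).2 (Pi.pow_mem_of_mem h m hm))
    exact this hxm
  have hY0 : Y ∉ P0 := by
    intro h
    apply hx'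
    have : P0 ⊔ span {Y ^ m} ≤ P0 := sup_le le_rfl ((span_singleton_le_iff_mem _).2 (P0.pow_mem_of_mem h m hm))
    exact this hxm'
  obtain ⟨ξ, hξ, e1⟩ := nodeAux_unit hϖ hinf hX hY hY0 hmX hm hxx hx hxm
  obtain ⟨ξ', hξ', e2⟩ := nodeAux_unit (P0 := Pi) (Pi := P0) hϖ (by rw [inf_comm]; exact hinf) hY hX hXi hmY hm
    (by rw [mul_comm]; exact hxx) hx' hxm'
  have hXY : X * Y ∈ span {ϖ} := by
    rw [← hinf]; exact ⟨P0.mul_mem_right _ hX, Pi.mul_mem_left _ hY⟩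
  obtain ⟨c, hc⟩ := mem_span_singleton.1 hXY
  have hcu : IsUnit c := by
    have h1 : ϖ ^ m * c ^ m = ϖ ^ m * (ξ * ξ') := by
      calc ϖ ^ m * c ^ m = (X * Y) ^ m := by rw [hc, mul_pow]
        _ = X ^ m * Y ^ m := mul_pow _ _ _
        _ = ϖ ^ m * (ξ * ξ') := by rw [e1, e2, ← hxx]; ring
    have h2 : c ^ m = ξ * ξ' := mul_left_cancel₀ (pow_ne_zero _ hϖ) h1
    exact (isUnit_pow_iff hm.ne').1 (h2 ▸ hξ.mul hξ')
  have hϖX : ϖ ∈ span {X} := by
    obtain ⟨c', hc'⟩ := hcu.exists_right_inv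
    refine mem_span_singleton.2 ⟨Y * c', ?_⟩
    calc ϖ = ϖ * (c * c') := by rw [hc', mul_one]
      _ = X * (Y * c') := by rw [← mul_assoc, ← hc]; ring
  have hϖY : ϖ ∈ span {Y} := by
    obtain ⟨c', hc'⟩ := hcu.exists_right_inv
    refine mem_span_singleton.2 ⟨X * c', ?_⟩
    calc ϖ = ϖ * (c * c') := by rw [hc', mul_one]
      _ = Y * (X * c') := by rw [← mul_assoc, ← hc]; ring
  refine ⟨⟨c, hcu, hc⟩, ?_, ?_⟩
  · refine le_antisymm (fun r hr => ?_) ((span_singleton_le_iff_mem _).2 hX)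
    have hrm : r ∈ maximalIdeal R := le_maximalIdeal h0.ne_top hr
    rw [hmX] at hrm
    obtain ⟨a, ha, b', hb', hab⟩ := Submodule.mem_sup.1 hrm
    have hb0 : b' ∈ P0 := (span_singleton_le_iff_mem _).2 hX hb'
    have ha0 : a ∈ P0 := by
      have : a = r - b' := by rw [← hab]; ring
      rw [this]; exact P0.sub_mem hr hb0
    have ha' : a ∈ span {ϖ} := by rw [← hinf]; exact ⟨ha0, ha⟩
    rw [← hab]
    exact (span {X}).add_mem ((span_singleton_le_iff_mem _).2 hϖX ha') hb'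
  · refine le_antisymm (fun r hr => ?_) ((span_singleton_le_iff_mem _).2 hY)
    have hrm : r ∈ maximalIdeal R := le_maximalIdeal hi.ne_top hr
    rw [hmY] at hrm
    obtain ⟨a, ha, b', hb', hab⟩ := Submodule.mem_sup.1 hrm
    have hb0 : b' ∈ Pi := (span_singleton_le_iff_mem _).2 hY hb'
    have ha0 : a ∈ Pi := by
      have : a = r - b' := by rw [← hab]; ring
      rw [this]; exact Pi.sub_mem hr hb0
    have ha' : a ∈ span {ϖ} := by rw [← hinf]; exact ⟨ha, ha0⟩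
    rw [← hab]
    exact (span {Y}).add_mem ((span_singleton_le_iff_mem _).2 hϖY ha') hb'

/-- a noetherian local ring `R` with `𝔪 = (X, Y)`, `X` prime: `R ⧸ (X)` is a principal ideal ring -/
theorem isPrincipalIdealRing_quot [IsDomain R] [IsLocalRing R] [IsNoetherianRing R] {X Y : R} (hX : Prime X)
    (hm : maximalIdeal R = span {X} ⊔ span {Y}) : IsPrincipalIdealRing (R ⧸ span {X}) := by
  have : (span {X}).IsPrime := (span_singleton_prime hX.ne_zero).2 hX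
  have : IsLocalRing (R ⧸ span {X}) :=
    IsLocalRing.of_surjective' (Ideal.Quotient.mk (span {X})) Ideal.Quotient.mk_surjective
  have key : (maximalIdeal (R ⧸ span {X})).IsPrincipal := by
    refine ⟨⟨Ideal.Quotient.mk (span {X}) Y, ?_⟩⟩
    have h1 : maximalIdeal (R ⧸ span {X}) = (maximalIdeal R).map (Ideal.Quotient.mk (span {X})) := by
      have h2 : (maximalIdeal (R ⧸ span {X})).comap (Ideal.Quotient.mk (span {X})) = maximalIdeal R := by
        have hl : IsLocalHom (Ideal.Quotient.mk (span {X})) :=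
          IsLocalHom.of_surjective _ Ideal.Quotient.mk_surjective
        exact ((IsLocalRing.local_hom_TFAE (Ideal.Quotient.mk (span {X}))).out 0 4).1 hl
      rw [← h2, Ideal.map_comap_of_surjective _ Ideal.Quotient.mk_surjective]
    rw [h1, hm, Ideal.map_sup, Ideal.map_span, Ideal.map_span, Set.image_singleton, Set.image_singleton]
    have : Ideal.Quotient.mk (span {X}) X = 0 := Ideal.Quotient.eq_zero_iff_mem.2 (mem_span_singleton_self X)
    rw [this]
    simp [Ideal.submodule_span_eq]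
  exact ((tfae_of_isNoetherianRing_of_isLocalRing_of_isDomain (R ⧸ span {X})).out 4 0).1 key

end Fermat.Agent.S44.Alg
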