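import Fermat.Agent.S44.Alg.UFD

/-!
# S44 / Alg / PrimeVal : the valuation ring of a prime element of a UFD   (Mathlib only)   (helper27)
-/

set_option autoImplicit false
set_option linter.unusedSectionVars false

namespace Fermat.Agent.S44.Alg

variable {S : Type*} [CommRing S] [IsDomain S] [UniqueFactorizationMonoid S]
variable (K : Type*) [Field K] [Algebra S K] [IsFractionRing S K]

theorem pvAux_inj : Function.Injective (algebraMap S K) := IsFractionRing.injective S K

/-- normal form `y = π^k * a / b` -/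
theorem pvAux_nf {π : S} (hπ : Prime π) {y : K} (hy : y ≠ 0) :
    ∃ (s t : ℕ) (a b : S), ¬ π ∣ a ∧ ¬ π ∣ b ∧
      y * (algebraMap S K π ^ t * algebraMap S K b) = algebraMap S K π ^ s * algebraMap S K a := by
  obtain ⟨a, b, hb, rfl⟩ := IsFractionRing.div_surjective (A := S) y
  have hb0 : b ≠ 0 := nonZeroDivisors.ne_zero hb
  have hbK : algebraMap S K b ≠ 0 := fun h => hb0 (pvAux_inj K (by rw [h, map_zero]))
  have ha0 : a ≠ 0 := by
    rintro rfl
    exact hy (by simp)
  obtain ⟨a1, h1, h2⟩ := (finMult hπ ha0).exists_eq_pow_mul_and_not_dvd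
  obtain ⟨b1, h3, h4⟩ := (finMult hπ hb0).exists_eq_pow_mul_and_not_dvd
  refine ⟨multiplicity π a, multiplicity π b, a1, b1, h2, h4, ?_⟩
  rw [← map_pow, ← map_pow, ← map_mul, ← map_mul, ← h1, ← h3]
  field_simp

/-- the valuation ring of the prime element `π` -/
def primeVal (π : S) (hπ : Prime π) : ValuationSubring K where
  carrier := {y | ∃ a b : S, ¬ π ∣ b ∧ y * algebraMap S K b = algebraMap S K a}
  mul_mem' := by
    rintro x y ⟨a, b, hb, e⟩ ⟨a', b', hb', e'⟩
    refine ⟨a * a', b * b', fun h => (hπ.dvd_or_dvd h).elim hb hb', ?_⟩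
    rw [map_mul, map_mul, ← e, ← e']; ring
  one_mem' := ⟨1, 1, fun h => hπ.not_isUnit (isUnit_of_dvd_one h), by simp⟩
  add_mem' := by
    rintro x y ⟨a, b, hb, e⟩ ⟨a', b', hb', e'⟩
    refine ⟨a * b' + a' * b, b * b', fun h => (hπ.dvd_or_dvd h).elim hb hb', ?_⟩
    rw [map_add, map_mul, map_mul, map_mul, ← e, ← e']; ring
  zero_mem' := ⟨0, 1, fun h => hπ.not_isUnit (isUnit_of_dvd_one h), by simp⟩
  neg_mem' := by
    rintro x ⟨a, b, hb, e⟩
    exact ⟨-a, b, hb, by rw [map_neg, ← e]; ring⟩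
  mem_or_inv_mem' := by
    intro y
    by_cases hy : y = 0
    · left
      exact ⟨0, 1, fun h => hπ.not_isUnit (isUnit_of_dvd_one h), by simp [hy]⟩
    obtain ⟨s, t, a, b, ha, hb, e⟩ := pvAux_nf K hπ hy
    have hπK : algebraMap S K π ≠ 0 := fun h => hπ.ne_zero (pvAux_inj K (by rw [h, map_zero]))
    rcases le_total t s with h | h
    · left
      obtain ⟨m, rfl⟩ := Nat.exists_eq_add_of_le h
      refine ⟨π ^ m * a, b, hb, ?_⟩
      rw [map_mul, map_pow]
      apply mul_left_cancel₀ (pow_ne_zero t hπK)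
      rw [pow_add] at e
      linear_combination e
    · right
      obtain ⟨m, rfl⟩ := Nat.exists_eq_add_of_le h
      refine ⟨π ^ m * b, a, ha, ?_⟩
      rw [map_mul, map_pow]
      apply mul_left_cancel₀ (pow_ne_zero s hπK)
      apply mul_left_cancel₀ hy
      rw [pow_add] at e
      have : y * y⁻¹ = 1 := mul_inv_cancel₀ hy
      linear_combination (algebraMap S K π ^ s * algebraMap S K a) * this - e

variable {K}

theorem mem_primeVal {π : S} {hπ : Prime π} {y : K} :
    y ∈ primeVal K π hπ ↔ ∃ a b : S, ¬ π ∣ b ∧ y * algebraMap S K b = algebraMap S K a := Iff.rfl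

theorem map_mem_primeVal {π : S} (hπ : Prime π) (s : S) : algebraMap S K s ∈ primeVal K π hπ :=
  ⟨s, 1, fun h => hπ.not_isUnit (isUnit_of_dvd_one h), by simp⟩

theorem inv_mem_primeVal {π : S} (hπ : Prime π) {s : S} (hs : ¬ π ∣ s) :
    (algebraMap S K s)⁻¹ ∈ primeVal K π hπ := by
  have hs0 : algebraMap S K s ≠ 0 := fun h => hs (by
    have : s = 0 := pvAux_inj K (by rw [h, map_zero])
    rw [this]; exact dvd_zero _)
  exact ⟨1, s, hs, by rw [map_one]; exact inv_mul_cancel₀ hs0⟩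

theorem inv_notMem_primeVal {π : S} (hπ : Prime π) : (algebraMap S K π)⁻¹ ∉ primeVal K π hπ := by
  rintro ⟨a, b, hb, e⟩
  have hπK : algebraMap S K π ≠ 0 := fun h => hπ.ne_zero (pvAux_inj K (by rw [h, map_zero]))
  apply hb
  refine ⟨a, pvAux_inj K ?_⟩
  rw [map_mul, ← e]
  field_simp

theorem exists_zpow_primeVal {π : S} (hπ : Prime π) {y : K} (hy : y ≠ 0) :
    ∃ k : ℤ, y * algebraMap S K π ^ k ∈ primeVal K π hπ ∧ (y * algebraMap S K π ^ k)⁻¹ ∈ primeVal K π hπ := by
  obtain ⟨s, t, a, b, ha, hb, e⟩ := pvAux_nf K hπ hy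
  have hπK : algebraMap S K π ≠ 0 := fun h => hπ.ne_zero (pvAux_inj K (by rw [h, map_zero]))
  have ha0 : algebraMap S K a ≠ 0 := fun h => ha (by
    have : a = 0 := pvAux_inj K (by rw [h, map_zero])
    rw [this]; exact dvd_zero _)
  have hb0 : algebraMap S K b ≠ 0 := fun h => hb (by
    have : b = 0 := pvAux_inj K (by rw [h, map_zero])
    rw [this]; exact dvd_zero _)
  have e2 : y * algebraMap S K π ^ ((t : ℤ) - s) = algebraMap S K a * (algebraMap S K b)⁻¹ := by
    rw [zpow_sub₀ hπK, zpow_natCast, zpow_natCast]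
    field_simp
    linear_combination e
  refine ⟨(t : ℤ) - s, ?_, ?_⟩
  · rw [e2]
    exact mul_mem (map_mem_primeVal hπ a) (inv_mem_primeVal hπ hb)
  · rw [e2, mul_inv, inv_inv]
    exact mul_mem (inv_mem_primeVal hπ ha) (map_mem_primeVal hπ b)

theorem exists_of_unit_primeVal {π : S} (hπ : Prime π) {y : K} (h1 : y ∈ primeVal K π hπ)
    (h2 : y⁻¹ ∈ primeVal K π hπ) (hy : y ≠ 0) :
    ∃ a b : S, ¬ π ∣ a ∧ ¬ π ∣ b ∧ y * algebraMap S K b = algebraMap S K a := by
  obtain ⟨a, b, hb, e⟩ := h1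
  obtain ⟨a', b', hb', e'⟩ := h2
  refine ⟨a, b, fun h => ?_, hb, e⟩
  have : b' * b = a' * a := by
    apply pvAux_inj K
    rw [map_mul, map_mul, ← e, ← e']
    field_simp
  exact (hπ.dvd_or_dvd (this ▸ Dvd.dvd.mul_left h a' : π ∣ b' * b)).elim hb' hb

end Fermat.Agent.S44.Alg
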