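import Fermat.Agent.S44.Alg.UFD
import Fermat.Agent.S44.Alg.Node
import Fermat.Agent.S44.Alg.PrimeVal

/-!
# S44 / Alg / Cover : a cyclic cover which is split modulo `ϖ` over a regular node   [key S44/ALG-COVER]   (Mathlib only)   (helper27)

`R` an integrally closed local domain, `E = Frac R`, `E' / E` a field extension with an automorphism `δ`, `δ ^ n = 1`, fixed field `E`.
`R' =` the integral closure of `R` in `E'`.   `Sheet R E' ϖ` : an element `e ∈ R'` ("the indicator function of the sheet `0`") with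
`e * δ^k e ∈ ϖ R'` (`0 < k < n`) and `∑_k δ^k e ∈ 1 + ϖ R'`.
With `φ a = Tr (a e) ∈ R` one has   (C) `e * φ a ≡ a * e  mod ϖ R'`,   (D) `e * r ∈ ϖ R' ⟹ ϖ ∣ r`.
So `a ↦ φ a mod 𝔪` is a ring hom `R' → R/𝔪`, its kernel `𝔫` is a maximal ideal of `R'`, and `R'' = R'_𝔫` satisfies `R'' = R + ϖ R''`,
`g R'' ∩ R = g R`.  Hence if `𝔪_R = (X, Y)`, `X Y = ϖ * unit`, `X`, `Y` prime, the same holds in `R''` and (ANL) applies to `R''`.
-/

set_option autoImplicit false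
set_option linter.unusedSectionVars false
set_option linter.style.haveILetI false

open Ideal IsLocalRing Finset

namespace Fermat.Agent.S44.Alg

section Cover

variable (R : Type*) [CommRing R] {E : Type*} (E' : Type*) [Field E] [Field E'] [Algebra R E]
  [Algebra E E'] [Algebra R E'] [IsScalarTower R E E']

/-- a cyclic cover with a distinguished sheet, split modulo `ϖ` -/
structure Sheet (ϖ : R) where
  δ : E' ≃ₐ[E] E'
  n : ℕ
  hn : 0 < n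
  pow : ∀ x : E', (δ ^ n) x = x
  fix : ∀ x : E', δ x = x → ∃ y : E, algebraMap E E' y = x
  e : E'
  int : IsIntegral R e
  orth : ∀ k, 0 < k → k < n → ∃ a : E', IsIntegral R a ∧ e * (δ ^ k) e = algebraMap R E' ϖ * a
  sum : ∃ a : E', IsIntegral R a ∧ ∑ k ∈ range n, (δ ^ k) e = 1 + algebraMap R E' ϖ * a

/-- `ϖ R'` -/
def JJ (ϖ : R) : AddSubgroup E' where
  carrier := {x | ∃ a : E', IsIntegral R a ∧ x = algebraMap R E' ϖ * a}
  zero_mem' := ⟨0, isIntegral_zero, by simp⟩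
  add_mem' := by
    rintro _ _ ⟨a, ha, rfl⟩ ⟨b, hb, rfl⟩
    exact ⟨a + b, ha.add hb, by ring⟩
  neg_mem' := by
    rintro _ ⟨a, ha, rfl⟩
    exact ⟨-a, ha.neg, by ring⟩

variable {R E'}

theorem mem_JJ {ϖ : R} {x : E'} : x ∈ JJ R E' ϖ ↔ ∃ a : E', IsIntegral R a ∧ x = algebraMap R E' ϖ * a :=
  Iff.rfl

theorem JJ.mul_mem {ϖ : R} {x b : E'} (hb : IsIntegral R b) (hx : x ∈ JJ R E' ϖ) : b * x ∈ JJ R E' ϖ := by
  obtain ⟨a, ha, rfl⟩ := hx
  exact ⟨b * a, hb.mul ha, by ring⟩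

namespace Sheet

variable {ϖ : R} (D : Sheet (E := E) R E' ϖ)

/-- the trace -/
def tr (x : E') : E' := ∑ k ∈ range D.n, (D.δ ^ k) x

theorem int_pow {x : E'} (hx : IsIntegral R x) (k : ℕ) : IsIntegral R ((D.δ ^ k) x) :=
  hx.map ((D.δ ^ k : E' ≃ₐ[E] E').toAlgHom.restrictScalars R)

theorem pow_algebraMap (r : R) (k : ℕ) : (D.δ ^ k) (algebraMap R E' r) = algebraMap R E' r := by
  rw [IsScalarTower.algebraMap_apply R E E', AlgEquiv.commutes]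

theorem tr_fixed (x : E') : D.δ (D.tr x) = D.tr x := by
  have h1 : D.δ (D.tr x) = ∑ k ∈ range D.n, (D.δ ^ (k + 1)) x := by
    rw [tr, map_sum]
    refine Finset.sum_congr rfl fun k _ => ?_
    rw [pow_succ', AlgEquiv.mul_apply]
  have h2 := Finset.sum_range_succ (fun k => (D.δ ^ k) x) D.n
  have h3 := Finset.sum_range_succ' (fun k => (D.δ ^ k) x) D.n
  rw [h1, tr]
  have h4 : (D.δ ^ 0) x = x := by simp
  rw [h2, D.pow, h4] at h3
  exact (add_right_cancel h3).symm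

theorem tr_add (x y : E') : D.tr (x + y) = D.tr x + D.tr y := by
  simp only [tr, map_add, Finset.sum_add_distrib]

theorem tr_smul (r : R) (x : E') : D.tr (algebraMap R E' r * x) = algebraMap R E' r * D.tr x := by
  simp only [tr, map_mul, pow_algebraMap, Finset.mul_sum]

theorem tr_int {x : E'} (hx : IsIntegral R x) : IsIntegral R (D.tr x) :=
  IsIntegral.sum _ fun k _ => D.int_pow hx k

variable [IsDomain R] [IsIntegrallyClosed R] [IsFractionRing R E]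

theorem exists_of_fixed {x : E'} (hx : IsIntegral R x) (hf : D.δ x = x) : ∃ r : R, algebraMap R E' r = x := by
  obtain ⟨y, rfl⟩ := D.fix x hf
  have hy : IsIntegral R y := (isIntegral_algebraMap_iff (algebraMap E E').injective).1 hx
  obtain ⟨r, rfl⟩ := IsIntegrallyClosed.isIntegral_iff.1 hy
  exact ⟨r, IsScalarTower.algebraMap_apply R E E' r⟩

theorem exists_tr {x : E'} (hx : IsIntegral R x) : ∃ r : R, algebraMap R E' r = D.tr x :=
  D.exists_of_fixed (D.tr_int hx) (D.tr_fixed x)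

include D in
theorem algebraMap_inj : Function.Injective (algebraMap R E') := by
  rw [IsScalarTower.algebraMap_eq R E E']
  exact (algebraMap E E').injective.comp (IsFractionRing.injective R E)

/-- `e * e ≡ e` -/
theorem e_sq : D.e * D.e - D.e ∈ JJ R E' ϖ := by
  obtain ⟨m, hm⟩ : ∃ m, D.n = m + 1 := ⟨D.n - 1, by have := D.hn; omega⟩
  obtain ⟨b, hb, hs⟩ := D.sum
  rw [hm, Finset.sum_range_succ'] at hs
  have h0 : (D.δ ^ 0) D.e = D.e := by simp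
  rw [h0] at hs
  have e1 : D.e * D.e - D.e = D.e * (algebraMap R E' ϖ * b) - ∑ k ∈ range m, D.e * (D.δ ^ (k + 1)) D.e := by
    rw [← Finset.mul_sum]
    linear_combination D.e * hs
  rw [e1]
  refine (JJ R E' ϖ).sub_mem (JJ.mul_mem D.int ⟨b, hb, rfl⟩) ((JJ R E' ϖ).sum_mem fun k hk => ?_)
  exact D.orth (k + 1) (Nat.succ_pos k) (by have := Finset.mem_range.1 hk; omega)

/-- (C) -/
theorem e_mul_tr {a : E'} (ha : IsIntegral R a) : D.e * D.tr (a * D.e) - a * D.e ∈ JJ R E' ϖ := by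
  obtain ⟨m, hm⟩ : ∃ m, D.n = m + 1 := ⟨D.n - 1, by have := D.hn; omega⟩
  have e1 : D.e * D.tr (a * D.e) - a * D.e =
      a * (D.e * D.e - D.e) + ∑ k ∈ range m, (D.δ ^ (k + 1)) a * (D.e * (D.δ ^ (k + 1)) D.e) := by
    rw [tr, hm, Finset.sum_range_succ', mul_add, Finset.mul_sum]
    have h0 : (D.δ ^ 0) (a * D.e) = a * D.e := by simp
    rw [h0]
    have : ∑ k ∈ range m, D.e * (D.δ ^ (k + 1)) (a * D.e) =
        ∑ k ∈ range m, (D.δ ^ (k + 1)) a * (D.e * (D.δ ^ (k + 1)) D.e) :=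
      Finset.sum_congr rfl fun k _ => by rw [map_mul]; ring
    rw [this]; ring
  rw [e1]
  refine (JJ R E' ϖ).add_mem (JJ.mul_mem ha D.e_sq) ((JJ R E' ϖ).sum_mem fun k hk => ?_)
  exact JJ.mul_mem (D.int_pow ha _)
    (D.orth (k + 1) (Nat.succ_pos k) (by have := Finset.mem_range.1 hk; omega))


/-- `φ a = Tr (a e) ∈ R` -/
noncomputable def phi (a : integralClosure R E') : R := (D.exists_tr (a.2.mul D.int)).choose

theorem phi_spec (a : integralClosure R E') : algebraMap R E' (D.phi a) = D.tr ((a : E') * D.e) :=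
  (D.exists_tr (a.2.mul D.int)).choose_spec

variable [IsLocalRing R]

/-- `Tr e` is a unit of `R`, `≡ 1 mod ϖ` -/
theorem exists_tr_e (hϖ0 : ϖ ≠ 0) : ∃ r0 : R, D.tr D.e = algebraMap R E' (1 + ϖ * r0) := by
  obtain ⟨b0, hb0, hs⟩ := D.sum
  have hϖE : algebraMap R E' ϖ ≠ 0 := fun h => hϖ0 (D.algebraMap_inj (by rw [h, map_zero]))
  have hfix : D.δ b0 = b0 := by
    have h1 := D.tr_fixed D.e
    rw [tr, hs, map_add, map_one, map_mul] at h1
    have h2 := D.pow_algebraMap ϖ 1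
    rw [pow_one] at h2
    rw [h2] at h1
    exact mul_left_cancel₀ hϖE (add_left_cancel h1)
  obtain ⟨r0, rfl⟩ := D.exists_of_fixed hb0 hfix
  exact ⟨r0, by rw [tr, hs]; simp⟩

/-- (D) -/
theorem dvd_of_e_mul (hϖ0 : ϖ ≠ 0) (hϖ : ϖ ∈ maximalIdeal R) {r : R}
    (h : D.e * algebraMap R E' r ∈ JJ R E' ϖ) : ϖ ∣ r := by
  obtain ⟨b, hb, hbe⟩ := h
  obtain ⟨rb, hrb⟩ := D.exists_tr hb
  obtain ⟨r0, hr0⟩ := D.exists_tr_e hϖ0
  have hu : IsUnit (1 + ϖ * r0) := by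
    by_contra hu
    have h3 : 1 + ϖ * r0 ∈ maximalIdeal R := (mem_maximalIdeal _).2 hu
    have h4 : (1 : R) ∈ maximalIdeal R := by
      have := (maximalIdeal R).sub_mem h3 ((maximalIdeal R).mul_mem_right r0 hϖ)
      rwa [add_sub_cancel_right] at this
    exact (Ideal.ne_top_iff_one _).1 (maximalIdeal.isMaximal R).ne_top h4
  have h1 : r * (1 + ϖ * r0) = ϖ * rb := by
    apply D.algebraMap_inj
    rw [map_mul, map_mul, ← hr0, hrb, ← D.tr_smul, ← D.tr_smul, ← hbe, mul_comm]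
  obtain ⟨u, hu'⟩ := hu.exists_right_inv
  exact ⟨rb * u, by
    calc r = r * ((1 + ϖ * r0) * u) := by rw [hu', mul_one]
      _ = ϖ * (rb * u) := by rw [← mul_assoc, h1]; ring⟩

/-- `e * (a - r) ∈ ϖ R' ⟹ φ a ≡ r mod ϖ` -/
theorem phi_cong (hϖ0 : ϖ ≠ 0) (hϖ : ϖ ∈ maximalIdeal R) (a : integralClosure R E') (r : R)
    (h : D.e * ((a : E') - algebraMap R E' r) ∈ JJ R E' ϖ) : ϖ ∣ D.phi a - r := by
  apply D.dvd_of_e_mul hϖ0 hϖ
  have h1 := D.e_mul_tr a.2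
  rw [← D.phi_spec] at h1
  have : D.e * algebraMap R E' (D.phi a - r) =
      (D.e * algebraMap R E' (D.phi a) - (a : E') * D.e) + D.e * ((a : E') - algebraMap R E' r) := by
    rw [map_sub]; ring
  rw [this]
  exact (JJ R E' ϖ).add_mem h1 h

/-- (C) again -/
theorem e_mul_sub_phi (a : integralClosure R E') :
    D.e * ((a : E') - algebraMap R E' (D.phi a)) ∈ JJ R E' ϖ := by
  have h1 := (JJ R E' ϖ).neg_mem (D.e_mul_tr a.2)
  rw [← D.phi_spec] at h1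
  have : D.e * ((a : E') - algebraMap R E' (D.phi a)) =
      -(D.e * algebraMap R E' (D.phi a) - (a : E') * D.e) := by ring
  rw [this]; exact h1

theorem phi_add (a b : integralClosure R E') : D.phi (a + b) = D.phi a + D.phi b := by
  apply D.algebraMap_inj
  rw [map_add, D.phi_spec, D.phi_spec, D.phi_spec, ← D.tr_add]
  congr 1
  push_cast
  ring

theorem phi_smul (r : R) (a : integralClosure R E') : D.phi (algebraMap R _ r * a) = r * D.phi a := by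
  apply D.algebraMap_inj
  rw [map_mul, D.phi_spec, D.phi_spec, ← D.tr_smul]
  congr 1
  push_cast
  rw [mul_assoc]

theorem residue_eq_of_dvd (hϖ : ϖ ∈ maximalIdeal R) {a b : R} (h : ϖ ∣ a - b) : residue R a = residue R b := by
  rw [← sub_eq_zero, ← map_sub, residue_eq_zero_iff]
  obtain ⟨c, hc⟩ := h
  rw [hc]; exact (maximalIdeal R).mul_mem_right _ hϖ

/-- the point of the cover on the sheet `0` -/
noncomputable def psi (hϖ0 : ϖ ≠ 0) (hϖ : ϖ ∈ maximalIdeal R) : integralClosure R E' →+* ResidueField R where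
  toFun a := residue R (D.phi a)
  map_one' := by
    rw [← map_one (residue R)]
    exact residue_eq_of_dvd hϖ (D.phi_cong hϖ0 hϖ 1 1 (by simp [(JJ R E' ϖ).zero_mem]))
  map_mul' a b := by
    rw [← map_mul]
    refine residue_eq_of_dvd hϖ (D.phi_cong hϖ0 hϖ (a * b) (D.phi a * D.phi b) ?_)
    have : D.e * (((a * b : integralClosure R E') : E') - algebraMap R E' (D.phi a * D.phi b)) =
        (b : E') * (D.e * ((a : E') - algebraMap R E' (D.phi a))) +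
          algebraMap R E' (D.phi a) * (D.e * ((b : E') - algebraMap R E' (D.phi b))) := by
      rw [MulMemClass.coe_mul, map_mul]; ring
    rw [this]
    exact (JJ R E' ϖ).add_mem (JJ.mul_mem b.2 (D.e_mul_sub_phi a))
      (JJ.mul_mem isIntegral_algebraMap (D.e_mul_sub_phi b))
  map_zero' := by
    have : D.phi 0 = 0 := by
      have := D.phi_add 0 0
      rw [add_zero] at this
      exact left_eq_add.1 this
    rw [this, map_zero]
  map_add' a b := by rw [D.phi_add, map_add]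

/-- the maximal ideal of `R'` on the sheet `0` -/
noncomputable def nn (hϖ0 : ϖ ≠ 0) (hϖ : ϖ ∈ maximalIdeal R) : Ideal (integralClosure R E') :=
  RingHom.ker (D.psi hϖ0 hϖ)

instance (hϖ0 : ϖ ≠ 0) (hϖ : ϖ ∈ maximalIdeal R) : (D.nn hϖ0 hϖ).IsPrime := RingHom.ker_isPrime _

theorem mem_nn (hϖ0 : ϖ ≠ 0) (hϖ : ϖ ∈ maximalIdeal R) (a : integralClosure R E') :
    a ∈ D.nn hϖ0 hϖ ↔ ¬ IsUnit (D.phi a) := by
  rw [nn, RingHom.mem_ker]
  change residue R (D.phi a) = 0 ↔ _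
  rw [residue_eq_zero_iff, mem_maximalIdeal, mem_nonunits_iff]


section Loc

variable [FiniteDimensional E E'] (hϖ0 : ϖ ≠ 0) (hϖ : ϖ ∈ maximalIdeal R)

include D in
theorem isFrac : IsFractionRing (integralClosure R E') E' :=
  integralClosure.isFractionRing_of_finite_extension E E'

/-- `R'' = R'_𝔫 ⊂ E'` -/
noncomputable def RR : Subalgebra (integralClosure R E') E' :=
  haveI := D.isFrac
  Localization.subalgebra.ofField E' (D.nn hϖ0 hϖ).primeCompl (Ideal.primeCompl_le_nonZeroDivisors _)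

theorem mem_RR {x : E'} : x ∈ D.RR hϖ0 hϖ ↔
    ∃ a t : integralClosure R E', IsUnit (D.phi t) ∧ x = (a : E') * (t : E')⁻¹ := by
  constructor
  · rintro ⟨a, t, ht, rfl⟩
    refine ⟨a, t, ?_, rfl⟩
    by_contra h
    exact ht ((D.mem_nn hϖ0 hϖ t).2 h)
  · rintro ⟨a, t, ht, rfl⟩
    exact ⟨a, t, fun h => (D.mem_nn hϖ0 hϖ t).1 h ht, rfl⟩

theorem int_mem_RR {a : E'} (ha : IsIntegral R a) : a ∈ D.RR hϖ0 hϖ :=
  (D.RR hϖ0 hϖ).algebraMap_mem (⟨a, ha⟩ : integralClosure R E')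

theorem map_mem_RR (r : R) : algebraMap R E' r ∈ D.RR hϖ0 hϖ := D.int_mem_RR hϖ0 hϖ isIntegral_algebraMap

include hϖ in
theorem isUnit_of_dvd_sub_one {r : R} (h : ϖ ∣ r - 1) : IsUnit r := by
  by_contra hu
  have h3 : r ∈ maximalIdeal R := (mem_maximalIdeal _).2 hu
  obtain ⟨c, hc⟩ := h
  have h4 : (1 : R) ∈ maximalIdeal R := by
    have := (maximalIdeal R).sub_mem h3 ((maximalIdeal R).mul_mem_right c hϖ)
    rwa [← hc, sub_sub_cancel] at this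
  exact (Ideal.ne_top_iff_one _).1 (maximalIdeal.isMaximal R).ne_top h4

include hϖ0 hϖ in
theorem isUnit_phi_e : IsUnit (D.phi ⟨D.e, D.int⟩) := by
  refine isUnit_of_dvd_sub_one hϖ (D.phi_cong hϖ0 hϖ ⟨D.e, D.int⟩ 1 ?_)
  have : D.e * (((⟨D.e, D.int⟩ : integralClosure R E') : E') - algebraMap R E' 1) = D.e * D.e - D.e := by
    rw [map_one]; ring
  rw [this]; exact D.e_sq

theorem e_inv_mem : D.e⁻¹ ∈ D.RR hϖ0 hϖ :=
  (D.mem_RR hϖ0 hϖ).2 ⟨1, ⟨D.e, D.int⟩, D.isUnit_phi_e hϖ0 hϖ, by simp⟩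

theorem phi_zero : D.phi 0 = 0 := by
  have := D.phi_add 0 0
  rw [add_zero] at this
  exact left_eq_add.1 this

theorem ne_zero_of_isUnit_phi {t : integralClosure R E'} (ht : IsUnit (D.phi t)) : (t : E') ≠ 0 := by
  intro h
  have : t = 0 := Subtype.ext h
  rw [this, D.phi_zero] at ht
  exact not_isUnit_zero ht

/-- `a ≡ φ a mod ϖ R''` -/
theorem approx_int (a : integralClosure R E') :
    ∃ y ∈ D.RR hϖ0 hϖ, (a : E') = algebraMap R E' (D.phi a) + algebraMap R E' ϖ * y := by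
  obtain ⟨b, hb, hbe⟩ := D.e_mul_sub_phi a
  have he : D.e ≠ 0 := D.ne_zero_of_isUnit_phi (D.isUnit_phi_e hϖ0 hϖ)
  refine ⟨b * D.e⁻¹, (D.RR hϖ0 hϖ).mul_mem (D.int_mem_RR hϖ0 hϖ hb) (D.e_inv_mem hϖ0 hϖ), ?_⟩
  field_simp
  linear_combination hbe

/-- (S) `R'' = R + ϖ R''` -/
theorem exists_approx {y : E'} (hy : y ∈ D.RR hϖ0 hϖ) :
    ∃ (r : R), ∃ y' ∈ D.RR hϖ0 hϖ, y = algebraMap R E' r + algebraMap R E' ϖ * y' := by
  obtain ⟨a, t, ht, rfl⟩ := (D.mem_RR hϖ0 hϖ).1 hy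
  obtain ⟨ya, hya, ea⟩ := D.approx_int hϖ0 hϖ a
  obtain ⟨yt, hyt, et⟩ := D.approx_int hϖ0 hϖ t
  obtain ⟨u, hu⟩ := ht.exists_right_inv
  have ht0 : (t : E') ≠ 0 := D.ne_zero_of_isUnit_phi ht
  have htinv : (t : E')⁻¹ ∈ D.RR hϖ0 hϖ := (D.mem_RR hϖ0 hϖ).2 ⟨1, t, ht, by simp⟩
  have huE : algebraMap R E' (D.phi t) * algebraMap R E' u = 1 := by rw [← map_mul, hu, map_one]
  refine ⟨D.phi a * u, (ya - algebraMap R E' (D.phi a * u) * yt) * (t : E')⁻¹,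
    (D.RR hϖ0 hϖ).mul_mem ((D.RR hϖ0 hϖ).sub_mem hya
      ((D.RR hϖ0 hϖ).mul_mem (D.map_mem_RR hϖ0 hϖ _) hyt)) htinv, ?_⟩
  rw [map_mul]
  field_simp
  rw [ea]
  conv_rhs => rw [et]
  linear_combination (- algebraMap R E' (D.phi a)) * huE

/-- (I) `g R'' ∩ R = g R` -/
theorem dvd_of_mem {g r : R} {y : E'} (hy : y ∈ D.RR hϖ0 hϖ)
    (h : algebraMap R E' r = algebraMap R E' g * y) : g ∣ r := by
  obtain ⟨a, t, ht, rfl⟩ := (D.mem_RR hϖ0 hϖ).1 hy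
  have ht0 : (t : E') ≠ 0 := D.ne_zero_of_isUnit_phi ht
  have h1 : algebraMap R (integralClosure R E') r * t = algebraMap R (integralClosure R E') g * a := by
    apply Subtype.ext
    change algebraMap R E' r * (t : E') = algebraMap R E' g * (a : E')
    rw [h]; field_simp
  have h2 := congrArg D.phi h1
  rw [D.phi_smul, D.phi_smul] at h2
  obtain ⟨u, hu⟩ := ht.exists_right_inv
  exact ⟨D.phi a * u, by
    calc r = r * (D.phi t * u) := by rw [hu, mul_one]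
      _ = g * (D.phi a * u) := by rw [← mul_assoc, h2]; ring⟩

end Loc


section Final

variable [FiniteDimensional E E'] (hϖ0 : ϖ ≠ 0) (hϖ : ϖ ∈ maximalIdeal R)

theorem isLocalization_RR : IsLocalization.AtPrime (D.RR hϖ0 hϖ) (D.nn hϖ0 hϖ) := by
  haveI := D.isFrac
  exact Localization.subalgebra.isLocalization_ofField E' _ _

theorem isLocalRing_RR : IsLocalRing (D.RR hϖ0 hϖ) :=
  haveI := D.isLocalization_RR hϖ0 hϖ
  IsLocalization.AtPrime.isLocalRing _ (D.nn hϖ0 hϖ)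

theorem isNoetherianRing_RR [Algebra.IsSeparable E E'] [IsNoetherianRing R] :
    IsNoetherianRing (D.RR hϖ0 hϖ) :=
  haveI := D.isLocalization_RR hϖ0 hϖ
  IsLocalization.isNoetherianRing (D.nn hϖ0 hϖ).primeCompl _ (integralClosure.isNoetherianRing (K := E) E')

theorem isFractionRing_RR : IsFractionRing (D.RR hϖ0 hϖ) E' := by
  haveI := D.isFrac
  exact Localization.subalgebra.isFractionRing_ofField E' _ _

/-- `R → R''` -/
def io (r : R) : D.RR hϖ0 hϖ := ⟨algebraMap R E' r, D.map_mem_RR hϖ0 hϖ r⟩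

theorem io_mul (a b : R) : D.io hϖ0 hϖ (a * b) = D.io hϖ0 hϖ a * D.io hϖ0 hϖ b :=
  Subtype.ext (map_mul _ _ _)

theorem io_add (a b : R) : D.io hϖ0 hϖ (a + b) = D.io hϖ0 hϖ a + D.io hϖ0 hϖ b :=
  Subtype.ext (map_add _ _ _)

theorem io_one : D.io hϖ0 hϖ 1 = 1 := Subtype.ext (map_one _)

theorem io_dvd {g r : R} : D.io hϖ0 hϖ g ∣ D.io hϖ0 hϖ r ↔ g ∣ r := by
  constructor
  · rintro ⟨y, hy⟩
    exact D.dvd_of_mem hϖ0 hϖ y.2 (congrArg Subtype.val hy)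
  · rintro ⟨c, rfl⟩
    exact ⟨D.io hϖ0 hϖ c, D.io_mul hϖ0 hϖ _ _⟩

theorem isUnit_io {r : R} : IsUnit (D.io hϖ0 hϖ r) ↔ IsUnit r := by
  rw [isUnit_iff_dvd_one, isUnit_iff_dvd_one, ← D.io_one hϖ0 hϖ, D.io_dvd]

theorem approx (y : D.RR hϖ0 hϖ) : ∃ (r : R) (y' : D.RR hϖ0 hϖ), y = D.io hϖ0 hϖ r + D.io hϖ0 hϖ ϖ * y' := by
  obtain ⟨r, y', hy', e⟩ := D.exists_approx hϖ0 hϖ y.2
  exact ⟨r, ⟨y', hy'⟩, Subtype.ext e⟩

theorem prime_io {X : R} (hX : Prime X) (hXϖ : X ∣ ϖ) : Prime (D.io hϖ0 hϖ X) := by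
  refine ⟨fun h => hX.ne_zero (D.algebraMap_inj ?_), fun h => hX.not_isUnit ((D.isUnit_io hϖ0 hϖ).1 h), ?_⟩
  · rw [map_zero]; exact congrArg Subtype.val h
  intro a b hab
  obtain ⟨ra, a', rfl⟩ := D.approx hϖ0 hϖ a
  obtain ⟨rb, b', rfl⟩ := D.approx hϖ0 hϖ b
  have hXϖ' : D.io hϖ0 hϖ X ∣ D.io hϖ0 hϖ ϖ := (D.io_dvd hϖ0 hϖ).2 hXϖ
  have h1 : D.io hϖ0 hϖ X ∣ D.io hϖ0 hϖ (ra * rb) := by
    have e : D.io hϖ0 hϖ (ra * rb) = (D.io hϖ0 hϖ ra + D.io hϖ0 hϖ ϖ * a') * (D.io hϖ0 hϖ rb + D.io hϖ0 hϖ ϖ * b')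
        - D.io hϖ0 hϖ ϖ * (a' * D.io hϖ0 hϖ rb + D.io hϖ0 hϖ ra * b' + D.io hϖ0 hϖ ϖ * a' * b') := by
      rw [D.io_mul]; ring
    rw [e]
    exact dvd_sub hab (Dvd.dvd.mul_right hXϖ' _)
  rcases hX.dvd_or_dvd ((D.io_dvd hϖ0 hϖ).1 h1) with h | h
  · left
    exact dvd_add ((D.io_dvd hϖ0 hϖ).2 h) (Dvd.dvd.mul_right hXϖ' _)
  · right
    exact dvd_add ((D.io_dvd hϖ0 hϖ).2 h) (Dvd.dvd.mul_right hXϖ' _)

theorem maximalIdeal_RR {X Y : R} (hm : maximalIdeal R = span {X} ⊔ span {Y}) (hXϖ : X ∣ ϖ) :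
    haveI := D.isLocalRing_RR hϖ0 hϖ
    maximalIdeal (D.RR hϖ0 hϖ) = span {D.io hϖ0 hϖ X} ⊔ span {D.io hϖ0 hϖ Y} := by
  haveI := D.isLocalRing_RR hϖ0 hϖ
  have hXm : X ∈ maximalIdeal R := by rw [hm]; exact Submodule.mem_sup_left (mem_span_singleton_self X)
  have hYm : Y ∈ maximalIdeal R := by rw [hm]; exact Submodule.mem_sup_right (mem_span_singleton_self Y)
  apply le_antisymm
  · intro y hy
    obtain ⟨r, y', rfl⟩ := D.approx hϖ0 hϖ y
    have hϖ' : D.io hϖ0 hϖ ϖ ∈ maximalIdeal (D.RR hϖ0 hϖ) :=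
      (mem_maximalIdeal _).2 fun h => (mem_maximalIdeal _).1 hϖ ((D.isUnit_io hϖ0 hϖ).1 h)
    have hr : D.io hϖ0 hϖ r ∈ maximalIdeal (D.RR hϖ0 hϖ) := by
      have := (maximalIdeal (D.RR hϖ0 hϖ)).sub_mem hy ((maximalIdeal (D.RR hϖ0 hϖ)).mul_mem_right y' hϖ')
      rwa [add_sub_cancel_right] at this
    have hr' : r ∈ maximalIdeal R :=
      (mem_maximalIdeal _).2 fun h => (mem_maximalIdeal _).1 hr ((D.isUnit_io hϖ0 hϖ).2 h)
    rw [hm] at hr'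
    obtain ⟨a, ha, b, hb, rfl⟩ := Submodule.mem_sup.1 hr'
    obtain ⟨a, rfl⟩ := mem_span_singleton.1 ha
    obtain ⟨b, rfl⟩ := mem_span_singleton.1 hb
    obtain ⟨c, rfl⟩ := hXϖ
    have e : D.io hϖ0 hϖ (X * a + Y * b) + D.io hϖ0 hϖ (X * c) * y' =
        D.io hϖ0 hϖ X * (D.io hϖ0 hϖ a + D.io hϖ0 hϖ c * y') + D.io hϖ0 hϖ Y * D.io hϖ0 hϖ b := by
      rw [D.io_add, D.io_mul, D.io_mul, D.io_mul]; ring
    rw [e]
    exact Submodule.add_mem_sup (mem_span_singleton.2 (Dvd.intro _ rfl)) (mem_span_singleton.2 (Dvd.intro _ rfl))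
  · refine sup_le ((span_singleton_le_iff_mem _).2 ?_) ((span_singleton_le_iff_mem _).2 ?_)
    · exact (mem_maximalIdeal _).2 fun h => (mem_maximalIdeal _).1 hXm ((D.isUnit_io hϖ0 hϖ).1 h)
    · exact (mem_maximalIdeal _).2 fun h => (mem_maximalIdeal _).1 hYm ((D.isUnit_io hϖ0 hϖ).1 h)


end Final

end Sheet

/-- **the node relation on a cover split modulo `ϖ`** (for the trivial cover take `δ = 1`, `n = 1`, `e = 1`).
`z ∈ E'` whose "horizontal" divisor is divisible by `N` is `unit * X^i * Y^j * w^N` at the node on the sheet of `e`. -/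
theorem Sheet.node_rel [IsDomain R] [IsLocalRing R] [IsNoetherianRing R] [IsFractionRing R E]
    [FiniteDimensional E E'] [Algebra.IsSeparable E E'] {ϖ : R} (D : Sheet (E := E) R E' ϖ) (hϖ0 : ϖ ≠ 0)
    {X Y : R} (hX : Prime X) (hY : Prime Y) (hm : maximalIdeal R = span {X} ⊔ span {Y})
    (hXY : ∃ c : R, IsUnit c ∧ X * Y = ϖ * c) (N : ℕ) (hN : 0 < N) (z : E') (hz : z ≠ 0)
    (H : ∀ (V : ValuationSubring E') (h : E'), (∀ a : E', IsIntegral R a → a ∈ V) →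
      (algebraMap R E' ϖ)⁻¹ ∈ V → h ∈ V → h⁻¹ ∉ V →
      (∀ y : E', y ≠ 0 → ∃ k : ℤ, y * h ^ k ∈ V ∧ (y * h ^ k)⁻¹ ∈ V) →
      ∃ w : E', w ≠ 0 ∧ z * w ^ N ∈ V ∧ (z * w ^ N)⁻¹ ∈ V) :
    ∃ (i j : ℤ) (a t w : E') (ra rt : R), IsUnit ra ∧ IsUnit rt ∧ IsIntegral R a ∧ IsIntegral R t ∧
      D.e * (a - algebraMap R E' ra) ∈ JJ R E' ϖ ∧ D.e * (t - algebraMap R E' rt) ∈ JJ R E' ϖ ∧ w ≠ 0 ∧
      z * t = a * algebraMap R E' X ^ i * algebraMap R E' Y ^ j * w ^ N := by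
  obtain ⟨c, hc, hXYc⟩ := hXY
  obtain ⟨c', hc'⟩ := hc.exists_right_inv
  have hϖe : ϖ = X * Y * c' := by rw [hXYc, mul_assoc, hc', mul_one]
  have hXϖ : X ∣ ϖ := ⟨Y * c', by rw [hϖe]; ring⟩
  have hYϖ : Y ∣ ϖ := ⟨X * c', by rw [hϖe]; ring⟩
  have hϖ : ϖ ∈ maximalIdeal R := by
    obtain ⟨d, rfl⟩ := hXϖ
    refine (maximalIdeal R).mul_mem_right _ ?_
    rw [hm]; exact Submodule.mem_sup_left (mem_span_singleton_self X)
  -- `R` is a UFD, hence integrally closed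
  haveI : IsPrincipalIdealRing (R ⧸ span {X}) := isPrincipalIdealRing_quot hX hm
  haveI : UniqueFactorizationMonoid R := ufd_of_quot X hX
  -- the same for `R''`
  haveI := D.isLocalRing_RR hϖ0 hϖ
  haveI := D.isNoetherianRing_RR hϖ0 hϖ
  haveI := D.isFractionRing_RR hϖ0 hϖ
  have hX' := D.prime_io hϖ0 hϖ hX hXϖ
  have hY' := D.prime_io hϖ0 hϖ hY hYϖ
  have hm' := D.maximalIdeal_RR hϖ0 hϖ hm hXϖ
  haveI : IsPrincipalIdealRing (D.RR hϖ0 hϖ ⧸ span {D.io hϖ0 hϖ X}) := isPrincipalIdealRing_quot hX' hm'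
  haveI : UniqueFactorizationMonoid (D.RR hϖ0 hϖ) := ufd_of_quot _ hX'
  obtain ⟨e, i, j, c1, d1, hc1, -, hd1, -, hzz⟩ := node_factor (K := E') (D.io hϖ0 hϖ X) (D.io hϖ0 hϖ Y) hX' hY'
    N hN z hz (by
      intro π hπ hπX hπY
      have hπϖ : ¬ π ∣ D.io hϖ0 hϖ ϖ := by
        intro h
        have hio : D.io hϖ0 hϖ ϖ = D.io hϖ0 hϖ X * D.io hϖ0 hϖ Y * D.io hϖ0 hϖ c' := by
          apply Subtype.ext
          change algebraMap R E' ϖ = algebraMap R E' X * algebraMap R E' Y * algebraMap R E' c'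
          rw [← map_mul, ← map_mul, ← hϖe]
        rw [hio] at h
        rcases hπ.dvd_or_dvd h with h | h
        · rcases hπ.dvd_or_dvd h with h | h
          · exact hπX ((hπ.dvd_prime_iff_associated hX').1 h)
          · exact hπY ((hπ.dvd_prime_iff_associated hY').1 h)
        · exact hπ.not_isUnit (isUnit_of_dvd_unit h ((D.isUnit_io hϖ0 hϖ).2
            (IsUnit.of_mul_eq_one c (by rw [mul_comm]; exact hc'))))
      obtain ⟨w, hw0, hw1, hw2⟩ := H (primeVal E' π hπ) (algebraMap _ E' π)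
        (fun a ha => map_mem_primeVal hπ (⟨a, D.int_mem_RR hϖ0 hϖ ha⟩ : D.RR hϖ0 hϖ))
        (inv_mem_primeVal hπ hπϖ) (map_mem_primeVal hπ π) (inv_notMem_primeVal hπ)
        (fun y hy => exists_zpow_primeVal hπ hy)
      obtain ⟨k, hk1, hk2⟩ := exists_zpow_primeVal (K := E') hπ hw0
      have hπK : algebraMap (D.RR hϖ0 hϖ) E' π ≠ 0 := fun h => hπ.ne_zero (pvAux_inj E' (by rw [h, map_zero]))
      -- `z * π^(-N k)` is a unit
      have e1 : z * algebraMap (D.RR hϖ0 hϖ) E' π ^ (-((N : ℤ) * k)) =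
          (z * w ^ N) * ((w * algebraMap (D.RR hϖ0 hϖ) E' π ^ k)⁻¹) ^ N := by
        have e0 : algebraMap (D.RR hϖ0 hϖ) E' π ^ (-((N : ℤ) * k)) =
            ((algebraMap (D.RR hϖ0 hϖ) E' π ^ k) ^ N)⁻¹ := by
          rw [zpow_neg, mul_comm, zpow_mul, zpow_natCast]
        have hk0 : algebraMap (D.RR hϖ0 hϖ) E' π ^ k ≠ 0 := zpow_ne_zero _ hπK
        rw [e0, mul_inv, mul_pow, inv_pow, inv_pow]
        field_simp
      have h1 : z * algebraMap (D.RR hϖ0 hϖ) E' π ^ (-((N : ℤ) * k)) ∈ primeVal E' π hπ := by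
        rw [e1]; exact mul_mem hw1 (pow_mem hk2 N)
      have h2 : (z * algebraMap (D.RR hϖ0 hϖ) E' π ^ (-((N : ℤ) * k)))⁻¹ ∈ primeVal E' π hπ := by
        rw [e1, mul_inv, ← inv_pow, inv_inv]; exact mul_mem hw2 (pow_mem hk1 N)
      obtain ⟨a', b', ha', hb', e2⟩ := exists_of_unit_primeVal hπ h1 h2
        (mul_ne_zero hz (zpow_ne_zero _ hπK))
      refine ⟨k, a', b', ha', hb', ?_⟩
      rw [← e2, zpow_neg]
      field_simp)
  obtain ⟨a, t, ht, hat⟩ := (D.mem_RR hϖ0 hϖ).1 (e : D.RR hϖ0 hϖ).2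
  have ht0 : (t : E') ≠ 0 := D.ne_zero_of_isUnit_phi ht
  have htinv : (t : E')⁻¹ ∈ D.RR hϖ0 hϖ := (D.mem_RR hϖ0 hϖ).2 ⟨1, t, ht, by simp⟩
  -- `a` is a unit of `R''`
  have hau : IsUnit (⟨a, D.int_mem_RR hϖ0 hϖ a.2⟩ : D.RR hϖ0 hϖ) := by
    refine IsUnit.of_mul_eq_one ((↑(e⁻¹) : D.RR hϖ0 hϖ) * ⟨(t : E')⁻¹, htinv⟩) ?_
    apply Subtype.ext
    have h1 : ((e : D.RR hϖ0 hϖ) : E') * ((↑(e⁻¹) : D.RR hϖ0 hϖ) : E') = 1 :=
      congrArg Subtype.val (Units.mul_inv e)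
    change (a : E') * (((↑(e⁻¹) : D.RR hϖ0 hϖ) : E') * (t : E')⁻¹) = 1
    rw [hat] at h1
    linear_combination h1
  have hra : IsUnit (D.phi a) := by
    by_contra hna
    obtain ⟨y, hy, ea⟩ := D.approx_int hϖ0 hϖ a
    have hϖ' : D.io hϖ0 hϖ ϖ ∈ maximalIdeal (D.RR hϖ0 hϖ) :=
      (mem_maximalIdeal _).2 fun h => (mem_maximalIdeal _).1 hϖ ((D.isUnit_io hϖ0 hϖ).1 h)
    have h2 : D.io hϖ0 hϖ (D.phi a) ∈ maximalIdeal (D.RR hϖ0 hϖ) :=
      (mem_maximalIdeal _).2 fun h => hna ((D.isUnit_io hϖ0 hϖ).1 h)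
    have h3 : (⟨a, D.int_mem_RR hϖ0 hϖ a.2⟩ : D.RR hϖ0 hϖ) = D.io hϖ0 hϖ (D.phi a) + D.io hϖ0 hϖ ϖ * ⟨y, hy⟩ :=
      Subtype.ext ea
    have h4 : (⟨a, D.int_mem_RR hϖ0 hϖ a.2⟩ : D.RR hϖ0 hϖ) ∈ maximalIdeal (D.RR hϖ0 hϖ) := by
      rw [h3]
      exact (maximalIdeal _).add_mem h2 ((maximalIdeal _).mul_mem_right _ hϖ')
    exact (mem_maximalIdeal _).1 h4 hau
  have hc10 : algebraMap (D.RR hϖ0 hϖ) E' c1 ≠ 0 := fun h => hc1 (by
    have : c1 = 0 := pvAux_inj E' (by rw [h, map_zero])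
    rw [this]; exact dvd_zero _)
  have hd10 : algebraMap (D.RR hϖ0 hϖ) E' d1 ≠ 0 := fun h => hd1 (by
    have : d1 = 0 := pvAux_inj E' (by rw [h, map_zero])
    rw [this]; exact dvd_zero _)
  refine ⟨i, j, a, t, algebraMap (D.RR hϖ0 hϖ) E' c1 / algebraMap (D.RR hϖ0 hϖ) E' d1, D.phi a, D.phi t, hra, ht,
    a.2, t.2, D.e_mul_sub_phi a, D.e_mul_sub_phi t, div_ne_zero hc10 hd10, ?_⟩
  have he : algebraMap (D.RR hϖ0 hϖ) E' (e : D.RR hϖ0 hϖ) = (a : E') * (t : E')⁻¹ := hat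
  have hXe : algebraMap (D.RR hϖ0 hϖ) E' (D.io hϖ0 hϖ X) = algebraMap R E' X := rfl
  have hYe : algebraMap (D.RR hϖ0 hϖ) E' (D.io hϖ0 hϖ Y) = algebraMap R E' Y := rfl
  rw [hzz, he, hXe, hYe]
  field_simp

end Cover

end Fermat.Agent.S44.Alg
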