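import Mathlib

/-!
# S44 / Alg / RootDvr   [key S44/ALG-R2]   (Mathlib only)   (helper27; one of four independent lemmas for the root trick AE2)

* R2: a "discrete" valuation ring `V1` of `K1` (uniformiser `π`) restricted to a subfield `K` on which it is not trivial is again discrete.
  `A := {k : ℤ | ∃ y : K, y ≠ 0 ∧ y * π^k ∈ V1 ∧ (y * π^k)⁻¹ ∈ V1}` (images in `K1`) is an additive subgroup of `ℤ`, so `A = zmultiples m` (`Int.subgroup_cyclic`), `m ≠ 0` because of `y0`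
  (the exponent `k` of `y0` is `≠ 0`: otherwise `y0⁻¹ ∈ V1`); replace `m` by `-|m|`: `h` := an element with exponent `-|m|`, i.e. `h * π^(-|m|)` a unit: `h ∈ V`, `h⁻¹ ∉ V`
  (uses `π ∈ V1`, `π⁻¹ ∉ V1`); for `y` with exponent `k = |m| * l` take `h ^ l`:  `y * h^l = (y π^k) * (h π^(-|m|))^l`.
-/

set_option autoImplicit false

open Polynomial

namespace Fermat.Agent.S44.Alg

/-- units of a valuation subring -/
def rootDvrU {K1 : Type*} [Field K1] (V1 : ValuationSubring K1) (z : K1) : Prop := z ∈ V1 ∧ z⁻¹ ∈ V1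

theorem rootDvrU_one {K1 : Type*} [Field K1] (V1 : ValuationSubring K1) : rootDvrU V1 1 :=
  ⟨one_mem _, by rw [inv_one]; exact one_mem _⟩

theorem rootDvrU.mul {K1 : Type*} [Field K1] {V1 : ValuationSubring K1} {a b : K1}
    (ha : rootDvrU V1 a) (hb : rootDvrU V1 b) : rootDvrU V1 (a * b) :=
  ⟨mul_mem ha.1 hb.1, by rw [mul_inv]; exact mul_mem ha.2 hb.2⟩

theorem rootDvrU.inv {K1 : Type*} [Field K1] {V1 : ValuationSubring K1} {a : K1}
    (ha : rootDvrU V1 a) : rootDvrU V1 a⁻¹ :=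
  ⟨ha.2, by rw [inv_inv]; exact ha.1⟩

theorem rootDvrU.pow {K1 : Type*} [Field K1] {V1 : ValuationSubring K1} {a : K1}
    (ha : rootDvrU V1 a) (n : ℕ) : rootDvrU V1 (a ^ n) :=
  ⟨pow_mem ha.1 n, by rw [← inv_pow]; exact pow_mem ha.2 n⟩

theorem rootDvrU.zpow {K1 : Type*} [Field K1] {V1 : ValuationSubring K1} {a : K1}
    (ha : rootDvrU V1 a) (n : ℤ) : rootDvrU V1 (a ^ n) := by
  cases n with
  | ofNat n => simpa using ha.pow n
  | negSucc n =>
    rw [zpow_negSucc]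
    exact (ha.pow (n + 1)).inv

theorem rootDvrU_pow_pos {K1 : Type*} [Field K1] {V1 : ValuationSubring K1} {π : K1}
    (hπ : π ∈ V1) (hπ' : π⁻¹ ∉ V1) {n : ℕ} (h : rootDvrU V1 (π ^ (n + 1))) : False := by
  apply hπ'
  have hπ0 : π ≠ 0 := by
    rintro rfl
    exact hπ' (by rw [inv_zero]; exact zero_mem _)
  have e : π⁻¹ = π ^ n * (π ^ (n + 1))⁻¹ := by
    rw [pow_succ]
    field_simp
  rw [e]
  exact mul_mem (pow_mem hπ n) h.2

theorem rootDvrU_zpow_eq_zero {K1 : Type*} [Field K1] {V1 : ValuationSubring K1} {π : K1}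
    (hπ : π ∈ V1) (hπ' : π⁻¹ ∉ V1) {n : ℤ} (h : rootDvrU V1 (π ^ n)) : n = 0 := by
  rcases n with (_ | n) | n
  · rfl
  · exfalso
    refine rootDvrU_pow_pos hπ hπ' (n := n) ?_
    have h' : rootDvrU V1 (π ^ (((n + 1 : ℕ) : ℤ))) := h
    rwa [zpow_natCast] at h'
  · exfalso
    refine rootDvrU_pow_pos hπ hπ' (n := n) ?_
    have := h.inv
    rwa [zpow_negSucc, inv_inv] at this

/-- [key S44/ALG-R2] -/
theorem dvr_comap {K K1 : Type*} [Field K] [Field K1] [Algebra K K1] (V1 : ValuationSubring K1) {π : K1}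
    (hπ : π ∈ V1) (hπ' : π⁻¹ ∉ V1)
    (hd : ∀ y : K1, y ≠ 0 → ∃ k : ℤ, y * π ^ k ∈ V1 ∧ (y * π ^ k)⁻¹ ∈ V1)
    {y0 : K} (hy0 : algebraMap K K1 y0 ∈ V1) (hy0' : (algebraMap K K1 y0)⁻¹ ∉ V1) :
    ∃ h : K, algebraMap K K1 h ∈ V1 ∧ (algebraMap K K1 h)⁻¹ ∉ V1 ∧
      ∀ y : K, y ≠ 0 → ∃ k : ℤ, algebraMap K K1 (y * h ^ k) ∈ V1 ∧ (algebraMap K K1 (y * h ^ k))⁻¹ ∈ V1 := by
  have hπ0 : π ≠ 0 := by
    rintro rfl
    exact hπ' (by rw [inv_zero]; exact zero_mem _)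
  have hy00 : y0 ≠ 0 := by
    rintro rfl
    exact hy0' (by rw [map_zero, inv_zero]; exact zero_mem _)
  let A : AddSubgroup ℤ :=
    { carrier := {k | ∃ y : K, y ≠ 0 ∧ rootDvrU V1 (algebraMap K K1 y * π ^ k)}
      zero_mem' := ⟨1, one_ne_zero, by simpa using rootDvrU_one V1⟩
      add_mem' := by
        rintro a b ⟨y, hy, h1⟩ ⟨y', hy', h2⟩
        refine ⟨y * y', mul_ne_zero hy hy', ?_⟩
        have e : algebraMap K K1 (y * y') * π ^ (a + b) =
            (algebraMap K K1 y * π ^ a) * (algebraMap K K1 y' * π ^ b) := by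
          rw [map_mul, zpow_add₀ hπ0]
          ring
        rw [e]
        exact h1.mul h2
      neg_mem' := by
        rintro a ⟨y, hy, h1⟩
        refine ⟨y⁻¹, inv_ne_zero hy, ?_⟩
        have e : algebraMap K K1 y⁻¹ * π ^ (-a) = (algebraMap K K1 y * π ^ a)⁻¹ := by
          rw [map_inv₀, zpow_neg, mul_inv]
        rw [e]
        exact h1.inv }
  have hA : ∀ k : ℤ, k ∈ A ↔ ∃ y : K, y ≠ 0 ∧ rootDvrU V1 (algebraMap K K1 y * π ^ k) :=
    fun _ => Iff.rfl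
  obtain ⟨m, hm⟩ := Int.subgroup_cyclic A
  rw [← AddSubgroup.zmultiples_eq_closure] at hm
  have hdvd : ∀ k : ℤ, k ∈ A ↔ m ∣ k := fun k => by rw [hm, Int.mem_zmultiples_iff]
  -- `m ≠ 0`
  obtain ⟨k0, hk0⟩ := hd (algebraMap K K1 y0) ((_root_.map_ne_zero _).2 hy00)
  have hk0A : k0 ∈ A := (hA k0).2 ⟨y0, hy00, hk0⟩
  have hk00 : k0 ≠ 0 := by
    rintro rfl
    rw [zpow_zero, mul_one] at hk0
    exact hy0' hk0.2
  have hm0 : m ≠ 0 := by
    rintro rfl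
    exact hk00 (zero_dvd_iff.1 ((hdvd k0).1 hk0A))
  have hN : (0 : ℤ) < |m| := abs_pos.2 hm0
  have hNA : -|m| ∈ A := (hdvd _).2 ((dvd_neg).2 ((dvd_abs m m).2 dvd_rfl))
  obtain ⟨h, hh0, hh⟩ := (hA _).1 hNA
  have hπN : π ^ |m| ∈ V1 := by
    obtain ⟨n, hn⟩ := Int.eq_ofNat_of_zero_le hN.le
    rw [hn, zpow_natCast]
    exact pow_mem hπ n
  refine ⟨h, ?_, ?_, ?_⟩
  · have e : algebraMap K K1 h = (algebraMap K K1 h * π ^ (-|m|)) * π ^ |m| := by
      rw [mul_assoc, ← zpow_add₀ hπ0, neg_add_cancel, zpow_zero, mul_one]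
    rw [e]
    exact mul_mem hh.1 hπN
  · intro hinv
    have hU : rootDvrU V1 (algebraMap K K1 h) := by
      refine ⟨?_, hinv⟩
      have e : algebraMap K K1 h = (algebraMap K K1 h * π ^ (-|m|)) * π ^ |m| := by
        rw [mul_assoc, ← zpow_add₀ hπ0, neg_add_cancel, zpow_zero, mul_one]
      rw [e]
      exact mul_mem hh.1 hπN
    have h2 : rootDvrU V1 (π ^ (-|m|)) := by
      have e : π ^ (-|m|) = (algebraMap K K1 h)⁻¹ * (algebraMap K K1 h * π ^ (-|m|)) := by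
        rw [← mul_assoc, inv_mul_cancel₀ ((_root_.map_ne_zero _).2 hh0), one_mul]
      rw [e]
      exact hU.inv.mul hh
    have h3 := rootDvrU_zpow_eq_zero hπ hπ' h2
    omega
  · intro y hy
    obtain ⟨k, hk⟩ := hd (algebraMap K K1 y) ((_root_.map_ne_zero _).2 hy)
    have hkA : k ∈ A := (hA k).2 ⟨y, hy, hk⟩
    obtain ⟨l, hl⟩ : |m| ∣ k := (abs_dvd m k).2 ((hdvd k).1 hkA)
    refine ⟨l, ?_⟩
    have e : algebraMap K K1 (y * h ^ l) =
        (algebraMap K K1 y * π ^ k) * (algebraMap K K1 h * π ^ (-|m|)) ^ l := by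
      rw [map_mul, map_zpow₀, mul_zpow, ← zpow_mul, hl, neg_mul, zpow_neg]
      have : π ^ (|m| * l) ≠ 0 := zpow_ne_zero _ hπ0
      field_simp
    rw [e]
    exact rootDvrU.mul hk (hh.zpow l)

end Fermat.Agent.S44.Alg
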