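import Mathlib

/-!
# S44 / Alg / RootFrac   [key S44/ALG-R3]   (Mathlib only)   (helper27; one of four independent lemmas for the root trick AE2)

* R3: `y = aeval S f`, `f ∈ K[X]`; common denominator `b ≠ 0` of the coefficients (`IsLocalization.integerNormalization`, `IsLocalization.integerNormalization_spec` /
  `IsLocalization.exist_integer_multiples_of_finset`): `b • y = ∑ r_k S^k ∈ A`.  Then `IsFractionRing.of_field` (or `IsLocalization` by hand).
-/

set_option autoImplicit false

open Polynomial

namespace Fermat.Agent.S44.Alg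

/-- [key S44/ALG-R3] -/
theorem isFractionRing_of_gen {R K K1 : Type*} [CommRing R] [IsDomain R] [Field K] [Algebra R K] [IsFractionRing R K]
    [Field K1] [Algebra K K1] [Algebra R K1] [IsScalarTower R K K1] (A : Subalgebra R K1) {S : K1} (hS : S ∈ A)
    (hgen : ∀ y : K1, ∃ f : K[X], aeval S f = y) : IsFractionRing A K1 := by
  have hinj : Function.Injective (algebraMap R K1) := by
    rw [IsScalarTower.algebraMap_eq R K K1]
    exact (algebraMap K K1).injective.comp (IsFractionRing.injective R K)
  refine IsFractionRing.of_field A K1 fun y => ?_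
  obtain ⟨f, hf⟩ := hgen y
  obtain ⟨b, hbM, hb⟩ := IsLocalization.integerNormalization_spec (nonZeroDivisors R) f
  have hb0 : (b : R) ≠ 0 := nonZeroDivisors.ne_zero hbM
  have h1 : aeval S (IsLocalization.integerNormalization (nonZeroDivisors R) f) =
      algebraMap R K1 (b : R) * y := by
    rw [← aeval_map_algebraMap K, hb, Algebra.smul_def, map_mul, hf]
    congr 1
    have e : algebraMap R K[X] (b : R) = C (algebraMap R K (b : R)) := rfl
    rw [e, aeval_C, ← IsScalarTower.algebraMap_apply]
  refine ⟨aeval (⟨S, hS⟩ : A) (IsLocalization.integerNormalization (nonZeroDivisors R) f),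
    algebraMap R A (b : R), ?_⟩
  have h2 : algebraMap A K1 (aeval (⟨S, hS⟩ : A)
      (IsLocalization.integerNormalization (nonZeroDivisors R) f)) =
      aeval S (IsLocalization.integerNormalization (nonZeroDivisors R) f) :=
    (Subalgebra.aeval_coe A ⟨S, hS⟩ _).symm
  have h3 : algebraMap A K1 (algebraMap R A (b : R)) = algebraMap R K1 (b : R) := rfl
  rw [h2, h3, h1, mul_div_cancel_left₀]
  exact fun h0 => hb0 (hinj (by rw [h0, map_zero]))

end Fermat.Agent.S44.Alg
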