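import Mathlib

/-!
# S44 / Alg / RootNorm   [key S44/ALG-R4]   (Mathlib only)   (helper27; one of four independent lemmas for the root trick AE2)

* R4: `Algebra.isIntegral_norm`, `IsIntegrallyClosed.isIntegral_iff` (`algebraMap_eq_of_integral`), `map_mul`, `Algebra.norm_algebraMap`.
-/

set_option autoImplicit false

open Polynomial

namespace Fermat.Agent.S44.Alg

/-- [key S44/ALG-R4] -/
theorem norm_unit {R K K1 : Type*} [CommRing R] [IsDomain R] [IsIntegrallyClosed R] [Field K] [Algebra R K]
    [IsFractionRing R K] [Field K1] [Algebra K K1] [Algebra R K1] [IsScalarTower R K K1] [FiniteDimensional K K1]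
    {ε ε' : K1} (h1 : IsIntegral R ε) (h2 : IsIntegral R ε') (h : ε * ε' = 1) :
    ∃ η : Rˣ, algebraMap R K (η : R) = Algebra.norm K ε := by
  obtain ⟨a, ha⟩ := IsIntegrallyClosed.isIntegral_iff.1 (Algebra.isIntegral_norm K h1)
  obtain ⟨a', ha'⟩ := IsIntegrallyClosed.isIntegral_iff.1 (Algebra.isIntegral_norm K h2)
  have h3 : a * a' = 1 := by
    apply IsFractionRing.injective R K
    rw [map_mul, ha, ha', ← map_mul, h, map_one, map_one]
  exact ⟨⟨a, a', h3, by rw [mul_comm]; exact h3⟩, ha⟩

/-- [key S44/ALG-R4] -/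
theorem norm_root {K K1 : Type*} [Field K] [Field K1] [Algebra K K1] [FiniteDimensional K K1] {S : K1} {x : K} {e : ℕ}
    (h : S ^ e = algebraMap K K1 x) : Algebra.norm K S ^ e = x ^ Module.finrank K K1 := by
  rw [← map_pow, h, Algebra.norm_algebraMap]

end Fermat.Agent.S44.Alg
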