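import Fermat.Agent.S44.Alg.RootRing
import Fermat.Agent.S44.Alg.RootAux
import Fermat.Agent.S44.Alg.PrimeVal

/-!
# S44 / Alg / Root : the node relation at a node of thickness `e`, `p ∤ e`   [key S44/ALG-ROOT]   (Mathlib only)   (helper27; maths helper14 #1330 AE2)

`R` noetherian local integrally closed domain, `𝔪 = (X, Y, ϖ)`, `X Y = c ϖ^e`.  `K1 = K[S]`, `S` a root of an irreducible factor of degree `d` prime to `p` of `T^e - X`.
`R[S, ϖ/S]` is a regular node (`RootRing.lean`), so `z = ε S^i T^j w^p`; the norm to `K`, raised to the power `e`, gives `z^(d e) = η X^(d i) Y^(d j) w'^p`.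
-/

set_option autoImplicit false
set_option linter.style.haveILetI false

open Ideal IsLocalRing Polynomial

namespace Fermat.Agent.S44.Alg

/-- from `z * w ^ N` a unit at `π` to the shape used by `node_factor` -/
theorem primeVal_pow_repr {S K : Type*} [CommRing S] [IsDomain S] [UniqueFactorizationMonoid S] [Field K]
    [Algebra S K] [IsFractionRing S K] {π : S} (hπ : Prime π) {N : ℕ} {z w : K} (hz : z ≠ 0) (hw0 : w ≠ 0)
    (hw1 : z * w ^ N ∈ primeVal K π hπ) (hw2 : (z * w ^ N)⁻¹ ∈ primeVal K π hπ) :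
    ∃ (k : ℤ) (a' b' : S), ¬ π ∣ a' ∧ ¬ π ∣ b' ∧
      z * algebraMap S K b' = algebraMap S K π ^ ((N : ℤ) * k) * algebraMap S K a' := by
  obtain ⟨k, hk1, hk2⟩ := exists_zpow_primeVal (K := K) hπ hw0
  have hπK : algebraMap S K π ≠ 0 := fun h => hπ.ne_zero (pvAux_inj K (by rw [h, map_zero]))
  have e1 : z * algebraMap S K π ^ (-((N : ℤ) * k)) =
      (z * w ^ N) * ((w * algebraMap S K π ^ k)⁻¹) ^ N := by
    have e0 : algebraMap S K π ^ (-((N : ℤ) * k)) = ((algebraMap S K π ^ k) ^ N)⁻¹ := by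
      rw [zpow_neg, mul_comm, zpow_mul, zpow_natCast]
    have hk0 : algebraMap S K π ^ k ≠ 0 := zpow_ne_zero _ hπK
    rw [e0, mul_inv, mul_pow, inv_pow, inv_pow]
    field_simp
  have h1 : z * algebraMap S K π ^ (-((N : ℤ) * k)) ∈ primeVal K π hπ := by
    rw [e1]; exact mul_mem hw1 (pow_mem hk2 N)
  have h2 : (z * algebraMap S K π ^ (-((N : ℤ) * k)))⁻¹ ∈ primeVal K π hπ := by
    rw [e1, mul_inv, ← inv_pow, inv_inv]; exact mul_mem hw2 (pow_mem hk1 N)
  obtain ⟨a', b', ha', hb', e2⟩ := exists_of_unit_primeVal hπ h1 h2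
    (mul_ne_zero hz (zpow_ne_zero _ hπK))
  refine ⟨k, a', b', ha', hb', ?_⟩
  rw [← e2, zpow_neg]
  field_simp

/-- the norm as a monoid with zero hom -/
noncomputable def normHom (K K1 : Type*) [Field K] [Field K1] [Algebra K K1] [FiniteDimensional K K1] :
    K1 →*₀ K where
  toFun := Algebra.norm K
  map_zero' := Algebra.norm_zero
  map_one' := map_one _
  map_mul' := map_mul _

theorem map_units_zpow {R K : Type*} [CommRing R] [Field K] [Algebra R K] (u : Rˣ) (n : ℤ) :
    algebraMap R K ((u ^ n : Rˣ) : R) = algebraMap R K (u : R) ^ n := by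
  have h := map_zpow (Units.map (algebraMap R K : R →* K)) u n
  have h2 := congrArg (Units.val) h
  rw [Units.val_zpow_eq_zpow_val] at h2
  exact h2

/-- **(AE2)** the node relation at a node of thickness `e` -/
theorem root_node {R K : Type*} [CommRing R] [IsDomain R] [IsLocalRing R] [IsNoetherianRing R]
    [IsIntegrallyClosed R] [Field K] [Algebra R K] [IsFractionRing R K]
    {X Y ϖ c : R} {e : ℕ} (he : 0 < e) (hc : IsUnit c) (hXY : X * Y = c * ϖ ^ e)
    (hm : maximalIdeal R = span {X} ⊔ span {Y} ⊔ span {ϖ})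
    {Q0 Qi : Ideal R} [Q0.IsPrime] [Qi.IsPrime] (hX0 : X ∈ Q0) (hY0 : Y ∉ Q0) (hYi : Y ∈ Qi) (hXi : X ∉ Qi)
    {p : ℕ} (hp : p.Prime) (hpe : ¬ p ∣ e) (z : K) (hz : z ≠ 0)
    (H : ∀ (V : ValuationSubring K) (h : K), (∀ r : R, algebraMap R K r ∈ V) →
      (algebraMap R K ϖ)⁻¹ ∈ V → h ∈ V → h⁻¹ ∉ V →
      (∀ y : K, y ≠ 0 → ∃ k : ℤ, y * h ^ k ∈ V ∧ (y * h ^ k)⁻¹ ∈ V) →
      ∃ w : K, w ≠ 0 ∧ z * w ^ p ∈ V ∧ (z * w ^ p)⁻¹ ∈ V) :
    ∃ (M : ℕ) (η : Rˣ) (i j : ℤ) (w : K), ¬ p ∣ M ∧ w ≠ 0 ∧
      z ^ M = algebraMap R K η * algebraMap R K X ^ i * algebraMap R K Y ^ j * w ^ p := by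
  have hinjK : Function.Injective (algebraMap R K) := IsFractionRing.injective R K
  have hXne : X ≠ 0 := fun h => hXi (h ▸ Qi.zero_mem)
  -- the extension
  obtain ⟨g, hg, hgf, hgd⟩ := exists_irreducible_factor (p := p)
    ((Polynomial.X : K[X]) ^ e - C (algebraMap R K X)) (by rwa [natDegree_X_pow_sub_C])
  haveI : Fact (Irreducible g) := ⟨hg⟩
  let K1 := AdjoinRoot g
  let S : K1 := AdjoinRoot.root g
  have hSK : S ^ e = algebraMap K K1 (algebraMap R K X) := by
    have h1 : AdjoinRoot.mk g ((Polynomial.X : K[X]) ^ e - C (algebraMap R K X)) = 0 :=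
      AdjoinRoot.mk_eq_zero.2 hgf
    rw [map_sub, map_pow, AdjoinRoot.mk_X, AdjoinRoot.mk_C, sub_eq_zero] at h1
    exact h1
  have hS : S ^ e = algebraMap R K1 X := by rw [hSK, ← IsScalarTower.algebraMap_apply]
  have hinj1 : Function.Injective (algebraMap R K1) := by
    rw [IsScalarTower.algebraMap_eq R K K1]
    exact (algebraMap K K1).injective.comp hinjK
  have hS0 : S ≠ 0 := by
    intro h
    rw [h, zero_pow he.ne'] at hS
    exact hXne (hinj1 (by rw [← hS, map_zero]))
  let T : K1 := algebraMap R K1 ϖ / S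
  have hST : S * T = algebraMap R K1 ϖ := mul_div_cancel₀ _ hS0
  have hT : algebraMap R K1 c * T ^ e = algebraMap R K1 Y := by
    have h1 : algebraMap R K1 X * algebraMap R K1 Y = algebraMap R K1 c * algebraMap R K1 ϖ ^ e := by
      rw [← map_mul, hXY, map_mul, map_pow]
    have h2 : algebraMap R K1 X ≠ 0 := by rw [← hS]; exact pow_ne_zero _ hS0
    show algebraMap R K1 c * (algebraMap R K1 ϖ / S) ^ e = algebraMap R K1 Y
    rw [div_pow, hS, mul_div_assoc', ← h1, mul_div_cancel_left₀ _ h2]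
  have D : RootData X Y ϖ c e S T := ⟨hinj1, he, hc, hS, hT, hST⟩
  obtain ⟨pS, pT, hufd⟩ := D.main hm hX0 hY0 hYi hXi
  haveI := hufd
  haveI := D.isIntegral
  haveI : IsFractionRing (rootRing R S T) K1 :=
    isFractionRing_of_gen (K := K) (rootRing R S T) (S := S) (Algebra.subset_adjoin (by simp)) (by
      intro y
      obtain ⟨f, rfl⟩ := AdjoinRoot.mk_surjective y
      exact ⟨f, AdjoinRoot.aeval_eq f⟩)
  haveI : FiniteDimensional K K1 := (AdjoinRoot.powerBasis hg.ne_zero).finite
  have hd : Module.finrank K K1 = g.natDegree := by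
    rw [(AdjoinRoot.powerBasis hg.ne_zero).finrank, AdjoinRoot.powerBasis_dim]
  have hmapR : ∀ r : R, algebraMap K K1 (algebraMap R K r) =
      algebraMap (rootRing R S T) K1 (algebraMap R (rootRing R S T) r) := by
    intro r
    rw [← IsScalarTower.algebraMap_apply R K K1]
    rfl
  have hz1 : algebraMap K K1 z ≠ 0 := (_root_.map_ne_zero _).2 hz
  obtain ⟨ε, i, j, c1, d1, hc1, -, hd1, -, hzz⟩ := node_factor (K := K1) (rS R S T) (rT R S T) pS pT p hp.pos
    (algebraMap K K1 z) hz1 (by
      intro π hπ hπS hπT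
      have hπϖ : ¬ π ∣ algebraMap R (rootRing R S T) ϖ := by
        rw [← D.rS_mul_rT]
        intro h
        rcases hπ.dvd_or_dvd h with h | h
        · exact hπS ((hπ.dvd_prime_iff_associated pS).1 h)
        · exact hπT ((hπ.dvd_prime_iff_associated pT).1 h)
      -- a nonzero element of `R` divisible by `π`
      have hcom : (span {π}).comap (algebraMap R (rootRing R S T)) ≠ ⊥ := by
        intro h
        have := Ideal.eq_bot_of_comap_eq_bot h
        rw [span_singleton_eq_bot] at this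
        exact hπ.ne_zero this
      obtain ⟨r0, hr0, hr00⟩ := Submodule.exists_mem_ne_zero_of_ne_bot hcom
      obtain ⟨s0, hs0⟩ := mem_span_singleton.1 (Ideal.mem_comap.1 hr0)
      have hπK : algebraMap (rootRing R S T) K1 π ≠ 0 :=
        fun h => hπ.ne_zero (pvAux_inj K1 (by rw [h, map_zero]))
      obtain ⟨h, hh1, hh2, hh3⟩ := dvr_comap (K := K) (primeVal K1 π hπ) (π := algebraMap _ K1 π)
        (map_mem_primeVal hπ π) (inv_notMem_primeVal hπ) (fun y hy => exists_zpow_primeVal hπ hy)
        (y0 := algebraMap R K r0) (by rw [hmapR]; exact map_mem_primeVal hπ _) (by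
          rw [hmapR, hs0, map_mul]
          intro hmem
          apply inv_notMem_primeVal (K := K1) hπ
          have h3 := mul_mem hmem (map_mem_primeVal (K := K1) hπ s0)
          have hs00 : algebraMap (rootRing R S T) K1 s0 ≠ 0 := by
            intro h0
            apply hr00
            apply hinj1
            have : algebraMap R K1 r0 = algebraMap (rootRing R S T) K1 (algebraMap R (rootRing R S T) r0) := rfl
            rw [this, hs0, map_mul, h0, mul_zero, map_zero]
          have e3 : (algebraMap (rootRing R S T) K1 π * algebraMap (rootRing R S T) K1 s0)⁻¹ *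
              algebraMap (rootRing R S T) K1 s0 = (algebraMap (rootRing R S T) K1 π)⁻¹ := by
            rw [mul_inv, mul_assoc, inv_mul_cancel₀ hs00, mul_one]
          rwa [e3] at h3)
      obtain ⟨w, hw0, hw1, hw2⟩ := H ((primeVal K1 π hπ).comap (algebraMap K K1)) h
        (fun r => by
          rw [ValuationSubring.mem_comap, hmapR]; exact map_mem_primeVal hπ _)
        (by rw [ValuationSubring.mem_comap, map_inv₀, hmapR]; exact inv_mem_primeVal hπ hπϖ)
        (by rw [ValuationSubring.mem_comap]; exact hh1)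
        (by rw [ValuationSubring.mem_comap, map_inv₀]; exact hh2)
        (fun y hy => by
          obtain ⟨k, hk1, hk2⟩ := hh3 y hy
          exact ⟨k, by rw [ValuationSubring.mem_comap]; exact hk1,
            by rw [ValuationSubring.mem_comap, map_inv₀]; exact hk2⟩)
      rw [ValuationSubring.mem_comap, map_mul, map_pow] at hw1
      rw [ValuationSubring.mem_comap, map_inv₀, map_mul, map_pow] at hw2
      exact primeVal_pow_repr hπ hz1 ((_root_.map_ne_zero _).2 hw0) hw1 hw2)
  -- the norm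
  obtain ⟨η0, hη0⟩ := norm_unit (R := R) (K := K) (K1 := K1)
    (ε := algebraMap (rootRing R S T) K1 (ε : rootRing R S T))
    (ε' := algebraMap (rootRing R S T) K1 ((ε⁻¹ : (rootRing R S T)ˣ) : rootRing R S T))
    ((Algebra.IsIntegral.isIntegral (R := R) (ε : rootRing R S T)).map
      (IsScalarTower.toAlgHom R (rootRing R S T) K1))
    ((Algebra.IsIntegral.isIntegral (R := R) ((ε⁻¹ : (rootRing R S T)ˣ) : rootRing R S T)).map
      (IsScalarTower.toAlgHom R (rootRing R S T) K1))
    (by rw [← map_mul, Units.mul_inv, map_one])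
  obtain ⟨c', hc'⟩ := hc.exists_left_inv
  have hTK : T ^ e = algebraMap K K1 (algebraMap R K (c' * Y)) := by
    rw [← IsScalarTower.algebraMap_apply, map_mul, ← hT, ← mul_assoc, ← map_mul, hc', map_one, one_mul]
  have nS := norm_root hSK
  have nT := norm_root hTK
  set d := Module.finrank K K1 with hdd
  have hc10 : algebraMap (rootRing R S T) K1 c1 ≠ 0 := by
    intro h0
    apply hc1
    rw [pvAux_inj K1 (h0.trans (map_zero _).symm)]
    exact dvd_zero _
  have hd10 : algebraMap (rootRing R S T) K1 d1 ≠ 0 := by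
    intro h0
    apply hd1
    rw [pvAux_inj K1 (h0.trans (map_zero _).symm)]
    exact dvd_zero _
  set W : K := normHom K K1 (algebraMap (rootRing R S T) K1 c1 / algebraMap (rootRing R S T) K1 d1) with hW
  have hW0 : W ≠ 0 := (_root_.map_ne_zero _).2 (div_ne_zero hc10 hd10)
  have hN : z ^ d = algebraMap R K (η0 : R) * normHom K K1 S ^ i * normHom K K1 T ^ j * W ^ p := by
    have h1 := congrArg (normHom K K1) hzz
    rw [map_mul, map_mul, map_mul, map_zpow₀, map_zpow₀, map_pow] at h1
    have h2 : normHom K K1 (algebraMap K K1 z) = z ^ d := Algebra.norm_algebraMap z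
    have h3 : normHom K K1 (algebraMap (rootRing R S T) K1 (ε : rootRing R S T)) = algebraMap R K (η0 : R) :=
      hη0.symm
    rw [h2, h3] at h1
    exact h1
  refine ⟨d * e, η0 ^ e * (hc.unit ^ (-((d : ℤ) * j))), (d : ℤ) * i, (d : ℤ) * j, W ^ e, ?_, pow_ne_zero _ hW0, ?_⟩
  · rw [hp.dvd_mul]
    rintro (h | h)
    · exact hgd (hd ▸ h)
    · exact hpe h
  · have hcK : algebraMap R K c ≠ 0 := fun h => hc.ne_zero (hinjK (by rw [h, map_zero]))
    have hc'K : algebraMap R K c' = (algebraMap R K c)⁻¹ := by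
      apply eq_inv_of_mul_eq_one_left
      rw [← map_mul, hc', map_one]
    have e1 : (normHom K K1 S ^ i) ^ e = algebraMap R K X ^ ((d : ℤ) * i) := by
      rw [← zpow_natCast, ← zpow_mul, mul_comm i, zpow_mul, zpow_natCast]
      have : normHom K K1 S ^ e = algebraMap R K X ^ d := nS
      rw [this, ← zpow_natCast (algebraMap R K X) d, ← zpow_mul]
    have e2 : (normHom K K1 T ^ j) ^ e =
        algebraMap R K c ^ (-((d : ℤ) * j)) * algebraMap R K Y ^ ((d : ℤ) * j) := by
      rw [← zpow_natCast, ← zpow_mul, mul_comm j, zpow_mul, zpow_natCast]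
      have : normHom K K1 T ^ e = algebraMap R K (c' * Y) ^ d := nT
      rw [this, ← zpow_natCast (algebraMap R K (c' * Y)) d, ← zpow_mul, map_mul, mul_zpow, hc'K, inv_zpow,
        zpow_neg]
    rw [pow_mul, hN, mul_pow, mul_pow, mul_pow, e1, e2, Units.val_mul, map_mul, Units.val_pow_eq_pow_val,
      map_pow, map_units_zpow, IsUnit.unit_spec, ← pow_mul, ← pow_mul, mul_comm p e]
    ring

end Fermat.Agent.S44.Alg
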