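import Fermat.Agent.S44.Alg.Node

/-!
# S44 / Alg / Thick : normal form of a node of unknown thickness   [keys S44/ALG-L, S44/ALG-THICK]   (Mathlib only)   (helper27; maths helper14 #1330 AE1)

`R` noetherian local domain, `P0 ⊓ Pi = (ϖ)`, `X ∈ P0`, `Y ∈ Pi`, `𝔪 = Pi ⊔ (X) = P0 ⊔ (Y)`, `x x' = u ϖ^m`, `x ∉ Pi`, `x' ∉ P0`, `m > 0`.
Then after changing `X`, `Y` modulo `ϖ`:  `X' Y' = c ϖ^e`, `c` a unit, `e ∣ m`.

## Proof
(0) `exists_unit_mul_pow` [key ALG-L]: `A` noetherian local, `𝔪_A = (t)`, `y ≠ 0` ⟹ `y = u t^k`, `u` a unit.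
    [Krull: `Ideal.iInf_pow_eq_bot_of_isLocalRing (maximalIdeal A) (ne_top)`; so some `k` with `y ∉ 𝔪^(k+1) = (t^(k+1))` (`Ideal.span_singleton_pow`); take the least one
     (`Nat.find`); then `y ∈ (t^k)`, `y = u t^k`; `u ∉ 𝔪` else `y ∈ (t^(k+1))`.]
(1) `thick_ord`: `x ∉ Pi` ⟹ `x - c X^N ∈ Pi`, `c` a unit of `R`.   [(0) in `A = R ⧸ Pi`, `t = mk X`; lift the unit: `u = mk c`, `c ∉ 𝔪` because `mk` is a local hom
     (see the proof of `isPrincipalIdealRing_quot` in `Node.lean` for `𝔪_A = map mk 𝔪`).]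
(2) `Pi = (Y) ⊔ (ϖ)`, `P0 = (X) ⊔ (ϖ)`, `𝔪 = (X) ⊔ (Y) ⊔ (ϖ)`  [`r ∈ Pi ⊆ 𝔪 = P0 ⊔ (Y)`, `r = a + bY`, `a ∈ P0 ⊓ Pi = (ϖ)`]; this stays true for every `X_k ≡ X`, `Y_k ≡ Y mod ϖ`.
    `X ∉ Pi` (else `𝔪 = Pi`, so `x ∈ P0 ⊆ 𝔪 = Pi`; note `x ∈ P0` because `x x' ∈ P0`, `m > 0`); `Y ∉ P0` in the same way.
(3) STEP: `X_k Y_k = ϖ^k ε`, `k ≥ 1`, `ε` not a unit: `ε = a X_k + b Y_k + c ϖ`, and `(X_k - b ϖ^k)(Y_k - a ϖ^k) = ϖ^(k+1) (c + a b ϖ^(k-1))`.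
(4) BOUND: `X_k Y_k = ϖ^k ε` ⟹ `k N ≤ m` (`N` from (1)).  Suppose `k N > m`.  `nodeAux_dvd` with `r = x' X_k^N`, `t = Y_k^N ∉ P0`, `t' = x ∉ Pi` gives `x' X_k^N = ϖ^m g`.
    Then `g x = u X_k^N`, so modulo `Pi`: `g c X^N ≡ u X^N`, `g c - u ∈ Pi` (`X ∉ Pi`), `g` is a unit.  But `Y_k^N g ϖ^m = ϖ^(kN) ε^N x'`, so `Y_k^N g ∈ (ϖ) ⊆ P0`, `g ∈ P0`: contradiction.
    Hence (induction on `m + 1 - k`, or `Nat.find` / strong induction) the process stops: `X_e Y_e = ϖ^e c`, `c` a unit, `e N ≤ m`.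
(5) `e N = m`: `nodeAux_dvd` with exponent `e N`, `r = x Y_e^N`, `t = x' ∉ P0`, `t' = X_e^N ∉ Pi` gives `x Y_e^N = ϖ^(eN) g₂`; times `X_e^N`: `x c^N = g₂ X_e^N`.
    Modulo `Pi`: `g₂` is a unit.  So `x = unit * X_e^N`;  `unit * X_e^N x' = u ϖ^m`; times `Y_e^N`: `unit * x' = unit * ϖ^(m - eN) Y_e^N`; `x' ∉ P0` ⟹ `m = e N`.
-/

set_option autoImplicit false

open Ideal IsLocalRing

namespace Fermat.Agent.S44.Alg

theorem thickAux_pow {A : Type*} [CommRing A] [IsLocalRing A] {t : A}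
    (ht : maximalIdeal A = span {t}) : ∀ (k : ℕ) (y : A), y ∉ maximalIdeal A ^ k →
      ∃ (j : ℕ) (u : A), IsUnit u ∧ y = u * t ^ j := by
  intro k
  induction k with
  | zero => intro y hy; exact absurd (by simp) hy
  | succ k ih =>
    intro y hy
    by_cases hu : IsUnit y
    · exact ⟨0, y, hu, by simp⟩
    · have h1 : y ∈ maximalIdeal A := (mem_maximalIdeal y).2 hu
      have h1' := h1
      rw [ht] at h1'
      obtain ⟨y', rfl⟩ := mem_span_singleton.1 h1'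
      have h2 : y' ∉ maximalIdeal A ^ k := by
        intro h
        apply hy
        rw [pow_succ, mul_comm t y']
        refine Ideal.mul_mem_mul h ?_
        rw [ht]; exact mem_span_singleton_self t
      obtain ⟨j, u, hu', rfl⟩ := ih y' h2
      exact ⟨j + 1, u, hu', by rw [pow_succ]; ring⟩

/-- [key S44/ALG-L] -/
theorem exists_unit_mul_pow {A : Type*} [CommRing A] [IsLocalRing A] [IsNoetherianRing A] {t : A}
    (ht : maximalIdeal A = span {t}) {y : A} (hy : y ≠ 0) : ∃ (k : ℕ) (u : A), IsUnit u ∧ y = u * t ^ k := by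
  have h := Ideal.iInf_pow_eq_bot_of_isLocalRing (maximalIdeal A) (maximalIdeal.isMaximal A).ne_top
  have h1 : ∃ k, y ∉ maximalIdeal A ^ k := by
    by_contra hc
    push Not at hc
    apply hy
    have : y ∈ ⨅ i, maximalIdeal A ^ i := (Submodule.mem_iInf _).2 hc
    rw [h] at this
    exact this
  obtain ⟨k, hk⟩ := h1
  exact thickAux_pow ht k y hk

variable {R : Type*} [CommRing R]

/-- [key S44/ALG-THICK] -/
theorem thick_ord [IsLocalRing R] [IsNoetherianRing R] {Pi : Ideal R} [hi : Pi.IsPrime] {X : R}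
    (hmX : maximalIdeal R = Pi ⊔ span {X}) {x : R} (hx : x ∉ Pi) :
    ∃ (N : ℕ) (c : R), IsUnit c ∧ x - c * X ^ N ∈ Pi := by
  have : IsLocalRing (R ⧸ Pi) :=
    IsLocalRing.of_surjective' (Ideal.Quotient.mk Pi) Ideal.Quotient.mk_surjective
  have hl : IsLocalHom (Ideal.Quotient.mk Pi) :=
    IsLocalHom.of_surjective _ Ideal.Quotient.mk_surjective
  have h1 : maximalIdeal (R ⧸ Pi) = span {Ideal.Quotient.mk Pi X} := by
    have h2 : (maximalIdeal (R ⧸ Pi)).comap (Ideal.Quotient.mk Pi) = maximalIdeal R :=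
      ((IsLocalRing.local_hom_TFAE (Ideal.Quotient.mk Pi)).out 0 4).1 hl
    rw [← Ideal.map_comap_of_surjective _ Ideal.Quotient.mk_surjective (maximalIdeal (R ⧸ Pi)), h2, hmX,
      Ideal.map_sup, Ideal.map_span, Set.image_singleton, Ideal.map_quotient_self, bot_sup_eq]
  have hy : Ideal.Quotient.mk Pi x ≠ 0 := fun h => hx (Ideal.Quotient.eq_zero_iff_mem.1 h)
  obtain ⟨N, u, hu, e⟩ := exists_unit_mul_pow h1 hy
  obtain ⟨c, rfl⟩ := Ideal.Quotient.mk_surjective u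
  refine ⟨N, c, hl.map_nonunit c hu, ?_⟩
  rw [← Ideal.Quotient.eq, e, map_mul, map_pow]

theorem thickAux_bound [IsDomain R] [IsLocalRing R] {ϖ : R} (hϖ : ϖ ≠ 0) {P0 Pi : Ideal R} [h0 : P0.IsPrime]
    [hi : Pi.IsPrime] (hinf : P0 ⊓ Pi = span {ϖ}) {X' Y' : R} (hXi : X' ∉ Pi) (hY0 : Y' ∉ P0) {m : ℕ}
    {x x' u : R} (hu : IsUnit u) (hxx : x * x' = u * ϖ ^ m) (hx : x ∉ Pi) {N : ℕ} {c0 : R}
    (hc0 : x - c0 * X' ^ N ∈ Pi) {k : ℕ} {ε : R} (hk : X' * Y' = ϖ ^ k * ε) : k * N ≤ m := by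
  by_contra hlt
  push Not at hlt
  obtain ⟨d, hd⟩ : ∃ d, k * N = m + (d + 1) := ⟨k * N - m - 1, by omega⟩
  have hϖ0 : ϖ ∈ P0 := by
    have : ϖ ∈ P0 ⊓ Pi := by rw [hinf]; exact mem_span_singleton_self ϖ
    exact this.1
  have hϖm : ϖ ^ m ≠ 0 := pow_ne_zero _ hϖ
  have hpow : (X' * Y') ^ N = ϖ ^ m * (ϖ ^ (d + 1) * ε ^ N) := by
    rw [hk, mul_pow, ← pow_mul, hd, pow_add]; ring
  obtain ⟨g, hg⟩ : ϖ ^ m ∣ x' * X' ^ N := by
    refine nodeAux_dvd hϖ hinf m _ (Y' ^ N) x (fun h => hY0 (h0.mem_of_pow_mem N h)) hx ?_ ?_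
    · refine ⟨ϖ ^ (d + 1) * ε ^ N * x', ?_⟩
      calc Y' ^ N * (x' * X' ^ N) = (X' * Y') ^ N * x' := by rw [mul_pow]; ring
        _ = _ := by rw [hpow]; ring
    · exact ⟨u * X' ^ N, by linear_combination X' ^ N * hxx⟩
  have e1 : g * x = u * X' ^ N := by
    apply mul_left_cancel₀ hϖm
    linear_combination (-x) * hg + X' ^ N * hxx
  have e2 : (g * c0 - u) * X' ^ N ∈ Pi := by
    have : (g * c0 - u) * X' ^ N = -(g * (x - c0 * X' ^ N)) := by linear_combination e1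
    rw [this]; exact Pi.neg_mem (Pi.mul_mem_left _ hc0)
  have e3 : g * c0 - u ∈ Pi := (hi.mem_or_mem e2).resolve_right (fun h => hXi (hi.mem_of_pow_mem N h))
  have hgu : IsUnit g := by
    by_contra h
    have h1 : g ∈ maximalIdeal R := (mem_maximalIdeal g).2 h
    have h2 : u ∈ maximalIdeal R := by
      have : u = g * c0 - (g * c0 - u) := by ring
      rw [this]
      exact (maximalIdeal R).sub_mem ((maximalIdeal R).mul_mem_right _ h1) (le_maximalIdeal hi.ne_top e3)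
    exact (mem_maximalIdeal u).1 h2 hu
  have e4 : Y' ^ N * g = ϖ ^ (d + 1) * ε ^ N * x' := by
    apply mul_left_cancel₀ hϖm
    calc ϖ ^ m * (Y' ^ N * g) = Y' ^ N * (x' * X' ^ N) := by rw [hg]; ring
      _ = (X' * Y') ^ N * x' := by rw [mul_pow]; ring
      _ = _ := by rw [hpow]; ring
  have e5 : Y' ^ N * g ∈ P0 := by
    rw [e4, pow_succ]
    exact P0.mul_mem_right _ (P0.mul_mem_right _ (P0.mul_mem_left _ hϖ0))
  rcases h0.mem_or_mem e5 with h | h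
  · exact hY0 (h0.mem_of_pow_mem N h)
  · exact h0.ne_top (Ideal.eq_top_of_isUnit_mem _ h hgu)

theorem thickAux_eq [IsDomain R] [IsLocalRing R] {ϖ : R} (hϖ : ϖ ≠ 0) {P0 Pi : Ideal R} [h0 : P0.IsPrime]
    [hi : Pi.IsPrime] (hinf : P0 ⊓ Pi = span {ϖ}) {X' Y' : R} (hXi : X' ∉ Pi) {m : ℕ}
    {x x' u : R} (hxx : x * x' = u * ϖ ^ m) (hx' : x' ∉ P0) {N : ℕ} {c0 : R} (hc0u : IsUnit c0)
    (hc0 : x - c0 * X' ^ N ∈ Pi) {e : ℕ} {c : R} (hc : IsUnit c) (hk : X' * Y' = c * ϖ ^ e)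
    (hle : e * N ≤ m) : e * N = m := by
  obtain ⟨d, hd⟩ : ∃ d, m = e * N + d := ⟨m - e * N, by omega⟩
  have hϖ0 : ϖ ∈ P0 := by
    have : ϖ ∈ P0 ⊓ Pi := by rw [hinf]; exact mem_span_singleton_self ϖ
    exact this.1
  have hϖm : ϖ ^ (e * N) ≠ 0 := pow_ne_zero _ hϖ
  have hpow : (X' * Y') ^ N = c ^ N * ϖ ^ (e * N) := by
    rw [hk, mul_pow, ← pow_mul]
  have hxx' : x * x' = u * (ϖ ^ (e * N) * ϖ ^ d) := by rw [hxx, hd, pow_add]
  obtain ⟨g, hg⟩ : ϖ ^ (e * N) ∣ x * Y' ^ N := by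
    refine nodeAux_dvd hϖ hinf (e * N) _ x' (X' ^ N) hx' (fun h => hXi (hi.mem_of_pow_mem N h)) ?_ ?_
    · exact ⟨u * ϖ ^ d * Y' ^ N, by linear_combination Y' ^ N * hxx'⟩
    · refine ⟨c ^ N * x, ?_⟩
      calc X' ^ N * (x * Y' ^ N) = (X' * Y') ^ N * x := by rw [mul_pow]; ring
        _ = _ := by rw [hpow]; ring
  have e1 : x * c ^ N = g * X' ^ N := by
    apply mul_left_cancel₀ hϖm
    calc ϖ ^ (e * N) * (x * c ^ N) = (X' * Y') ^ N * x := by rw [hpow]; ring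
      _ = X' ^ N * (x * Y' ^ N) := by rw [mul_pow]; ring
      _ = _ := by rw [hg]; ring
  have e2 : (c0 * c ^ N - g) * X' ^ N ∈ Pi := by
    have : (c0 * c ^ N - g) * X' ^ N = -(c ^ N * (x - c0 * X' ^ N)) := by linear_combination e1
    rw [this]; exact Pi.neg_mem (Pi.mul_mem_left _ hc0)
  have e3 : c0 * c ^ N - g ∈ Pi := (hi.mem_or_mem e2).resolve_right (fun h => hXi (hi.mem_of_pow_mem N h))
  have hgu : IsUnit g := by
    by_contra h
    have h1 : g ∈ maximalIdeal R := (mem_maximalIdeal g).2 h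
    have h2 : c0 * c ^ N ∈ maximalIdeal R := by
      have : c0 * c ^ N = (c0 * c ^ N - g) + g := by ring
      rw [this]
      exact (maximalIdeal R).add_mem (le_maximalIdeal hi.ne_top e3) h1
    exact (mem_maximalIdeal _).1 h2 (hc0u.mul (hc.pow N))
  have hcN : c ^ N ≠ 0 := (hc.pow N).ne_zero
  have e4 : g * x' = u * ϖ ^ d * Y' ^ N := by
    apply mul_left_cancel₀ (mul_ne_zero hcN hϖm)
    calc c ^ N * ϖ ^ (e * N) * (g * x') = (X' * Y') ^ N * (g * x') := by rw [hpow]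
      _ = (g * X' ^ N) * x' * Y' ^ N := by rw [mul_pow]; ring
      _ = (x * x') * c ^ N * Y' ^ N := by rw [← e1]; ring
      _ = _ := by rw [hxx']; ring
  rcases Nat.eq_zero_or_pos d with hd0 | hd0
  · omega
  · exfalso
    have e5 : g * x' ∈ P0 := by
      rw [e4]
      exact P0.mul_mem_right _ (P0.mul_mem_left _ (P0.pow_mem_of_mem hϖ0 d hd0))
    rcases h0.mem_or_mem e5 with h | h
    · exact h0.ne_top (Ideal.eq_top_of_isUnit_mem _ h hgu)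
    · exact hx' h

/-- [key S44/ALG-THICK] **(AE1)** -/
theorem thick_normal_form [IsDomain R] [IsLocalRing R] [IsNoetherianRing R] {ϖ : R} (hϖ : ϖ ≠ 0) {P0 Pi : Ideal R}
    [h0 : P0.IsPrime] [hi : Pi.IsPrime] (hinf : P0 ⊓ Pi = span {ϖ}) {X Y : R} (hX : X ∈ P0) (hY : Y ∈ Pi)
    (hmX : maximalIdeal R = Pi ⊔ span {X}) (hmY : maximalIdeal R = P0 ⊔ span {Y})
    {m : ℕ} (hm : 0 < m) {x x' u : R} (hu : IsUnit u) (hxx : x * x' = u * ϖ ^ m) (hx : x ∉ Pi) (hx' : x' ∉ P0) :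
    ∃ (e : ℕ) (X' Y' c : R), 0 < e ∧ e ∣ m ∧ IsUnit c ∧ X' * Y' = c * ϖ ^ e ∧ ϖ ∣ X' - X ∧ ϖ ∣ Y' - Y ∧
      X' ∈ P0 ∧ Y' ∈ Pi ∧ X' ∉ Pi ∧ Y' ∉ P0 ∧ maximalIdeal R = span {X'} ⊔ span {Y'} ⊔ span {ϖ} := by
  have hϖ0 : ϖ ∈ P0 := by
    have : ϖ ∈ P0 ⊓ Pi := by rw [hinf]; exact mem_span_singleton_self ϖ
    exact this.1
  have hϖi : ϖ ∈ Pi := by
    have : ϖ ∈ P0 ⊓ Pi := by rw [hinf]; exact mem_span_singleton_self ϖ
    exact this.2
  have hx0 : x ∈ P0 := by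
    have : x * x' ∈ P0 := by rw [hxx]; exact P0.mul_mem_left _ (P0.pow_mem_of_mem hϖ0 m hm)
    exact (h0.mem_or_mem this).resolve_right hx'
  have hxi' : x' ∈ Pi := by
    have : x * x' ∈ Pi := by rw [hxx]; exact Pi.mul_mem_left _ (Pi.pow_mem_of_mem hϖi m hm)
    exact (hi.mem_or_mem this).resolve_left hx
  have hXi : X ∉ Pi := by
    intro h
    apply hx
    have h1 : maximalIdeal R ≤ Pi := by
      rw [hmX]; exact sup_le le_rfl ((span_singleton_le_iff_mem _).2 h)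
    exact h1 (le_maximalIdeal h0.ne_top hx0)
  have hY0 : Y ∉ P0 := by
    intro h
    apply hx'
    have h1 : maximalIdeal R ≤ P0 := by
      rw [hmY]; exact sup_le le_rfl ((span_singleton_le_iff_mem _).2 h)
    exact h1 (le_maximalIdeal hi.ne_top hxi')
  obtain ⟨N, c0, hc0u, hc0⟩ := thick_ord hmX hx
  have hN : 0 < N := by
    rcases Nat.eq_zero_or_pos N with h | h
    · exfalso
      rw [h, pow_zero, mul_one] at hc0
      have h1 : c0 ∈ maximalIdeal R := by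
        have : c0 = x - (x - c0) := by ring
        rw [this]
        exact (maximalIdeal R).sub_mem (le_maximalIdeal h0.ne_top hx0) (le_maximalIdeal hi.ne_top hc0)
      exact (mem_maximalIdeal _).1 h1 hc0u
    · exact h
  -- properties of good pairs
  have gX0 : ∀ X' : R, ϖ ∣ X' - X → X' ∈ P0 := by
    rintro X' ⟨s, hs⟩
    have : X' = X + ϖ * s := by rw [← hs]; ring
    rw [this]; exact P0.add_mem hX (P0.mul_mem_right _ hϖ0)
  have gYi : ∀ Y' : R, ϖ ∣ Y' - Y → Y' ∈ Pi := by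
    rintro Y' ⟨s, hs⟩
    have : Y' = Y + ϖ * s := by rw [← hs]; ring
    rw [this]; exact Pi.add_mem hY (Pi.mul_mem_right _ hϖi)
  have gXi : ∀ X' : R, ϖ ∣ X' - X → X' ∉ Pi := by
    rintro X' ⟨s, hs⟩ h
    apply hXi
    have : X = X' - ϖ * s := by rw [← hs]; ring
    rw [this]; exact Pi.sub_mem h (Pi.mul_mem_right _ hϖi)
  have gY0 : ∀ Y' : R, ϖ ∣ Y' - Y → Y' ∉ P0 := by
    rintro Y' ⟨s, hs⟩ h
    apply hY0
    have : Y = Y' - ϖ * s := by rw [← hs]; ring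
    rw [this]; exact P0.sub_mem h (P0.mul_mem_right _ hϖ0)
  have gc0 : ∀ X' : R, ϖ ∣ X' - X → x - c0 * X' ^ N ∈ Pi := by
    intro X' hX'
    obtain ⟨s, hs⟩ := hX'.trans (sub_dvd_pow_sub_pow X' X N)
    have : x - c0 * X' ^ N = (x - c0 * X ^ N) - c0 * (ϖ * s) := by rw [← hs]; ring
    rw [this]
    exact Pi.sub_mem hc0 (Pi.mul_mem_left _ (Pi.mul_mem_right _ hϖi))
  have gmax : ∀ X' Y' : R, ϖ ∣ X' - X → ϖ ∣ Y' - Y → ∀ r ∈ maximalIdeal R,
      ∃ a b c : R, r = a * X' + b * Y' + c * ϖ := by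
    rintro X' Y' ⟨s, hs⟩ ⟨s', hs'⟩ r hr
    rw [hmX] at hr
    obtain ⟨a, ha, b', hb', hab⟩ := Submodule.mem_sup.1 hr
    obtain ⟨b, rfl⟩ := mem_span_singleton.1 hb'
    have ham : a ∈ maximalIdeal R := le_maximalIdeal hi.ne_top ha
    rw [hmY] at ham
    obtain ⟨a2, ha2, c', hc', hac⟩ := Submodule.mem_sup.1 ham
    obtain ⟨c, rfl⟩ := mem_span_singleton.1 hc'
    have ha2i : a2 ∈ Pi := by
      have : a2 = a - Y * c := by rw [← hac]; ring
      rw [this]; exact Pi.sub_mem ha (Pi.mul_mem_right _ hY)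
    have ha2' : a2 ∈ span {ϖ} := by rw [← hinf]; exact ⟨ha2, ha2i⟩
    obtain ⟨d, rfl⟩ := mem_span_singleton.1 ha2'
    refine ⟨b, c, d - b * s - c * s', ?_⟩
    rw [← hab, ← hac]
    linear_combination (-b) * hs - c * hs'
  have gb : ∀ (k : ℕ) (X' Y' ε : R), ϖ ∣ X' - X → ϖ ∣ Y' - Y → X' * Y' = ϖ ^ k * ε → k * N ≤ m :=
    fun k X' Y' ε h1 h2 h3 => thickAux_bound hϖ hinf (gXi X' h1) (gY0 Y' h2) hu hxx hx (gc0 X' h1) h3
  -- the loop
  have loop : ∀ (n k : ℕ) (X' Y' ε : R), m + 1 ≤ n + k → 1 ≤ k → ϖ ∣ X' - X → ϖ ∣ Y' - Y →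
      X' * Y' = ϖ ^ k * ε → ∃ (e : ℕ) (X'' Y'' c : R), 1 ≤ e ∧ IsUnit c ∧ X'' * Y'' = c * ϖ ^ e ∧
        ϖ ∣ X'' - X ∧ ϖ ∣ Y'' - Y := by
    intro n
    induction n with
    | zero =>
      intro k X' Y' ε h1 _ h3 h4 h5
      exfalso
      have h6 := gb k X' Y' ε h3 h4 h5
      have h7 : k ≤ k * N := Nat.le_mul_of_pos_right k hN
      omega
    | succ n ih =>
      intro k X' Y' ε h1 h2 h3 h4 h5
      by_cases hε : IsUnit ε
      · exact ⟨k, X', Y', ε, h2, hε, by rw [h5, mul_comm], h3, h4⟩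
      · obtain ⟨a, b, c, habc⟩ := gmax X' Y' h3 h4 ε ((mem_maximalIdeal ε).2 hε)
        obtain ⟨k', rfl⟩ : ∃ k', k = k' + 1 := ⟨k - 1, by omega⟩
        refine ih (k' + 1 + 1) (X' - b * ϖ ^ (k' + 1)) (Y' - a * ϖ ^ (k' + 1)) (c + a * b * ϖ ^ k')
          (by omega) (by omega) ?_ ?_ ?_
        · have : X' - b * ϖ ^ (k' + 1) - X = (X' - X) - ϖ * (b * ϖ ^ k') := by rw [pow_succ]; ring
          rw [this]
          exact dvd_sub h3 (Dvd.intro _ rfl)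
        · have : Y' - a * ϖ ^ (k' + 1) - Y = (Y' - Y) - ϖ * (a * ϖ ^ k') := by rw [pow_succ]; ring
          rw [this]
          exact dvd_sub h4 (Dvd.intro _ rfl)
        · rw [habc] at h5
          rw [pow_succ ϖ (k' + 1)]
          rw [pow_succ] at h5 ⊢
          linear_combination h5
  obtain ⟨ε, hε⟩ : ϖ ∣ X * Y := by
    have : X * Y ∈ P0 ⊓ Pi := ⟨P0.mul_mem_right _ hX, Pi.mul_mem_left _ hY⟩
    rw [hinf] at this
    exact mem_span_singleton.1 this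
  obtain ⟨e, X', Y', c, he, hc, hXY, hX', hY'⟩ := loop m 1 X Y ε (by omega) le_rfl (by simp) (by simp)
    (by rw [pow_one, hε])
  have hle : e * N ≤ m := gb e X' Y' c hX' hY' (by rw [hXY, mul_comm])
  have heq : e * N = m := thickAux_eq hϖ hinf (gXi X' hX') hxx hx' hc0u (gc0 X' hX') hc hXY hle
  refine ⟨e, X', Y', c, he, ⟨N, heq.symm⟩, hc, hXY, hX', hY', gX0 X' hX', gYi Y' hY', gXi X' hX',
    gY0 Y' hY', le_antisymm ?_ ?_⟩
  · intro r hr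
    obtain ⟨a, b, c', rfl⟩ := gmax X' Y' hX' hY' r hr
    refine Ideal.add_mem _ (Ideal.add_mem _ ?_ ?_) ?_
    · exact Ideal.mul_mem_left _ _ (Submodule.mem_sup_left (Submodule.mem_sup_left (mem_span_singleton_self X')))
    · exact Ideal.mul_mem_left _ _ (Submodule.mem_sup_left (Submodule.mem_sup_right (mem_span_singleton_self Y')))
    · exact Ideal.mul_mem_left _ _ (Submodule.mem_sup_right (mem_span_singleton_self ϖ))
  · refine sup_le (sup_le ?_ ?_) ?_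
    · exact (span_singleton_le_iff_mem _).2 (le_maximalIdeal h0.ne_top (gX0 X' hX'))
    · exact (span_singleton_le_iff_mem _).2 (le_maximalIdeal hi.ne_top (gYi Y' hY'))
    · exact (span_singleton_le_iff_mem _).2 (le_maximalIdeal h0.ne_top hϖ0)

end Fermat.Agent.S44.Alg
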