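import Fermat.Agent.S44.Alg.Cover
import Fermat.Agent.S44.Alg.Root
import Fermat.Agent.S44.Alg.Thick

/-!
# S44 / Alg / CoverE : the node relation on a cover split modulo `ϖ`, at a node of unknown thickness; smooth points; the trivial cover
  [key S44/ALG-COVERE]   (Mathlib only)   (helper27)

* `Sheet.node_rel_thick` : `z ^ M * t = a * X' ^ i * Y' ^ j * w ^ p`, `p ∤ M`, `X' Y' = c ϖ ^ e`, `e ∣ m`.
* `Sheet.smooth_rel` : `z * t = a * ϖ ^ j * w ^ N`.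
* `Sheet.trivial` : the trivial cover `E' = E`.
-/

set_option autoImplicit false
set_option linter.unusedSectionVars false
set_option linter.style.haveILetI false

open Ideal IsLocalRing Finset

namespace Fermat.Agent.S44.Alg

section CoverE

variable {R : Type*} [CommRing R] {E : Type*} {E' : Type*} [Field E] [Field E'] [Algebra R E]
  [Algebra E E'] [Algebra R E'] [IsScalarTower R E E']

namespace Sheet

variable {ϖ : R} (D : Sheet (E := E) R E' ϖ)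
variable [IsDomain R] [IsIntegrallyClosed R] [IsFractionRing R E] [IsLocalRing R]
variable [FiniteDimensional E E'] (hϖ0 : ϖ ≠ 0) (hϖ : ϖ ∈ maximalIdeal R)

theorem isIntegrallyClosed_RR : IsIntegrallyClosed (D.RR hϖ0 hϖ) := by
  haveI := D.isLocalization_RR hϖ0 hϖ
  haveI : IsIntegrallyClosed (integralClosure R E') := integralClosure.isIntegrallyClosedOfFiniteExtension E
  exact isIntegrallyClosed_of_isLocalization _ (D.nn hϖ0 hϖ).primeCompl (Ideal.primeCompl_le_nonZeroDivisors _)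

theorem io_sub (a b : R) : D.io hϖ0 hϖ (a - b) = D.io hϖ0 hϖ a - D.io hϖ0 hϖ b :=
  Subtype.ext (map_sub _ _ _)

theorem io_pow (a : R) (n : ℕ) : D.io hϖ0 hϖ (a ^ n) = D.io hϖ0 hϖ a ^ n :=
  Subtype.ext (map_pow _ _ _)

/-- the prime of `R''` over a prime of `R` containing `ϖ` -/
def up (P : Ideal R) (hP : ϖ ∈ P) : Ideal (D.RR hϖ0 hϖ) where
  carrier := {y | ∃ r ∈ P, ∃ y', y = D.io hϖ0 hϖ r + D.io hϖ0 hϖ ϖ * y'}
  zero_mem' := ⟨0, P.zero_mem, 0, by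
    rw [mul_zero, add_zero]; exact Subtype.ext (map_zero _).symm⟩
  add_mem' := by
    rintro _ _ ⟨r1, h1, y1, rfl⟩ ⟨r2, h2, y2, rfl⟩
    exact ⟨r1 + r2, P.add_mem h1 h2, y1 + y2, by rw [D.io_add]; ring⟩
  smul_mem' := by
    rintro c _ ⟨r1, h1, y1, rfl⟩
    obtain ⟨rc, yc, rfl⟩ := D.approx hϖ0 hϖ c
    refine ⟨rc * r1, P.mul_mem_left _ h1, yc * D.io hϖ0 hϖ r1 + D.io hϖ0 hϖ rc * y1 + D.io hϖ0 hϖ ϖ * yc * y1, ?_⟩
    rw [smul_eq_mul, D.io_mul]; ring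

theorem io_mem_up {P : Ideal R} (hP : ϖ ∈ P) {r : R} : D.io hϖ0 hϖ r ∈ D.up hϖ0 hϖ P hP ↔ r ∈ P := by
  constructor
  · rintro ⟨r1, h1, y1, e1⟩
    have h2 : D.io hϖ0 hϖ ϖ ∣ D.io hϖ0 hϖ (r - r1) := ⟨y1, by rw [D.io_sub, e1]; ring⟩
    obtain ⟨c, hc⟩ := (D.io_dvd hϖ0 hϖ).1 h2
    have : r = r1 + ϖ * c := by rw [← hc]; ring
    rw [this]; exact P.add_mem h1 (P.mul_mem_right _ hP)
  · intro h
    exact ⟨r, h, 0, by rw [mul_zero, add_zero]⟩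

theorem isPrime_up {P : Ideal R} [hPp : P.IsPrime] (hP : ϖ ∈ P) : (D.up hϖ0 hϖ P hP).IsPrime := by
  refine ⟨fun h => ?_, ?_⟩
  · have h1 : D.io hϖ0 hϖ 1 ∈ D.up hϖ0 hϖ P hP := by rw [h]; trivial
    exact hPp.ne_top ((Ideal.eq_top_iff_one _).2 ((D.io_mem_up hϖ0 hϖ hP).1 h1))
  · intro a b hab
    obtain ⟨ra, a', rfl⟩ := D.approx hϖ0 hϖ a
    obtain ⟨rb, b', rfl⟩ := D.approx hϖ0 hϖ b
    have hϖu : D.io hϖ0 hϖ ϖ ∈ D.up hϖ0 hϖ P hP := (D.io_mem_up hϖ0 hϖ hP).2 hP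
    have h1 : D.io hϖ0 hϖ (ra * rb) ∈ D.up hϖ0 hϖ P hP := by
      have e : D.io hϖ0 hϖ (ra * rb) = (D.io hϖ0 hϖ ra + D.io hϖ0 hϖ ϖ * a') * (D.io hϖ0 hϖ rb + D.io hϖ0 hϖ ϖ * b')
          - D.io hϖ0 hϖ ϖ * (a' * D.io hϖ0 hϖ rb + D.io hϖ0 hϖ ra * b' + D.io hϖ0 hϖ ϖ * a' * b') := by
        rw [D.io_mul]; ring
      rw [e]
      exact Ideal.sub_mem _ hab (Ideal.mul_mem_right _ _ hϖu)
    rcases hPp.mem_or_mem ((D.io_mem_up hϖ0 hϖ hP).1 h1) with h | h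
    · left
      exact Ideal.add_mem _ ((D.io_mem_up hϖ0 hϖ hP).2 h) (Ideal.mul_mem_right _ _ hϖu)
    · right
      exact Ideal.add_mem _ ((D.io_mem_up hϖ0 hϖ hP).2 h) (Ideal.mul_mem_right _ _ hϖu)

theorem maximalIdeal_RR3 {X Y : R} (hm : maximalIdeal R = span {X} ⊔ span {Y} ⊔ span {ϖ}) :
    haveI := D.isLocalRing_RR hϖ0 hϖ
    maximalIdeal (D.RR hϖ0 hϖ) = span {D.io hϖ0 hϖ X} ⊔ span {D.io hϖ0 hϖ Y} ⊔ span {D.io hϖ0 hϖ ϖ} := by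
  haveI := D.isLocalRing_RR hϖ0 hϖ
  have hXm : X ∈ maximalIdeal R := by
    rw [hm]; exact Submodule.mem_sup_left (Submodule.mem_sup_left (mem_span_singleton_self X))
  have hYm : Y ∈ maximalIdeal R := by
    rw [hm]; exact Submodule.mem_sup_left (Submodule.mem_sup_right (mem_span_singleton_self Y))
  have hnu : ∀ r : R, r ∈ maximalIdeal R → D.io hϖ0 hϖ r ∈ maximalIdeal (D.RR hϖ0 hϖ) := fun r hr =>
    (mem_maximalIdeal _).2 fun h => (mem_maximalIdeal _).1 hr ((D.isUnit_io hϖ0 hϖ).1 h)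
  apply le_antisymm
  · intro y hy
    obtain ⟨r, y', rfl⟩ := D.approx hϖ0 hϖ y
    have hr : D.io hϖ0 hϖ r ∈ maximalIdeal (D.RR hϖ0 hϖ) := by
      have := (maximalIdeal (D.RR hϖ0 hϖ)).sub_mem hy ((maximalIdeal (D.RR hϖ0 hϖ)).mul_mem_right y' (hnu ϖ hϖ))
      rwa [add_sub_cancel_right] at this
    have hr' : r ∈ maximalIdeal R :=
      (mem_maximalIdeal _).2 fun h => (mem_maximalIdeal _).1 hr ((D.isUnit_io hϖ0 hϖ).2 h)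
    rw [hm] at hr'
    obtain ⟨ab, hab, c, hc, rfl⟩ := Submodule.mem_sup.1 hr'
    obtain ⟨a, ha, b, hb, rfl⟩ := Submodule.mem_sup.1 hab
    obtain ⟨a, rfl⟩ := mem_span_singleton.1 ha
    obtain ⟨b, rfl⟩ := mem_span_singleton.1 hb
    obtain ⟨c, rfl⟩ := mem_span_singleton.1 hc
    have e : D.io hϖ0 hϖ (X * a + Y * b + ϖ * c) + D.io hϖ0 hϖ ϖ * y' =
        D.io hϖ0 hϖ X * D.io hϖ0 hϖ a + D.io hϖ0 hϖ Y * D.io hϖ0 hϖ b +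
          D.io hϖ0 hϖ ϖ * (D.io hϖ0 hϖ c + y') := by
      rw [D.io_add, D.io_add, D.io_mul, D.io_mul, D.io_mul]; ring
    rw [e]
    exact Submodule.add_mem_sup (Submodule.add_mem_sup (mem_span_singleton.2 (Dvd.intro _ rfl))
      (mem_span_singleton.2 (Dvd.intro _ rfl))) (mem_span_singleton.2 (Dvd.intro _ rfl))
  · refine sup_le (sup_le ((span_singleton_le_iff_mem _).2 (hnu X hXm)) ((span_singleton_le_iff_mem _).2 (hnu Y hYm)))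
      ((span_singleton_le_iff_mem _).2 (hnu ϖ hϖ))

/-- a unit of `R''` is `a / t` with `a`, `t` integral, congruent to units of `R` on the sheet of `e` -/
theorem unit_repr (η : (D.RR hϖ0 hϖ)ˣ) :
    ∃ (a t : E') (ra rt : R), IsUnit ra ∧ IsUnit rt ∧ IsIntegral R a ∧ IsIntegral R t ∧
      D.e * (a - algebraMap R E' ra) ∈ JJ R E' ϖ ∧ D.e * (t - algebraMap R E' rt) ∈ JJ R E' ϖ ∧ t ≠ 0 ∧
      ((η : D.RR hϖ0 hϖ) : E') * t = a := by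
  haveI := D.isLocalRing_RR hϖ0 hϖ
  obtain ⟨a, t, ht, hat⟩ := (D.mem_RR hϖ0 hϖ).1 (η : D.RR hϖ0 hϖ).2
  have ht0 : (t : E') ≠ 0 := D.ne_zero_of_isUnit_phi ht
  have htinv : (t : E')⁻¹ ∈ D.RR hϖ0 hϖ := (D.mem_RR hϖ0 hϖ).2 ⟨1, t, ht, by simp⟩
  have hau : IsUnit (⟨a, D.int_mem_RR hϖ0 hϖ a.2⟩ : D.RR hϖ0 hϖ) := by
    refine IsUnit.of_mul_eq_one ((↑(η⁻¹) : D.RR hϖ0 hϖ) * ⟨(t : E')⁻¹, htinv⟩) ?_
    apply Subtype.ext
    have h1 : ((η : D.RR hϖ0 hϖ) : E') * ((↑(η⁻¹) : D.RR hϖ0 hϖ) : E') = 1 :=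
      congrArg Subtype.val (Units.mul_inv η)
    change (a : E') * (((↑(η⁻¹) : D.RR hϖ0 hϖ) : E') * (t : E')⁻¹) = 1
    rw [hat] at h1
    linear_combination h1
  have hra : IsUnit (D.phi a) := by
    by_contra hna
    obtain ⟨y, hy, ea⟩ := D.approx_int hϖ0 hϖ a
    have hϖ' : D.io hϖ0 hϖ ϖ ∈ maximalIdeal (D.RR hϖ0 hϖ) :=
      (mem_maximalIdeal _).2 fun h => (mem_maximalIdeal _).1 hϖ ((D.isUnit_io hϖ0 hϖ).1 h)
    have h2 : D.io hϖ0 hϖ (D.phi a) ∈ maximalIdeal (D.RR hϖ0 hϖ) :=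
      (mem_maximalIdeal _).2 fun h => hna ((D.isUnit_io hϖ0 hϖ).1 h)
    have h3 : (⟨a, D.int_mem_RR hϖ0 hϖ a.2⟩ : D.RR hϖ0 hϖ) ∈ maximalIdeal (D.RR hϖ0 hϖ) := by
      have e : (⟨a, D.int_mem_RR hϖ0 hϖ a.2⟩ : D.RR hϖ0 hϖ) =
          D.io hϖ0 hϖ (D.phi a) + D.io hϖ0 hϖ ϖ * ⟨y, hy⟩ := Subtype.ext ea
      rw [e]
      exact Ideal.add_mem _ h2 (Ideal.mul_mem_right _ _ hϖ')
    exact (mem_maximalIdeal _).1 h3 hau
  refine ⟨a, t, D.phi a, D.phi t, hra, ht, a.2, t.2, D.e_mul_sub_phi a, D.e_mul_sub_phi t, ht0, ?_⟩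
  rw [hat, mul_assoc, inv_mul_cancel₀ ht0, mul_one]

end Sheet

/-- **the node relation on a cover split modulo `ϖ`, at a node of unknown thickness `e ∣ m`, `p ∤ m`**.
`P0`, `Pi` : the two branches, `x x' = u ϖ^m`.  (For the trivial cover use `Sheet.trivial`.) -/
theorem Sheet.node_rel_thick [IsDomain R] [IsLocalRing R] [IsNoetherianRing R] [IsIntegrallyClosed R]
    [IsFractionRing R E] [FiniteDimensional E E'] [Algebra.IsSeparable E E'] {ϖ : R}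
    (D : Sheet (E := E) R E' ϖ) (hϖ0 : ϖ ≠ 0) {P0 Pi : Ideal R} [h0 : P0.IsPrime] [hi : Pi.IsPrime]
    (hinf : P0 ⊓ Pi = span {ϖ}) {X Y : R} (hX : X ∈ P0) (hY : Y ∈ Pi)
    (hmX : maximalIdeal R = Pi ⊔ span {X}) (hmY : maximalIdeal R = P0 ⊔ span {Y})
    {m : ℕ} (hm : 0 < m) {x x' u : R} (hu : IsUnit u) (hxx : x * x' = u * ϖ ^ m) (hx : x ∉ Pi) (hx' : x' ∉ P0)
    {p : ℕ} (hp : p.Prime) (hpm : ¬ p ∣ m) (z : E') (hz : z ≠ 0)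
    (H : ∀ (V : ValuationSubring E') (h : E'), (∀ a : E', IsIntegral R a → a ∈ V) →
      (algebraMap R E' ϖ)⁻¹ ∈ V → h ∈ V → h⁻¹ ∉ V →
      (∀ y : E', y ≠ 0 → ∃ k : ℤ, y * h ^ k ∈ V ∧ (y * h ^ k)⁻¹ ∈ V) →
      ∃ w : E', w ≠ 0 ∧ z * w ^ p ∈ V ∧ (z * w ^ p)⁻¹ ∈ V) :
    ∃ (e M : ℕ) (X' Y' c : R) (i j : ℤ) (a t w : E') (ra rt : R), 0 < e ∧ e ∣ m ∧ ¬ p ∣ M ∧ IsUnit c ∧
      X' * Y' = c * ϖ ^ e ∧ ϖ ∣ X' - X ∧ ϖ ∣ Y' - Y ∧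
      IsUnit ra ∧ IsUnit rt ∧ IsIntegral R a ∧ IsIntegral R t ∧
      D.e * (a - algebraMap R E' ra) ∈ JJ R E' ϖ ∧ D.e * (t - algebraMap R E' rt) ∈ JJ R E' ϖ ∧ t ≠ 0 ∧ w ≠ 0 ∧
      z ^ M * t = a * algebraMap R E' X' ^ i * algebraMap R E' Y' ^ j * w ^ p := by
  have hϖP : ϖ ∈ P0 ⊓ Pi := by rw [hinf]; exact mem_span_singleton_self ϖ
  have hϖ : ϖ ∈ maximalIdeal R := le_maximalIdeal h0.ne_top hϖP.1
  obtain ⟨e, X', Y', c, he, hem, hc, hXY, hdX, hdY, hX0, hYi, hXi, hY0, hm3⟩ :=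
    thick_normal_form hϖ0 hinf hX hY hmX hmY hm hu hxx hx hx'
  haveI := D.isLocalRing_RR hϖ0 hϖ
  haveI := D.isNoetherianRing_RR hϖ0 hϖ
  haveI := D.isFractionRing_RR hϖ0 hϖ
  haveI := D.isIntegrallyClosed_RR hϖ0 hϖ
  haveI := D.isPrime_up hϖ0 hϖ (P := P0) hϖP.1
  haveI := D.isPrime_up hϖ0 hϖ (P := Pi) hϖP.2
  obtain ⟨M, η, i, j, w, hM, hw, hzz⟩ := root_node (R := D.RR hϖ0 hϖ) (K := E') (X := D.io hϖ0 hϖ X')
    (Y := D.io hϖ0 hϖ Y') (ϖ := D.io hϖ0 hϖ ϖ) (c := D.io hϖ0 hϖ c) he ((D.isUnit_io hϖ0 hϖ).2 hc)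
    (by rw [← D.io_mul, hXY, D.io_mul, D.io_pow]) (D.maximalIdeal_RR3 hϖ0 hϖ hm3)
    (Q0 := D.up hϖ0 hϖ P0 hϖP.1) (Qi := D.up hϖ0 hϖ Pi hϖP.2)
    ((D.io_mem_up hϖ0 hϖ _).2 hX0) (fun h => hY0 ((D.io_mem_up hϖ0 hϖ _).1 h))
    ((D.io_mem_up hϖ0 hϖ _).2 hYi) (fun h => hXi ((D.io_mem_up hϖ0 hϖ _).1 h))
    hp (fun h => hpm (h.trans hem)) z hz (by
      intro V h hV hϖV h1 h2 h3
      exact H V h (fun a ha => hV ⟨a, D.int_mem_RR hϖ0 hϖ ha⟩) hϖV h1 h2 h3)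
  obtain ⟨a, t, ra, rt, hra, hrt, ha, ht, hea, het, ht0, hat⟩ := D.unit_repr hϖ0 hϖ η
  refine ⟨e, M, X', Y', c, i, j, a, t, w, ra, rt, he, hem, hM, hc, hXY, hdX, hdY, hra, hrt, ha, ht, hea, het,
    ht0, hw, ?_⟩
  have hη : algebraMap (D.RR hϖ0 hϖ) E' (η : D.RR hϖ0 hϖ) = ((η : D.RR hϖ0 hϖ) : E') := rfl
  have hXe : algebraMap (D.RR hϖ0 hϖ) E' (D.io hϖ0 hϖ X') = algebraMap R E' X' := rfl
  have hYe : algebraMap (D.RR hϖ0 hϖ) E' (D.io hϖ0 hϖ Y') = algebraMap R E' Y' := rfl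
  rw [hzz, hη, hXe, hYe, ← hat]
  ring

/-- **smooth points** : `ϖ` prime, `𝔪 = (ϖ, Y)` -/
theorem Sheet.smooth_rel [IsDomain R] [IsLocalRing R] [IsNoetherianRing R] [IsFractionRing R E]
    [FiniteDimensional E E'] [Algebra.IsSeparable E E'] {ϖ : R} (D : Sheet (E := E) R E' ϖ)
    (hϖp : Prime ϖ) {Y : R} (hm : maximalIdeal R = span {ϖ} ⊔ span {Y}) (N : ℕ) (hN : 0 < N) (z : E') (hz : z ≠ 0)
    (H : ∀ (V : ValuationSubring E') (h : E'), (∀ a : E', IsIntegral R a → a ∈ V) →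
      (algebraMap R E' ϖ)⁻¹ ∈ V → h ∈ V → h⁻¹ ∉ V →
      (∀ y : E', y ≠ 0 → ∃ k : ℤ, y * h ^ k ∈ V ∧ (y * h ^ k)⁻¹ ∈ V) →
      ∃ w : E', w ≠ 0 ∧ z * w ^ N ∈ V ∧ (z * w ^ N)⁻¹ ∈ V) :
    ∃ (j : ℤ) (a t w : E') (ra rt : R), IsUnit ra ∧ IsUnit rt ∧ IsIntegral R a ∧ IsIntegral R t ∧
      D.e * (a - algebraMap R E' ra) ∈ JJ R E' ϖ ∧ D.e * (t - algebraMap R E' rt) ∈ JJ R E' ϖ ∧ t ≠ 0 ∧ w ≠ 0 ∧
      z * t = a * algebraMap R E' ϖ ^ j * w ^ N := by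
  have hϖ0 : ϖ ≠ 0 := hϖp.ne_zero
  have hϖ : ϖ ∈ maximalIdeal R := by
    rw [hm]; exact Submodule.mem_sup_left (mem_span_singleton_self ϖ)
  haveI : IsPrincipalIdealRing (R ⧸ span {ϖ}) := isPrincipalIdealRing_quot hϖp hm
  haveI : UniqueFactorizationMonoid R := ufd_of_quot ϖ hϖp
  haveI := D.isLocalRing_RR hϖ0 hϖ
  haveI := D.isNoetherianRing_RR hϖ0 hϖ
  haveI := D.isFractionRing_RR hϖ0 hϖ
  have hX' := D.prime_io hϖ0 hϖ hϖp (dvd_refl ϖ)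
  have hm' := D.maximalIdeal_RR hϖ0 hϖ hm (dvd_refl ϖ)
  haveI : IsPrincipalIdealRing (D.RR hϖ0 hϖ ⧸ span {D.io hϖ0 hϖ ϖ}) := isPrincipalIdealRing_quot hX' hm'
  haveI : UniqueFactorizationMonoid (D.RR hϖ0 hϖ) := ufd_of_quot _ hX'
  obtain ⟨η, i, j, c1, d1, hc1, -, hd1, -, hzz⟩ := node_factor (K := E') (D.io hϖ0 hϖ ϖ) (D.io hϖ0 hϖ ϖ) hX' hX'
    N hN z hz (by
      intro π hπ hπX _
      have hπϖ : ¬ π ∣ D.io hϖ0 hϖ ϖ := fun h => hπX ((hπ.dvd_prime_iff_associated hX').1 h)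
      obtain ⟨w, hw0, hw1, hw2⟩ := H (primeVal E' π hπ) (algebraMap _ E' π)
        (fun a ha => map_mem_primeVal hπ (⟨a, D.int_mem_RR hϖ0 hϖ ha⟩ : D.RR hϖ0 hϖ))
        (inv_mem_primeVal hπ hπϖ) (map_mem_primeVal hπ π) (inv_notMem_primeVal hπ)
        (fun y hy => exists_zpow_primeVal hπ hy)
      exact primeVal_pow_repr hπ hz hw0 hw1 hw2)
  obtain ⟨a, t, ra, rt, hra, hrt, ha, ht, hea, het, ht0, hat⟩ := D.unit_repr hϖ0 hϖ η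
  have hc10 : algebraMap (D.RR hϖ0 hϖ) E' c1 ≠ 0 := fun h => hc1 (by
    have : c1 = 0 := pvAux_inj E' (by rw [h, map_zero])
    rw [this]; exact dvd_zero _)
  have hd10 : algebraMap (D.RR hϖ0 hϖ) E' d1 ≠ 0 := fun h => hd1 (by
    have : d1 = 0 := pvAux_inj E' (by rw [h, map_zero])
    rw [this]; exact dvd_zero _)
  refine ⟨i + j, a, t, algebraMap (D.RR hϖ0 hϖ) E' c1 / algebraMap (D.RR hϖ0 hϖ) E' d1, ra, rt, hra, hrt, ha, ht,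
    hea, het, ht0, div_ne_zero hc10 hd10, ?_⟩
  have hη : algebraMap (D.RR hϖ0 hϖ) E' (η : D.RR hϖ0 hϖ) = ((η : D.RR hϖ0 hϖ) : E') := rfl
  have hXe : algebraMap (D.RR hϖ0 hϖ) E' (D.io hϖ0 hϖ ϖ) = algebraMap R E' ϖ := rfl
  have hϖE : algebraMap R E' ϖ ≠ 0 := fun h => hϖ0 (D.algebraMap_inj (by rw [h, map_zero]))
  rw [hzz, hη, hXe, ← hat, zpow_add₀ hϖE]
  ring

end CoverE

/-- the trivial cover -/
def Sheet.trivial (R : Type*) [CommRing R] (E : Type*) [Field E] [Algebra R E] (ϖ : R) :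
    Sheet (E := E) R E ϖ where
  δ := AlgEquiv.refl
  n := 1
  hn := Nat.one_pos
  pow := fun x => by simp
  fix := fun x _ => ⟨x, rfl⟩
  e := 1
  int := isIntegral_one
  orth := fun k h1 h2 => by omega
  sum := ⟨0, isIntegral_zero, by simp⟩

@[simp] theorem Sheet.trivial_e (R : Type*) [CommRing R] (E : Type*) [Field E] [Algebra R E] (ϖ : R) :
    (Sheet.trivial R E ϖ).e = 1 := rfl

end Fermat.Agent.S44.Alg
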