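import Fermat.Agent.S44.Alg.Dict
import Fermat.Agent.S44.Geo.Cov.RV

/-!
# S44 / Alg / CuspAbs : [CUSP], abstract form          (Mathlib + S05/Defs only)   (helper27)

`R` a regular local ring of dimension two with `𝔪 = (ϖ, Y)`, `D` a sheet datum.  `v : RVal E'` a valuation `≥ 0` on the integral elements with `v ϖ = 1`, integer valued;
`lam : E' → ℝ` multiplicative, integer valued, `lam ϖ = 1`, and `ev : R' → k` a ring homomorphism killing `ϖ` such that `lam a = 0` whenever `ev a ≠ 0`.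
Then `lam (δ^k₀ z) ≡ v z mod N` for some `k₀`, if all horizontal valuations of `z` are divisible by `N`.
-/

set_option autoImplicit false
set_option linter.unusedSectionVars false
set_option linter.style.haveILetI false

open Ideal IsLocalRing Finset Fermat.Agent.S05 Fermat.Agent.S44.Cov

namespace Fermat.Agent.S44.Alg

variable {R : Type*} [CommRing R] {E : Type*} {E' : Type*} [Field E] [Field E'] [Algebra R E]
  [Algebra E E'] [Algebra R E'] [IsScalarTower R E E']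
variable [IsDomain R] [IsLocalRing R] [IsNoetherianRing R] [IsIntegrallyClosed R]
    [IsFractionRing R E] [FiniteDimensional E E'] [Algebra.IsSeparable E E']

theorem Sheet.cusp_val {ϖ : R} (D : Sheet (E := E) R E' ϖ)
    (hϖp : Prime ϖ) {Y : R} (hm : maximalIdeal R = span {ϖ} ⊔ span {Y}) (N : ℕ) (hN : 0 < N) (z : E') (hz : z ≠ 0)
    (H : ∀ (j : ℕ) (V : ValuationSubring E') (h : E'), (∀ a : E', IsIntegral R a → a ∈ V) →
      (algebraMap R E' ϖ)⁻¹ ∈ V → h ∈ V → h⁻¹ ∉ V →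
      (∀ y : E', y ≠ 0 → ∃ k : ℤ, y * h ^ k ∈ V ∧ (y * h ^ k)⁻¹ ∈ V) →
      ∃ w : E', w ≠ 0 ∧ (D.δ ^ j) z * w ^ N ∈ V ∧ ((D.δ ^ j) z * w ^ N)⁻¹ ∈ V)
    (v : RVal E') (hint : ∀ a : E', IsIntegral R a → v.GE a 0) (hvϖ : v.EQ (algebraMap R E' ϖ) 1)
    (hZv : ∀ y : E', y ≠ 0 → ∃ n : ℤ, v.w y = n)
    (lam : E' → ℝ) (hlam : ∀ x y : E', x ≠ 0 → y ≠ 0 → lam (x * y) = lam x + lam y)
    (hlamϖ : lam (algebraMap R E' ϖ) = 1) (hZl : ∀ y : E', y ≠ 0 → ∃ n : ℤ, lam y = n)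
    {k : Type*} [Field k] (ev : integralClosure R E' →+* k) (hev : ev (algebraMap R _ ϖ) = 0)
    (hlamev : ∀ a : integralClosure R E', ev a ≠ 0 → lam (a : E') = 0) :
    ∃ (k₀ : ℕ) (n : ℤ), lam ((D.δ ^ k₀) z) - v.w z = N * n := by
  classical
  -- the sheet of `ev`
  obtain ⟨a0, ha0, hsum⟩ := D.sum
  have hsumIC : ∑ k ∈ Finset.range D.n, (⟨(D.δ ^ k) D.e, D.int_pow D.int k⟩ : integralClosure R E') =
      1 + algebraMap R _ ϖ * ⟨a0, ha0⟩ := by
    apply Subtype.ext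
    rw [AddSubmonoidClass.coe_finsetSum]
    exact hsum
  have hsumev : ∑ k ∈ Finset.range D.n, ev (⟨(D.δ ^ k) D.e, D.int_pow D.int k⟩ : integralClosure R E') = 1 := by
    rw [← map_sum, hsumIC, map_add, map_one, map_mul, hev, zero_mul, add_zero]
  obtain ⟨k₂, -, hk₂⟩ := Finset.exists_ne_zero_of_sum_ne_zero (by rw [hsumev]; exact one_ne_zero)
  -- the sheet of `v`
  have hk1 : ∃ k₁, v.EQ ((D.δ ^ k₁) D.e) 0 := by
    by_contra hcon
    push Not at hcon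
    have hall : ∀ k ∈ Finset.range D.n, v.GT ((D.δ ^ k) D.e) 0 := by
      intro k _
      by_contra hgt
      have hge := hint _ (D.int_pow D.int k)
      have hx : (D.δ ^ k) D.e ≠ 0 := fun h0 => hgt (Or.inl h0)
      refine hcon k ⟨hx, le_antisymm ?_ (hge.le_w hx)⟩
      by_contra hlt
      exact hgt (Or.inr (not_le.1 hlt))
    have h1 := GT_sum v _ _ _ hall
    rw [hsum] at h1
    have h3 : v.GT (algebraMap R E' ϖ * a0) 0 := by
      have := (hvϖ.GT (b := 0) (by norm_num)).mul_GE (hint a0 ha0)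
      rwa [add_zero] at this
    have h2 := (RVal.EQ_one (v := v)).add_GT h3
    have h4 := h1.lt_w h2.ne_zero
    rw [h2.w_eq] at h4
    exact lt_irrefl _ h4
  obtain ⟨k₁, hk₁⟩ := hk1
  -- the two functions
  let v1 : RVal E' := rvComap ((D.δ ^ k₁ : E' ≃ₐ[E] E') : E' →+* E') v
  have hv1 : ∀ x : E', v1.w x = v.w ((D.δ ^ k₁) x) := fun _ => rfl
  have hne : ∀ (k : ℕ) (x : E'), x ≠ 0 → (D.δ ^ k) x ≠ 0 := by
    intro k x hx
    rw [Ne, EmbeddingLike.map_eq_zero_iff]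
    exact hx
  have hlam' : ∀ x y : E', x ≠ 0 → y ≠ 0 →
      lam ((D.δ ^ k₂) (x * y)) = lam ((D.δ ^ k₂) x) + lam ((D.δ ^ k₂) y) := by
    intro x y hx hy
    rw [map_mul, hlam _ _ (hne k₂ x hx) (hne k₂ y hy)]
  have hint1 : ∀ a : E', IsIntegral R a → v1.GE a 0 := by
    intro a ha
    rw [rvComap_GE]
    exact hint _ (D.int_pow ha k₁)
  have hϖ1 : v1.EQ (algebraMap R E' ϖ) 1 := by
    rw [rvComap_EQ]
    show v.EQ ((D.δ ^ k₁) (algebraMap R E' ϖ)) 1
    rw [D.pow_algebraMap]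
    exact hvϖ
  have he1 : v1.EQ D.e 0 := by
    rw [rvComap_EQ]
    exact hk₁
  have hlamU : ∀ (a : E') (ra : R), IsUnit ra → IsIntegral R a →
      D.e * (a - algebraMap R E' ra) ∈ JJ R E' ϖ → a ≠ 0 ∧ lam ((D.δ ^ k₂) a) = 0 := by
    rintro a ra hra ha ⟨c, hc, hce⟩
    have h1 : (D.δ ^ k₂) D.e * (D.δ ^ k₂) a = (D.δ ^ k₂) D.e * algebraMap R E' ra +
        algebraMap R E' ϖ * (D.δ ^ k₂) c := by
      have := congrArg (D.δ ^ k₂) hce
      rw [map_mul, map_sub, map_mul, D.pow_algebraMap, D.pow_algebraMap] at this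
      linear_combination this
    have h2 : (⟨(D.δ ^ k₂) D.e, D.int_pow D.int k₂⟩ : integralClosure R E') * ⟨(D.δ ^ k₂) a, D.int_pow ha k₂⟩ =
        ⟨(D.δ ^ k₂) D.e, D.int_pow D.int k₂⟩ * algebraMap R _ ra +
        algebraMap R _ ϖ * ⟨(D.δ ^ k₂) c, D.int_pow hc k₂⟩ := Subtype.ext h1
    have h3 := congrArg ev h2
    rw [map_mul, map_add, map_mul, map_mul, hev, zero_mul, add_zero] at h3
    have h4 := mul_left_cancel₀ hk₂ h3
    have h5 : ev (algebraMap R _ ra) ≠ 0 := ((hra.map (algebraMap R (integralClosure R E'))).map ev).ne_zero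
    rw [← h4] at h5
    refine ⟨?_, hlamev _ h5⟩
    rintro rfl
    apply h5
    have : (⟨(D.δ ^ k₂) (0 : E'), D.int_pow ha k₂⟩ : integralClosure R E') = 0 := Subtype.ext (map_zero _)
    rw [this, map_zero]
  have hmuU : ∀ (a : E') (ra : R), IsUnit ra → IsIntegral R a →
      D.e * (a - algebraMap R E' ra) ∈ JJ R E' ϖ → a ≠ 0 ∧ v1.w a = 0 := by
    intro a ra hra _ h
    have := D.unit_val hint1 D.algebraMap_inj (hϖ1.GT (b := 0) (by norm_num)) he1 hra h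
    exact ⟨this.ne_zero, this.w_eq⟩
  -- the element
  set j : ℕ := (D.n - 1) * k₁ with hj
  have hkj : k₁ + j = D.n * k₁ := by
    obtain ⟨n', hn'⟩ := Nat.exists_eq_succ_of_ne_zero D.hn.ne'
    rw [hj, hn']
    simp only [Nat.succ_eq_add_one, Nat.add_sub_cancel]
    ring
  have hδn : D.δ ^ (k₁ + j) = 1 := by
    rw [hkj, pow_mul, AlgEquiv.ext (f := D.δ ^ D.n) (g := 1) D.pow, one_pow]
  obtain ⟨k, hk⟩ := D.cusp_rel hϖp hm N hN ((D.δ ^ j) z) (hne j z hz) (H j)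
    (fun x => lam ((D.δ ^ k₂) x)) v1.w hlam' v1.map_mul hlamU hmuU
    (by
      show lam ((D.δ ^ k₂) (algebraMap R E' ϖ)) = v1.w (algebraMap R E' ϖ)
      rw [D.pow_algebraMap, hlamϖ, hϖ1.w_eq])
    (fun y hy => hZl _ (hne k₂ y hy)) (fun y hy => hZv _ (hne k₁ y hy))
  refine ⟨k₂ + j, k, ?_⟩
  have e1 : (D.δ ^ k₂) ((D.δ ^ j) z) = (D.δ ^ (k₂ + j)) z := by
    rw [pow_add, AlgEquiv.mul_apply]
  have e2 : v1.w ((D.δ ^ j) z) = v.w z := by
    rw [hv1, ← AlgEquiv.mul_apply, ← pow_add, hδn, AlgEquiv.one_apply]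
  rw [← e1, ← e2]
  exact hk

end Fermat.Agent.S44.Alg
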