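import Fermat.Agent.S44.Alg.CoverE
import Fermat.Agent.S05.Defs

/-!
# S44 / Alg / Dict : from the node relation to `p`-divisibility at the node   [key S44/COV-DICT, abstract half]   (Mathlib + S05/Defs (`RVal`) only)   (helper27)

`vi`, `v0 : RVal E'` : the valuations of the two sheets through the node (`vi` : the branch `Pi`, `v0` : the branch `P0`).
* `Sheet.unit_val` : the "units at the node" `a` (integral, `e (a - ra) ∈ ϖ R'`, `ra ∈ Rˣ`) have valuation `0` for every `v` with `v ≥ 0` on integral elements, `v ϖ > 0`, `v e = 0`.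
* `Sheet.pdiv_node` : if `v0 z ≡ vi z mod p` then `z * ϖ ^ n * g ^ p * t = a` with `a`, `t` units at the node.
* `Sheet.cusp_rel` : at a smooth point, two multiplicative functions `λ`, `μ` (e.g. `w ∘ lc` and the Gauss valuation) which vanish on the units at the point, with integral values
  and `λ ϖ = μ ϖ`, agree modulo `p` on `z`.
-/

set_option autoImplicit false
set_option linter.unusedSectionVars false
set_option linter.style.haveILetI false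

open Ideal IsLocalRing Finset Fermat.Agent.S05

namespace Fermat.Agent.S44.Alg

section Dict

variable {R : Type*} [CommRing R] {E : Type*} {E' : Type*} [Field E] [Field E'] [Algebra R E]
  [Algebra E E'] [Algebra R E'] [IsScalarTower R E E']

/-- a unit of `R` has valuation `0` -/
theorem RVal_EQ_of_isUnit {v : RVal E'} (hint : ∀ a : E', IsIntegral R a → v.GE a 0)
    (hinj : Function.Injective (algebraMap R E')) {r : R} (hr : IsUnit r) : v.EQ (algebraMap R E' r) 0 := by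
  obtain ⟨s, hs⟩ := hr.exists_right_inv
  have hr0 : algebraMap R E' r ≠ 0 := by
    intro h
    have : algebraMap R E' r * algebraMap R E' s = 1 := by rw [← map_mul, hs, map_one]
    rw [h, zero_mul] at this
    exact zero_ne_one this
  have hs0 : algebraMap R E' s ≠ 0 := by
    intro h
    have : algebraMap R E' r * algebraMap R E' s = 1 := by rw [← map_mul, hs, map_one]
    rw [h, mul_zero] at this
    exact zero_ne_one this
  have h1 := (hint _ (isIntegral_algebraMap (x := r))).le_w hr0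
  have h2 := (hint _ (isIntegral_algebraMap (x := s))).le_w hs0
  have h3 : v.w (algebraMap R E' r) + v.w (algebraMap R E' s) = 0 := by
    rw [← v.map_mul _ _ hr0 hs0, ← map_mul, hs, map_one, RVal.w_one]
  exact ⟨hr0, by linarith⟩

/-- the "units at the node" have valuation `0` on the sheets through the node -/
theorem Sheet.unit_val {ϖ : R} (D : Sheet (E := E) R E' ϖ) {v : RVal E'}
    (hint : ∀ a : E', IsIntegral R a → v.GE a 0) (hinj : Function.Injective (algebraMap R E'))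
    (hϖ : v.GT (algebraMap R E' ϖ) 0) (he : v.EQ D.e 0) {a : E'} {ra : R} (hra : IsUnit ra)
    (h : D.e * (a - algebraMap R E' ra) ∈ JJ R E' ϖ) : v.EQ a 0 := by
  obtain ⟨b, hb, hbe⟩ := h
  have h1 : v.GT (D.e * (a - algebraMap R E' ra)) 0 := by
    rw [hbe]
    have := hϖ.mul_GE (hint b hb)
    rwa [add_zero] at this
  have h2 : v.GT (a - algebraMap R E' ra) 0 := by
    have := RVal.GT.of_mul_eq_left (v := v) (x := a - algebraMap R E' ra) (y := D.e)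
      (z := D.e * (a - algebraMap R E' ra)) (a := 0) (b := 0) (by ring) he h1
    simpa using this
  have h3 := (RVal_EQ_of_isUnit hint hinj hra).add_GT h2
  rwa [add_sub_cancel] at h3

variable [IsDomain R] [IsLocalRing R] [IsNoetherianRing R] [IsIntegrallyClosed R]
    [IsFractionRing R E] [FiniteDimensional E E'] [Algebra.IsSeparable E E']

/-- `Sheet.node_rel_thick` with the unit kept in `R''` -/
theorem Sheet.node_rel_unit {ϖ : R}
    (D : Sheet (E := E) R E' ϖ) (hϖ0 : ϖ ≠ 0) (hϖ : ϖ ∈ maximalIdeal R) {P0 Pi : Ideal R} [h0 : P0.IsPrime]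
    [hi : Pi.IsPrime]
    (hinf : P0 ⊓ Pi = span {ϖ}) {X Y : R} (hX : X ∈ P0) (hY : Y ∈ Pi)
    (hmX : maximalIdeal R = Pi ⊔ span {X}) (hmY : maximalIdeal R = P0 ⊔ span {Y})
    {m : ℕ} (hm : 0 < m) {x x' u : R} (hu : IsUnit u) (hxx : x * x' = u * ϖ ^ m) (hx : x ∉ Pi) (hx' : x' ∉ P0)
    {p : ℕ} (hp : p.Prime) (hpm : ¬ p ∣ m) (z : E') (hz : z ≠ 0)
    (H : ∀ (V : ValuationSubring E') (h : E'), (∀ a : E', IsIntegral R a → a ∈ V) →
      (algebraMap R E' ϖ)⁻¹ ∈ V → h ∈ V → h⁻¹ ∉ V →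
      (∀ y : E', y ≠ 0 → ∃ k : ℤ, y * h ^ k ∈ V ∧ (y * h ^ k)⁻¹ ∈ V) →
      ∃ w : E', w ≠ 0 ∧ z * w ^ p ∈ V ∧ (z * w ^ p)⁻¹ ∈ V) :
    ∃ (e M : ℕ) (X' Y' c : R) (i j : ℤ) (η : (D.RR hϖ0 hϖ)ˣ) (w : E'), 0 < e ∧ e ∣ m ∧ ¬ p ∣ M ∧ IsUnit c ∧
      X' * Y' = c * ϖ ^ e ∧ X' ∉ Pi ∧ Y' ∉ P0 ∧ w ≠ 0 ∧
      z ^ M = ((η : D.RR hϖ0 hϖ) : E') * algebraMap R E' X' ^ i * algebraMap R E' Y' ^ j * w ^ p := by
  have hϖP : ϖ ∈ P0 ⊓ Pi := by rw [hinf]; exact mem_span_singleton_self ϖ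
  obtain ⟨e, X', Y', c, he, hem, hc, hXY, hdX, hdY, hX0, hYi, hXi, hY0, hm3⟩ :=
    thick_normal_form hϖ0 hinf hX hY hmX hmY hm hu hxx hx hx'
  haveI := D.isLocalRing_RR hϖ0 hϖ
  haveI := D.isNoetherianRing_RR hϖ0 hϖ
  haveI := D.isFractionRing_RR hϖ0 hϖ
  haveI := D.isIntegrallyClosed_RR hϖ0 hϖ
  haveI := D.isPrime_up hϖ0 hϖ (P := P0) hϖP.1
  haveI := D.isPrime_up hϖ0 hϖ (P := Pi) hϖP.2
  obtain ⟨M, η, i, j, w, hM, hw, hzz⟩ := root_node (R := D.RR hϖ0 hϖ) (K := E') (X := D.io hϖ0 hϖ X')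
    (Y := D.io hϖ0 hϖ Y') (ϖ := D.io hϖ0 hϖ ϖ) (c := D.io hϖ0 hϖ c) he ((D.isUnit_io hϖ0 hϖ).2 hc)
    (by rw [← D.io_mul, hXY, D.io_mul, D.io_pow]) (D.maximalIdeal_RR3 hϖ0 hϖ hm3)
    (Q0 := D.up hϖ0 hϖ P0 hϖP.1) (Qi := D.up hϖ0 hϖ Pi hϖP.2)
    ((D.io_mem_up hϖ0 hϖ _).2 hX0) (fun h => hY0 ((D.io_mem_up hϖ0 hϖ _).1 h))
    ((D.io_mem_up hϖ0 hϖ _).2 hYi) (fun h => hXi ((D.io_mem_up hϖ0 hϖ _).1 h))
    hp (fun h => hpm (h.trans hem)) z hz (by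
      intro V h hV hϖV h1 h2 h3
      exact H V h (fun a ha => hV ⟨a, D.int_mem_RR hϖ0 hϖ ha⟩) hϖV h1 h2 h3)
  exact ⟨e, M, X', Y', c, i, j, η, w, he, hem, hM, hc, hXY, hXi, hY0, hw, hzz⟩

/-- **(DICT, node)** if the valuations of `z` on the two sheets through the node are congruent modulo `p`, then `z` is,
up to a power of `ϖ` and a `p`-th power, a unit at the node. -/
theorem Sheet.pdiv_node {ϖ : R}
    (D : Sheet (E := E) R E' ϖ) (hϖ0 : ϖ ≠ 0) {P0 Pi : Ideal R} [h0 : P0.IsPrime] [hi : Pi.IsPrime]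
    (hinf : P0 ⊓ Pi = span {ϖ}) {X Y : R} (hX : X ∈ P0) (hY : Y ∈ Pi)
    (hmX : maximalIdeal R = Pi ⊔ span {X}) (hmY : maximalIdeal R = P0 ⊔ span {Y})
    {m : ℕ} (hm : 0 < m) {x x' u : R} (hu : IsUnit u) (hxx : x * x' = u * ϖ ^ m) (hx : x ∉ Pi) (hx' : x' ∉ P0)
    {p : ℕ} (hp : p.Prime) (hpm : ¬ p ∣ m) (z : E') (hz : z ≠ 0)
    (H : ∀ (V : ValuationSubring E') (h : E'), (∀ a : E', IsIntegral R a → a ∈ V) →
      (algebraMap R E' ϖ)⁻¹ ∈ V → h ∈ V → h⁻¹ ∉ V →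
      (∀ y : E', y ≠ 0 → ∃ k : ℤ, y * h ^ k ∈ V ∧ (y * h ^ k)⁻¹ ∈ V) →
      ∃ w : E', w ≠ 0 ∧ z * w ^ p ∈ V ∧ (z * w ^ p)⁻¹ ∈ V)
    (vi v0 : RVal E')
    (hinti : ∀ a : E', IsIntegral R a → vi.GE a 0) (hint0 : ∀ a : E', IsIntegral R a → v0.GE a 0)
    (hϖi : vi.EQ (algebraMap R E' ϖ) 1) (hϖ00 : v0.EQ (algebraMap R E' ϖ) 1)
    (hei : vi.EQ D.e 0) (he0 : v0.EQ D.e 0)
    (hci : ∀ r : R, r ∉ Pi → vi.EQ (algebraMap R E' r) 0) (hc0 : ∀ r : R, r ∉ P0 → v0.EQ (algebraMap R E' r) 0)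
    (hZi : ∀ y : E', y ≠ 0 → ∃ n : ℤ, vi.w y = n) (hZ0 : ∀ y : E', y ≠ 0 → ∃ n : ℤ, v0.w y = n)
    (hcong : ∃ k : ℤ, v0.w z - vi.w z = p * k) :
    ∃ (n : ℤ) (g a t : E') (ra rt : R), g ≠ 0 ∧ IsUnit ra ∧ IsUnit rt ∧ IsIntegral R a ∧ IsIntegral R t ∧
      D.e * (a - algebraMap R E' ra) ∈ JJ R E' ϖ ∧ D.e * (t - algebraMap R E' rt) ∈ JJ R E' ϖ ∧ t ≠ 0 ∧
      z * algebraMap R E' ϖ ^ n * g ^ p * t = a := by
  have hϖP : ϖ ∈ P0 ⊓ Pi := by rw [hinf]; exact mem_span_singleton_self ϖ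
  have hϖ : ϖ ∈ maximalIdeal R := le_maximalIdeal h0.ne_top hϖP.1
  have hinj : Function.Injective (algebraMap R E') := D.algebraMap_inj
  obtain ⟨e, M, X', Y', c, i, j, η, w, he, hem, hM, hc, hXY, hXi, hY0, hw, hzz⟩ :=
    D.node_rel_unit hϖ0 hϖ hinf hX hY hmX hmY hm hu hxx hx hx' hp hpm z hz H
  -- valuations of the unit
  have hηv : ∀ v : RVal E', (∀ a : E', IsIntegral R a → v.GE a 0) → v.EQ (algebraMap R E' ϖ) 1 → v.EQ D.e 0 →
      v.EQ ((η : D.RR hϖ0 hϖ) : E') 0 := by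
    intro v h1 h2 h3
    obtain ⟨a, t, ra, rt, hra, hrt, -, -, hea, het, ht0, hat⟩ := D.unit_repr hϖ0 hϖ η
    have ha := D.unit_val h1 hinj h2.GT h3 hra hea
    have ht := D.unit_val h1 hinj h2.GT h3 hrt het
    have := RVal.EQ.of_mul_eq_left hat ht ha
    simpa using this
  have hXE : algebraMap R E' X' ≠ 0 := (hci X' hXi).ne_zero
  have hYE : algebraMap R E' Y' ≠ 0 := (hc0 Y' hY0).ne_zero
  have hϖE : algebraMap R E' ϖ ≠ 0 := hϖi.ne_zero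
  have hcE : ∀ v : RVal E', (∀ a : E', IsIntegral R a → v.GE a 0) → v.EQ (algebraMap R E' c) 0 :=
    fun v h1 => RVal_EQ_of_isUnit h1 hinj hc
  have hXYE : algebraMap R E' X' * algebraMap R E' Y' = algebraMap R E' c * algebraMap R E' ϖ ^ e := by
    rw [← map_mul, hXY, map_mul, map_pow]
  have hYi : vi.w (algebraMap R E' Y') = e := by
    have h1 := congrArg vi.w hXYE
    rw [vi.map_mul _ _ hXE hYE, vi.map_mul _ _ (hcE vi hinti).ne_zero (pow_ne_zero _ hϖE), RVal.w_pow hϖE,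
      (hci X' hXi).w_eq, (hcE vi hinti).w_eq, hϖi.w_eq] at h1
    linarith
  have hX0 : v0.w (algebraMap R E' X') = e := by
    have h1 := congrArg v0.w hXYE
    rw [v0.map_mul _ _ hXE hYE, v0.map_mul _ _ (hcE v0 hint0).ne_zero (pow_ne_zero _ hϖE), RVal.w_pow hϖE,
      (hc0 Y' hY0).w_eq, (hcE v0 hint0).w_eq, hϖ00.w_eq] at h1
    linarith
  have hval : ∀ v : RVal E', v.EQ ((η : D.RR hϖ0 hϖ) : E') 0 →
      (M : ℝ) * v.w z = i * v.w (algebraMap R E' X') + j * v.w (algebraMap R E' Y') + p * v.w w := by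
    intro v hη
    have h1 := congrArg v.w hzz
    rw [RVal.w_pow hz, v.map_mul _ _ (mul_ne_zero (mul_ne_zero hη.ne_zero (zpow_ne_zero _ hXE))
      (zpow_ne_zero _ hYE)) (pow_ne_zero _ hw), v.map_mul _ _ (mul_ne_zero hη.ne_zero (zpow_ne_zero _ hXE))
      (zpow_ne_zero _ hYE), v.map_mul _ _ hη.ne_zero (zpow_ne_zero _ hXE), RVal.w_zpow hXE, RVal.w_zpow hYE,
      RVal.w_pow hw, hη.w_eq] at h1
    linarith
  have hvi := hval vi (hηv vi hinti hϖi hei)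
  have hv0 := hval v0 (hηv v0 hint0 hϖ00 he0)
  rw [(hci X' hXi).w_eq, hYi] at hvi
  rw [(hc0 Y' hY0).w_eq, hX0] at hv0
  obtain ⟨k, hk⟩ := hcong
  obtain ⟨ni, hni⟩ := hZi w hw
  obtain ⟨n0, hn0⟩ := hZ0 w hw
  -- `p ∣ i - j`
  have hdiv : (p : ℤ) ∣ (e : ℤ) * (i - j) := by
    refine ⟨M * k - (n0 - ni), ?_⟩
    have : ((e : ℝ)) * (i - j) = p * (M * k - (n0 - ni)) := by
      rw [hni] at hvi
      rw [hn0] at hv0
      have : (M : ℝ) * (v0.w z - vi.w z) = M * (p * k) := by rw [hk]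
      linarith
    exact_mod_cast this
  have hpe : ¬ (p : ℤ) ∣ (e : ℤ) := by
    intro h
    exact hpm ((Int.natCast_dvd_natCast.1 h).trans hem)
  obtain ⟨l, hl⟩ := ((Nat.prime_iff_prime_int.1 hp).dvd_or_dvd hdiv).resolve_left hpe
  have hcop : IsCoprime (M : ℤ) (p : ℤ) := by
    rw [isCoprime_comm]
    exact ((Nat.prime_iff_prime_int.1 hp).coprime_iff_not_dvd).2 (fun h => hM (Int.natCast_dvd_natCast.1 h))
  obtain ⟨α, β, hαβ⟩ := hcop
  -- the algebra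
  set A : E' := algebraMap R E' X' ^ l * w with hA
  have hA0 : A ≠ 0 := mul_ne_zero (zpow_ne_zero _ hXE) hw
  have hcE0 : algebraMap R E' c ≠ 0 := (hcE vi hinti).ne_zero
  have hzM : z ^ M = (((η : D.RR hϖ0 hϖ) : E') * algebraMap R E' c ^ j) * algebraMap R E' ϖ ^ ((e : ℤ) * j) * A ^ p := by
    have hi : i = j + p * l := by linarith
    rw [hzz, hi, zpow_add₀ hXE, hA, mul_pow, zpow_mul (algebraMap R E' ϖ), zpow_natCast, ← zpow_natCast (_ ^ l) p,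
      ← zpow_mul, mul_comm l (p : ℤ)]
    have h2 : algebraMap R E' X' ^ j * algebraMap R E' Y' ^ j =
        algebraMap R E' c ^ j * (algebraMap R E' ϖ ^ e) ^ j := by
      rw [← mul_zpow, hXYE, mul_zpow]
    linear_combination (((η : D.RR hϖ0 hϖ) : E') * algebraMap R E' X' ^ ((p : ℤ) * l) * w ^ p) * h2
  let cu : (D.RR hϖ0 hϖ)ˣ := ((D.isUnit_io hϖ0 hϖ).2 hc).unit
  have hcu : ((cu : D.RR hϖ0 hϖ) : E') = algebraMap R E' c := rfl
  have hcoe : ∀ (ν : (D.RR hϖ0 hϖ)ˣ) (n : ℤ), (((ν ^ n : (D.RR hϖ0 hϖ)ˣ) : D.RR hϖ0 hϖ) : E') =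
      ((ν : D.RR hϖ0 hϖ) : E') ^ n := fun ν n => map_units_zpow (R := D.RR hϖ0 hϖ) (K := E') ν n
  obtain ⟨a, t, ra, rt, hra, hrt, ha, ht, hea, het, ht0, hat⟩ := D.unit_repr hϖ0 hϖ ((η * cu ^ j) ^ α)
  refine ⟨-((e : ℤ) * j * α), (A ^ α * z ^ β)⁻¹, a, t, ra, rt,
    inv_ne_zero (mul_ne_zero (zpow_ne_zero _ hA0) (zpow_ne_zero _ hz)), hra, hrt, ha, ht, hea, het, ht0, ?_⟩
  rw [← hat]
  congr 1
  rw [hcoe, Units.val_mul, MulMemClass.coe_mul, hcoe, hcu]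
  have hz1 : z = (z ^ M) ^ α * (z ^ β) ^ p := by
    rw [← zpow_natCast z M, ← zpow_mul, ← zpow_natCast (z ^ β) p, ← zpow_mul, ← zpow_add₀ hz,
      mul_comm (M : ℤ) α, hαβ, zpow_one]
  have hP0 : algebraMap R E' ϖ ^ ((e : ℤ) * j * α) ≠ 0 := zpow_ne_zero _ hϖE
  have hB0 : A ^ α * z ^ β ≠ 0 := mul_ne_zero (zpow_ne_zero _ hA0) (zpow_ne_zero _ hz)
  have h3 : (z ^ M) ^ α = (((η : D.RR hϖ0 hϖ) : E') * algebraMap R E' c ^ j) ^ α *
      algebraMap R E' ϖ ^ ((e : ℤ) * j * α) * (A ^ α) ^ p := by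
    rw [hzM, mul_zpow, mul_zpow, ← zpow_mul, ← zpow_natCast (A ^ α) p, ← zpow_mul, ← zpow_natCast A p, ← zpow_mul,
      mul_comm (p : ℤ) α]
  rw [zpow_neg, inv_pow]
  have hz2 : z = (((η : D.RR hϖ0 hϖ) : E') * algebraMap R E' c ^ j) ^ α *
      algebraMap R E' ϖ ^ ((e : ℤ) * j * α) * (A ^ α) ^ p * (z ^ β) ^ p := by
    rw [← h3]; exact hz1
  have hAα : A ^ α ≠ 0 := zpow_ne_zero _ hA0
  have hzβ : z ^ β ≠ 0 := zpow_ne_zero _ hz
  calc z * (algebraMap R E' ϖ ^ ((e : ℤ) * j * α))⁻¹ * ((A ^ α * z ^ β) ^ p)⁻¹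
      = ((((η : D.RR hϖ0 hϖ) : E') * algebraMap R E' c ^ j) ^ α *
          algebraMap R E' ϖ ^ ((e : ℤ) * j * α) * (A ^ α) ^ p * (z ^ β) ^ p) *
          (algebraMap R E' ϖ ^ ((e : ℤ) * j * α))⁻¹ * ((A ^ α * z ^ β) ^ p)⁻¹ := by rw [← hz2]
    _ = (((η : D.RR hϖ0 hϖ) : E') * algebraMap R E' c ^ j) ^ α := by
      rw [mul_pow]
      generalize (((η : D.RR hϖ0 hϖ) : E') * algebraMap R E' c ^ j) ^ α = U
      generalize hPP : algebraMap R E' ϖ ^ ((e : ℤ) * j * α) = PP at hP0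
      generalize A ^ α = A1 at hAα
      generalize z ^ β = Z1 at hzβ
      field_simp

/-- **(DICT, cusp)** -/
theorem Sheet.cusp_rel {ϖ : R} (D : Sheet (E := E) R E' ϖ)
    (hϖp : Prime ϖ) {Y : R} (hm : maximalIdeal R = span {ϖ} ⊔ span {Y}) (N : ℕ) (hN : 0 < N) (z : E') (hz : z ≠ 0)
    (H : ∀ (V : ValuationSubring E') (h : E'), (∀ a : E', IsIntegral R a → a ∈ V) →
      (algebraMap R E' ϖ)⁻¹ ∈ V → h ∈ V → h⁻¹ ∉ V →
      (∀ y : E', y ≠ 0 → ∃ k : ℤ, y * h ^ k ∈ V ∧ (y * h ^ k)⁻¹ ∈ V) →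
      ∃ w : E', w ≠ 0 ∧ z * w ^ N ∈ V ∧ (z * w ^ N)⁻¹ ∈ V)
    (lam mu : E' → ℝ) (hlam : ∀ x y : E', x ≠ 0 → y ≠ 0 → lam (x * y) = lam x + lam y)
    (hmu : ∀ x y : E', x ≠ 0 → y ≠ 0 → mu (x * y) = mu x + mu y)
    (hlamU : ∀ (a : E') (ra : R), IsUnit ra → IsIntegral R a → D.e * (a - algebraMap R E' ra) ∈ JJ R E' ϖ →
      a ≠ 0 ∧ lam a = 0)
    (hmuU : ∀ (a : E') (ra : R), IsUnit ra → IsIntegral R a → D.e * (a - algebraMap R E' ra) ∈ JJ R E' ϖ →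
      a ≠ 0 ∧ mu a = 0)
    (hϖ : lam (algebraMap R E' ϖ) = mu (algebraMap R E' ϖ))
    (hZl : ∀ y : E', y ≠ 0 → ∃ n : ℤ, lam y = n) (hZm : ∀ y : E', y ≠ 0 → ∃ n : ℤ, mu y = n) :
    ∃ k : ℤ, lam z - mu z = N * k := by
  obtain ⟨j, a, t, w, ra, rt, hra, hrt, ha, ht, hea, het, ht0, hw, hzz⟩ := D.smooth_rel hϖp hm N hN z hz H
  have hϖE : algebraMap R E' ϖ ≠ 0 := fun h => hϖp.ne_zero (D.algebraMap_inj (by rw [h, map_zero]))
  have key : ∀ f : E' → ℝ, (∀ x y : E', x ≠ 0 → y ≠ 0 → f (x * y) = f x + f y) → f a = 0 → f t = 0 →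
      f z = f (algebraMap R E' ϖ ^ j) + N * f w := by
    intro f hf h1 h2
    have ha0 : a ≠ 0 := (hlamU a ra hra ha hea).1
    have hpow : ∀ n : ℕ, f (w ^ n) = n * f w := by
      intro n
      induction n with
      | zero =>
        have := hf 1 1 one_ne_zero one_ne_zero
        rw [mul_one] at this
        simp only [pow_zero, Nat.cast_zero, zero_mul]
        linarith
      | succ n ih =>
        rw [pow_succ, hf _ _ (pow_ne_zero _ hw) hw, ih]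
        push_cast
        ring
    have h3 := congrArg f hzz
    rw [hf _ _ hz ht0, hf _ _ (mul_ne_zero ha0 (zpow_ne_zero _ hϖE)) (pow_ne_zero _ hw),
      hf _ _ ha0 (zpow_ne_zero _ hϖE), hpow, h1, h2] at h3
    linarith
  have hone : ∀ f : E' → ℝ, (∀ x y : E', x ≠ 0 → y ≠ 0 → f (x * y) = f x + f y) → f 1 = 0 := by
    intro f hf
    have := hf 1 1 one_ne_zero one_ne_zero
    rw [mul_one] at this
    linarith
  have hnp : ∀ f : E' → ℝ, (∀ x y : E', x ≠ 0 → y ≠ 0 → f (x * y) = f x + f y) → ∀ n : ℕ,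
      f (algebraMap R E' ϖ ^ n) = n * f (algebraMap R E' ϖ) := by
    intro f hf n
    induction n with
    | zero => simp [hone f hf]
    | succ n ih =>
      rw [pow_succ, hf _ _ (pow_ne_zero _ hϖE) hϖE, ih]
      push_cast
      ring
  have hzp : ∀ f : E' → ℝ, (∀ x y : E', x ≠ 0 → y ≠ 0 → f (x * y) = f x + f y) →
      f (algebraMap R E' ϖ ^ j) = j * f (algebraMap R E' ϖ) := by
    intro f hf
    rcases Int.eq_nat_or_neg j with ⟨n, rfl | rfl⟩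
    · rw [zpow_natCast, hnp f hf]; simp
    · have h1 := hf (algebraMap R E' ϖ ^ (-(n : ℤ))) (algebraMap R E' ϖ ^ n) (zpow_ne_zero _ hϖE)
        (pow_ne_zero _ hϖE)
      rw [zpow_neg, zpow_natCast, inv_mul_cancel₀ (pow_ne_zero _ hϖE), hone f hf, hnp f hf] at h1
      rw [zpow_neg, zpow_natCast]
      push_cast
      linarith
  have h1 := key lam hlam (hlamU a ra hra ha hea).2 (hlamU t rt hrt ht het).2
  have h2 := key mu hmu (hmuU a ra hra ha hea).2 (hmuU t rt hrt ht het).2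
  rw [hzp lam hlam] at h1
  rw [hzp mu hmu] at h2
  obtain ⟨n1, hn1⟩ := hZl w hw
  obtain ⟨n2, hn2⟩ := hZm w hw
  refine ⟨n1 - n2, ?_⟩
  rw [h1, h2, hϖ, hn1, hn2]
  push_cast
  ring

end Dict

end Fermat.Agent.S44.Alg
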