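import Fermat.Agent.S44.Alg.Model

/-!
# S44 / Alg / LocGen : key S44/ALG-LOC-B (`NodalModel.exists_gen'`)      (helper5; Mathlib only)

`C := B ⧸ ker ρ₁` is a Dedekind domain (`normal₁`, `dim₁`, `noeth`): `NodalModel.isDedekindDomain_quot`.
`ded_aux`: in a Dedekind domain a nonzero ideal `I ≤ 𝔫` (`𝔫` maximal) with `y² ∈ I → y ∈ I` is not contained in `𝔫²`; for `x ∈ I ∖ 𝔫²`: `(x) = 𝔫 J`, `J ⊄ 𝔫`, so `s 𝔫 ⊆ (x)` for some `s ∉ 𝔫`.
`exists_gen_aux`: the same statement pulled back to `B`;  `exists_gen'`: in the localisation `s` is a unit.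
-/

set_option autoImplicit false

open Ideal IsLocalRing

namespace Fermat.Agent.S44.Alg

/-- ideal arithmetic in a Dedekind domain: a nonzero "radical" ideal inside a maximal ideal `𝔫` contains a local generator of `𝔫` -/
theorem ded_aux {C : Type*} [CommRing C] [IsDedekindDomain C] (𝔫 I : Ideal C) [h𝔫 : 𝔫.IsMaximal]
    (hI : I ≤ 𝔫) (hI0 : I ≠ ⊥) (hrad : ∀ y, y ^ 2 ∈ I → y ∈ I) :
    ∃ x ∈ I, ∃ s, s ∉ 𝔫 ∧ ∀ n ∈ 𝔫, x ∣ s * n := by
  have h𝔫0 : 𝔫 ≠ ⊥ := fun h => hI0 (le_bot_iff.1 (h ▸ hI))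
  have h1 : ¬ I ≤ 𝔫 ^ 2 := by
    intro h
    obtain ⟨J, hJ⟩ := Ideal.dvd_iff_le.2 h
    have hJ0 : J ≠ ⊥ := by
      rintro rfl
      exact hI0 (by rw [hJ]; simp)
    have h2 : 𝔫 * J ≤ I := by
      intro y hy
      apply hrad
      rw [hJ, sq y]
      have h3 : y * y ∈ (𝔫 * J) * (𝔫 * J) := Ideal.mul_mem_mul hy hy
      have h4 : (𝔫 * J) * (𝔫 * J) = (𝔫 ^ 2 * J) * J := by ring
      rw [h4] at h3
      exact Ideal.mul_le_left h3
    rw [hJ] at h2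
    obtain ⟨L, hL⟩ := Ideal.dvd_iff_le.2 h2
    have h5 : 𝔫 * J * 1 = 𝔫 * J * (𝔫 * L) := by
      rw [mul_one]
      conv_lhs => rw [hL]
      ring
    have h6 := mul_left_cancel₀ (mul_ne_zero h𝔫0 hJ0) h5
    apply h𝔫.ne_top
    rw [eq_top_iff, ← Ideal.one_eq_top, h6]
    exact Ideal.mul_le_left
  obtain ⟨x, hxI, hx⟩ := SetLike.not_le_iff_exists.1 h1
  have hx𝔫 : span {x} ≤ 𝔫 := by
    rw [Ideal.span_singleton_le_iff_mem]
    exact hI hxI
  obtain ⟨J, hJ⟩ := Ideal.dvd_iff_le.2 hx𝔫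
  have hJn : ¬ J ≤ 𝔫 := by
    intro h
    apply hx
    have : x ∈ span {x} := Ideal.mem_span_singleton_self x
    rw [hJ] at this
    rw [sq]
    exact Ideal.mul_mono_right h this
  obtain ⟨s, hsJ, hs⟩ := SetLike.not_le_iff_exists.1 hJn
  refine ⟨x, hxI, s, hs, fun n hn => ?_⟩
  have : s * n ∈ span {x} := by
    rw [hJ, mul_comm]
    exact Ideal.mul_mem_mul hsJ hn
  exact Ideal.mem_span_singleton.1 this

variable {B E Ω₁ Ω₂ : Type*} [CommRing B] [Field E] [Algebra B E] [Field Ω₁] [Field Ω₂]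
  {ϖ : B} {ρ₁ : B →+* Ω₁} {ρ₂ : B →+* Ω₂} {m : ℕ}

/-- `B ⧸ ker ρ₁` is a Dedekind domain -/
theorem NodalModel.isDedekindDomain_quot (M : NodalModel B E Ω₁ Ω₂ ϖ ρ₁ ρ₂ m) :
    IsDedekindDomain (B ⧸ RingHom.ker ρ₁) := by
  have := M.noeth
  have : (RingHom.ker ρ₁).IsPrime := RingHom.ker_isPrime ρ₁
  have hsurj : Function.Surjective (Ideal.Quotient.mk (RingHom.ker ρ₁)) := Ideal.Quotient.mk_surjective
  have hdim : Ring.DimensionLEOne (B ⧸ RingHom.ker ρ₁) := by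
    refine ⟨fun {p} hp0 hp => ?_⟩
    have hP : (p.comap (Ideal.Quotient.mk (RingHom.ker ρ₁))).IsPrime := Ideal.comap_isPrime _ _
    have hlt : RingHom.ker ρ₁ < p.comap (Ideal.Quotient.mk (RingHom.ker ρ₁)) := by
      refine lt_of_le_of_ne ?_ ?_
      · intro b hb
        rw [Ideal.mem_comap, Ideal.Quotient.eq_zero_iff_mem.2 hb]
        exact zero_mem _
      · intro h
        apply hp0
        rw [← Ideal.map_comap_of_surjective _ hsurj p, ← h, Ideal.map_quotient_self]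
    have hmax := M.dim₁ _ hP hlt
    rcases Ideal.map_eq_top_or_isMaximal_of_surjective _ hsurj hmax with h | h
    · rw [Ideal.map_comap_of_surjective _ hsurj p] at h
      exact absurd h hp.ne_top
    · rwa [Ideal.map_comap_of_surjective _ hsurj p] at h
  have hic : IsIntegrallyClosed (B ⧸ RingHom.ker ρ₁) := by
    rw [isIntegrallyClosed_iff (FractionRing (B ⧸ RingHom.ker ρ₁))]
    intro x hx
    let φ : FractionRing (B ⧸ RingHom.ker ρ₁) →+* Ω₁ :=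
      IsFractionRing.lift (RingHom.kerLift_injective ρ₁)
    have hφ : ∀ b : B, φ (algebraMap _ _ (Ideal.Quotient.mk (RingHom.ker ρ₁) b)) = ρ₁ b := by
      intro b
      simp only [φ]
      rw [IsFractionRing.lift_algebraMap]
      rfl
    obtain ⟨a, b, hb, rfl⟩ := IsFractionRing.div_surjective (A := B ⧸ RingHom.ker ρ₁) x
    obtain ⟨a, rfl⟩ := hsurj a
    obtain ⟨b, rfl⟩ := hsurj b
    have hb0 : ρ₁ b ≠ 0 := by
      intro h
      have : Ideal.Quotient.mk (RingHom.ker ρ₁) b = 0 := Ideal.Quotient.eq_zero_iff_mem.2 h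
      rw [this] at hb
      exact (nonZeroDivisors.ne_zero hb) rfl
    obtain ⟨p, hp, hpx⟩ := hx
    obtain ⟨p', hp', -, hp'm⟩ := Polynomial.lifts_and_natDegree_eq_and_monic
      ((Polynomial.mem_lifts p).2 (Polynomial.map_surjective _ hsurj p)) hp
    have hint : ρ₁.IsIntegralElem (ρ₁ a / ρ₁ b) := by
      refine ⟨p', hp'm, ?_⟩
      have h1 := congrArg φ hpx
      rw [Polynomial.hom_eval₂, map_zero, ← hp', Polynomial.eval₂_map, map_div₀, hφ, hφ] at h1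
      rw [← h1]
      congr 1
      ext b
      exact (hφ b).symm
    obtain ⟨c, hc⟩ := M.normal₁ a b hb0 hint
    refine ⟨Ideal.Quotient.mk _ c, φ.injective ?_⟩
    rw [hφ, hc, map_div₀, hφ, hφ]
  exact { maximalOfPrime := hdim.maximalOfPrime }

/-- the statement of `exists_gen` inside `B` -/
theorem NodalModel.exists_gen_aux (M : NodalModel B E Ω₁ Ω₂ ϖ ρ₁ ρ₂ m) (𝔫 : Ideal B) [h𝔫 : 𝔫.IsMaximal]
    (h1 : RingHom.ker ρ₁ ≤ 𝔫)
    (I : Ideal B) (hI : I ≤ 𝔫) (hne : ∃ c ∈ I, ρ₁ c ≠ 0)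
    (hrad : ∀ (y : B) (n : ℕ), 0 < n → (∃ c ∈ I, ρ₁ c = ρ₁ y ^ n) → ∃ c ∈ I, ρ₁ c = ρ₁ y) :
    ∃ X ∈ I, ∃ s, s ∉ 𝔫 ∧ ∀ n ∈ 𝔫, ∃ t, ρ₁ (s * n) = ρ₁ (X * t) := by
  have := M.isDedekindDomain_quot
  have hsurj : Function.Surjective (Ideal.Quotient.mk (RingHom.ker ρ₁)) := Ideal.Quotient.mk_surjective
  have hmk : ∀ a b : B, Ideal.Quotient.mk (RingHom.ker ρ₁) a = Ideal.Quotient.mk (RingHom.ker ρ₁) b ↔
      ρ₁ a = ρ₁ b := by
    intro a b
    rw [Ideal.Quotient.eq, RingHom.mem_ker, map_sub, sub_eq_zero]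
  have hmax : (𝔫.map (Ideal.Quotient.mk (RingHom.ker ρ₁))).IsMaximal := by
    rcases Ideal.map_eq_top_or_isMaximal_of_surjective _ hsurj h𝔫 with h | h
    · exfalso
      have h2 : (1 : B ⧸ RingHom.ker ρ₁) ∈ 𝔫.map (Ideal.Quotient.mk (RingHom.ker ρ₁)) := by
        rw [h]; trivial
      rw [← map_one (Ideal.Quotient.mk (RingHom.ker ρ₁)), Ideal.mem_quotient_iff_mem h1] at h2
      exact h𝔫.ne_top ((Ideal.eq_top_iff_one _).2 h2)
    · exact h
  obtain ⟨x, hx, s, hs, hxs⟩ := ded_aux (𝔫.map (Ideal.Quotient.mk (RingHom.ker ρ₁)))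
    (I.map (Ideal.Quotient.mk (RingHom.ker ρ₁))) (Ideal.map_mono hI)
    (by
      obtain ⟨c, hcI, hc⟩ := hne
      intro h
      have h2 : Ideal.Quotient.mk (RingHom.ker ρ₁) c ∈ I.map (Ideal.Quotient.mk (RingHom.ker ρ₁)) :=
        Ideal.mem_map_of_mem _ hcI
      rw [h, Ideal.mem_bot, Ideal.Quotient.eq_zero_iff_mem] at h2
      exact hc h2)
    (by
      intro y hy
      obtain ⟨y, rfl⟩ := hsurj y
      obtain ⟨c, hcI, hc⟩ := (Ideal.mem_map_iff_of_surjective _ hsurj).1 hy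
      rw [← map_pow, hmk, map_pow] at hc
      obtain ⟨c', hc'I, hc'⟩ := hrad y 2 (by norm_num) ⟨c, hcI, hc⟩
      rw [← (hmk c' y).2 hc']
      exact Ideal.mem_map_of_mem _ hc'I)
  obtain ⟨X, hXI, rfl⟩ := (Ideal.mem_map_iff_of_surjective _ hsurj).1 hx
  obtain ⟨s, rfl⟩ := hsurj s
  rw [Ideal.mem_quotient_iff_mem h1] at hs
  refine ⟨X, hXI, s, hs, fun n hn => ?_⟩
  obtain ⟨t, ht⟩ := hxs _ (Ideal.mem_map_of_mem _ hn)
  obtain ⟨t, rfl⟩ := hsurj t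
  rw [← map_mul, ← map_mul, hmk] at ht
  exact ⟨t, ht⟩

section Loc

variable (𝔫 : Ideal B) [h𝔫 : 𝔫.IsMaximal] (R : Type*) [CommRing R] [Algebra B R] [IsLocalization.AtPrime R 𝔫]

/-- [key S44/ALG-LOC-B] -/
theorem NodalModel.exists_gen' (M : NodalModel B E Ω₁ Ω₂ ϖ ρ₁ ρ₂ m) [IsLocalRing R] (h1 : RingHom.ker ρ₁ ≤ 𝔫)
    (I : Ideal B) (hI : I ≤ 𝔫) (hne : ∃ c ∈ I, ρ₁ c ≠ 0)
    (hrad : ∀ (y : B) (n : ℕ), 0 < n → (∃ c ∈ I, ρ₁ c = ρ₁ y ^ n) → ∃ c ∈ I, ρ₁ c = ρ₁ y) :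
    ∃ X ∈ I, maximalIdeal R = (RingHom.ker ρ₁).map (algebraMap B R) ⊔ span {algebraMap B R X} := by
  obtain ⟨X, hXI, s, hs, hX⟩ := M.exists_gen_aux 𝔫 h1 I hI hne hrad
  refine ⟨X, hXI, ?_⟩
  rw [← IsLocalization.AtPrime.map_eq_maximalIdeal 𝔫 R]
  apply le_antisymm
  · rw [Ideal.map_le_iff_le_comap]
    intro n hn
    rw [Ideal.mem_comap]
    obtain ⟨t, ht⟩ := hX n hn
    have hu : IsUnit (algebraMap B R s) :=
      IsLocalization.map_units R (⟨s, hs⟩ : 𝔫.primeCompl)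
    have hk : s * n - X * t ∈ RingHom.ker ρ₁ := by
      rw [RingHom.mem_ker, map_sub, ht, sub_self]
    have h2 : algebraMap B R s * algebraMap B R n ∈
        (RingHom.ker ρ₁).map (algebraMap B R) ⊔ span {algebraMap B R X} := by
      have h3 : algebraMap B R s * algebraMap B R n =
          algebraMap B R (s * n - X * t) + algebraMap B R t * algebraMap B R X := by
        simp only [map_sub, map_mul]; ring
      rw [h3]
      exact add_mem (Ideal.mem_sup_left (Ideal.mem_map_of_mem _ hk))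
        (Ideal.mem_sup_right (Ideal.mul_mem_left _ _ (Ideal.mem_span_singleton_self _)))
    exact (Ideal.unit_mul_mem_iff_mem _ hu).1 h2
  · refine sup_le (Ideal.map_mono h1) ?_
    rw [Ideal.span_singleton_le_iff_mem]
    exact Ideal.mem_map_of_mem _ (hI hXI)

end Loc

end Fermat.Agent.S44.Alg
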