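import Fermat.Agent.S44.Alg.Model
import Fermat.Agent.S44.Alg.LocGen

/-!
# S44 / Alg / LocAlg : the local rings of a `NodalModel`   [keys S44/ALG-LOC-A (`mem_map_ker`, `isPrime_map_ker`, `inf_map`, `NodalModel.symm`),
  S44/ALG-LOC-B (`exists_gen`), S44/ALG-LOC-C (`node`, `smooth`)]   (Mathlib only)   (helper27; maths helper14 #1330 (M5) 'LOCALG')

`M : NodalModel B E Ω₁ Ω₂ ϖ ρ₁ ρ₂ m`, `𝔫` a maximal ideal of `B`, `R = B_𝔫` (any `IsLocalization.AtPrime R 𝔫`), `j = algebraMap B R`.   `Pᵢ := (ker ρᵢ).map j`.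

## Proofs
* (A) `ker ρᵢ` is a prime ideal of `B` (`RingHom.ker_isPrime`).  If `ker ρᵢ ≤ 𝔫` it is disjoint from `𝔫.primeCompl`: `IsLocalization.isPrime_of_isPrime_disjoint`,
  `IsLocalization.comap_map_of_isPrime_disjoint` give `isPrime_map_ker`, `mem_map_ker`.
  `inf_map`: `y ∈ P₁ ⊓ P₂`; `y = j b / j s` (`IsLocalization.mk'_surjective`), `j b = y * j s ∈ P₁ ⊓ P₂`, so `ρ₁ b = ρ₂ b = 0`, `b ∈ (ϖ)` by `M.ker`.   (`≥`: `ϖ ∈ ker ρ₁ ⊓ ker ρ₂`.)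
* (B) `exists_gen` (the heart): `ker ρ₁ ≤ 𝔫`, `I` an ideal of `B` with: `I ≤ 𝔫`, `I ⊄ ker ρ₁`, and "`ρ₁ I` is radical": `∀ y n, 0 < n → (∃ c ∈ I, ρ₁ c = ρ₁ y ^ n) → ∃ c ∈ I, ρ₁ c = ρ₁ y`.
  Then `∃ X ∈ I, 𝔪_R = P₁ ⊔ (j X)`.
  [`A := R ⧸ P₁` is a noetherian local domain; it is not a field (`I ⊄ ker ρ₁`, `I ≤ 𝔫`: a nonzero non-unit); every nonzero prime is maximal (`M.dim₁`: primes of `A` ↔ primes `P` of `B`, `ker ρ₁ ≤ P ≤ 𝔫`);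
   integrally closed: `ρ₁` induces an injection `A → Ω₁`, with image `{ρ₁ a / ρ₁ s : s ∉ 𝔫}`; if `ξ = ρ₁ a / ρ₁ b` is integral over the image, multiply by a common denominator `ρ₁ s`, `s ∉ 𝔫`:
   `ρ₁ s * ξ` is integral over `ρ₁ B`, so it is `ρ₁ c` by `M.normal₁`.   So `A` is a DVR:
   `((IsDiscreteValuationRing.TFAE A hnotfield).out ..)` / `tfae_of_isNoetherianRing_of_isLocalRing_of_isDomain` (item: integrally closed + unique nonzero prime ⟹ maximal ideal principal).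
   ALTERNATIVE WITHOUT `A` (perhaps shorter): work in the subring `A' := {ρ₁ a / ρ₁ s}` of `Ω₁`.
   `𝔪_A = (π)`.  The image `Ī` of `I` in `A` is a nonzero proper ideal, so `Ī = (π^k)`, `k ≥ 1`; write `π = mk (j y / j s)`; then `(ρ₁ y)^k ∈ ρ₁ I * unit`...: radicality gives `π ∈ Ī`, so `Ī = 𝔪_A`;
   choose `X ∈ I` whose image generates `Ī A` (the image of `I` generates a principal ideal `(π)` of a local ring, so one of the generators already generates: an element of `I` with image `unit * π`).]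
* (C) `node`: `I := ker ρ₂` in (B): `I ⊄ ker ρ₁` by `M.sep`, radical by `M.rad₁`; the same with `1 ↔ 2` (`NodalModel.symm`); `x, x', u` from `M.xx`.
  `smooth`: `ker ρ₂ ⊄ 𝔫`, `ϖ ∈ 𝔫`: pick `c ∈ ker ρ₂ ∖ 𝔫`; for `b ∈ ker ρ₁`: `b c ∈ ker ρ₁ ⊓ ker ρ₂ = (ϖ)`, `j c` is a unit: `P₁ = (j ϖ)`; `ker ρ₁ ≤ 𝔫` (`b c ∈ (ϖ) ≤ 𝔫`, `c ∉ 𝔫`); so `j ϖ` generates the prime
  `P₁ ≠ 0` (`ϖ ≠ 0`: else `ker ρ₁ ⊓ ker ρ₂ = 0`, but `x * x' = 0` would give ... ; simply take `hϖ0 : ϖ ≠ 0` as a hypothesis) ⟹ `Prime (j ϖ)`.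
  Generator: (B) with `I := 𝔫` (radical: `ρ₁ c = (ρ₁ y)^n`, `c ∈ 𝔫` ⟹ `y^n - c ∈ ker ρ₁ ≤ 𝔫` ⟹ `y ∈ 𝔫`; `𝔫 ⊄ ker ρ₁`: hypothesis `hne`, true because `ρ₁ B` is not a field).
-/

set_option autoImplicit false

open Ideal IsLocalRing

namespace Fermat.Agent.S44.Alg

variable {B E Ω₁ Ω₂ : Type*} [CommRing B] [Field E] [Algebra B E] [Field Ω₁] [Field Ω₂]
  {ϖ : B} {ρ₁ : B →+* Ω₁} {ρ₂ : B →+* Ω₂} {m : ℕ}

/-- [key S44/ALG-LOC-A] -/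
theorem NodalModel.symm (M : NodalModel B E Ω₁ Ω₂ ϖ ρ₁ ρ₂ m) : NodalModel B E Ω₂ Ω₁ ϖ ρ₂ ρ₁ m := by
  obtain ⟨x, x', u, hu, hxx, hx, hx'⟩ := M.xx
  exact
    { noeth := M.noeth
      frac := M.frac
      normal := M.normal
      ker := by rw [inf_comm]; exact M.ker
      normal₁ := M.normal₂
      normal₂ := M.normal₁
      dim₁ := M.dim₂
      dim₂ := M.dim₁
      rad₁ := M.rad₂
      rad₂ := M.rad₁
      sep := M.sep'
      sep' := M.sep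
      hm := M.hm
      xx := ⟨x', x, u, hu, by rw [mul_comm]; exact hxx, hx', hx⟩ }

section Loc

variable (𝔫 : Ideal B) [h𝔫 : 𝔫.IsMaximal] (R : Type*) [CommRing R] [Algebra B R] [IsLocalization.AtPrime R 𝔫]

/-- [key S44/ALG-LOC-A] -/
theorem isPrime_map_ker {Ω : Type*} [Field Ω] (ρ : B →+* Ω) (h : RingHom.ker ρ ≤ 𝔫) :
    ((RingHom.ker ρ).map (algebraMap B R)).IsPrime := by
  have hd : Disjoint (𝔫.primeCompl : Set B) (RingHom.ker ρ : Set B) := by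
    rw [Set.disjoint_left]
    intro x hx hx'
    exact hx (h hx')
  exact IsLocalization.isPrime_of_isPrime_disjoint 𝔫.primeCompl R _ (RingHom.ker_isPrime ρ) hd

/-- [key S44/ALG-LOC-A] -/
theorem mem_map_ker {Ω : Type*} [Field Ω] (ρ : B →+* Ω) (h : RingHom.ker ρ ≤ 𝔫) (b : B) :
    algebraMap B R b ∈ (RingHom.ker ρ).map (algebraMap B R) ↔ ρ b = 0 := by
  have hd : Disjoint (𝔫.primeCompl : Set B) (RingHom.ker ρ : Set B) := by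
    rw [Set.disjoint_left]
    intro x hx hx'
    exact hx (h hx')
  have hc : comap (algebraMap B R) (map (algebraMap B R) (RingHom.ker ρ)) = RingHom.ker ρ :=
    IsLocalization.under_map_of_isPrime_disjoint 𝔫.primeCompl R (RingHom.ker_isPrime ρ) hd
  rw [← Ideal.mem_comap, hc, RingHom.mem_ker]

/-- [key S44/ALG-LOC-A] -/
theorem NodalModel.inf_map (M : NodalModel B E Ω₁ Ω₂ ϖ ρ₁ ρ₂ m) (h1 : RingHom.ker ρ₁ ≤ 𝔫)
    (h2 : RingHom.ker ρ₂ ≤ 𝔫) :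
    (RingHom.ker ρ₂).map (algebraMap B R) ⊓ (RingHom.ker ρ₁).map (algebraMap B R) =
      span {algebraMap B R ϖ} := by
  have hϖ : ϖ ∈ RingHom.ker ρ₁ ⊓ RingHom.ker ρ₂ := by
    rw [M.ker]
    exact Ideal.mem_span_singleton_self ϖ
  apply le_antisymm
  · intro y hy
    obtain ⟨b, s, rfl⟩ := IsLocalization.exists_mk'_eq 𝔫.primeCompl y
    have e : algebraMap B R b = IsLocalization.mk' R b s * algebraMap B R s :=
      (IsLocalization.mk'_spec R b s).symm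
    have hb2 : ρ₂ b = 0 := by
      rw [← mem_map_ker 𝔫 R ρ₂ h2, e]
      exact Ideal.mul_mem_right _ _ hy.1
    have hb1 : ρ₁ b = 0 := by
      rw [← mem_map_ker 𝔫 R ρ₁ h1, e]
      exact Ideal.mul_mem_right _ _ hy.2
    have hb : b ∈ span {ϖ} := by
      rw [← M.ker]
      exact ⟨hb1, hb2⟩
    obtain ⟨c, rfl⟩ := Ideal.mem_span_singleton'.mp hb
    rw [Ideal.mem_span_singleton']
    refine ⟨IsLocalization.mk' R c s, ?_⟩
    rw [IsLocalization.eq_mk'_iff_mul_eq, mul_right_comm, IsLocalization.mk'_spec, map_mul]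
  · rw [Ideal.span_singleton_le_iff_mem]
    exact ⟨Ideal.mem_map_of_mem _ hϖ.2, Ideal.mem_map_of_mem _ hϖ.1⟩

/-- [key S44/ALG-LOC-B] -/
theorem NodalModel.exists_gen (M : NodalModel B E Ω₁ Ω₂ ϖ ρ₁ ρ₂ m) [IsLocalRing R] (h1 : RingHom.ker ρ₁ ≤ 𝔫)
    (I : Ideal B) (hI : I ≤ 𝔫) (hne : ∃ c ∈ I, ρ₁ c ≠ 0)
    (hrad : ∀ (y : B) (n : ℕ), 0 < n → (∃ c ∈ I, ρ₁ c = ρ₁ y ^ n) → ∃ c ∈ I, ρ₁ c = ρ₁ y) :
    ∃ X ∈ I, maximalIdeal R = (RingHom.ker ρ₁).map (algebraMap B R) ⊔ span {algebraMap B R X} :=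
  M.exists_gen' 𝔫 R h1 I hI hne hrad

/-- [key S44/ALG-LOC-C] the data of `thick_normal_form` / `Sheet.node_rel_thick` at a crossing point
(`P0 = (ker ρ₂) R`, `Pi = (ker ρ₁) R`) -/
theorem NodalModel.node (M : NodalModel B E Ω₁ Ω₂ ϖ ρ₁ ρ₂ m) [IsLocalRing R] (h1 : RingHom.ker ρ₁ ≤ 𝔫)
    (h2 : RingHom.ker ρ₂ ≤ 𝔫) :
    ∃ X Y x x' u : B, ρ₂ X = 0 ∧ ρ₁ Y = 0 ∧
      maximalIdeal R = (RingHom.ker ρ₁).map (algebraMap B R) ⊔ span {algebraMap B R X} ∧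
      maximalIdeal R = (RingHom.ker ρ₂).map (algebraMap B R) ⊔ span {algebraMap B R Y} ∧
      IsUnit u ∧ x * x' = u * ϖ ^ m ∧ ρ₁ x ≠ 0 ∧ ρ₂ x' ≠ 0 := by
  obtain ⟨x, x', u, hu, hxx, hx, hx'⟩ := M.xx
  obtain ⟨X, hX, hmX⟩ := M.exists_gen 𝔫 R h1 (RingHom.ker ρ₂) h2
    (by obtain ⟨c, hc, hc'⟩ := M.sep; exact ⟨c, hc, hc'⟩)
    (fun y n hn ⟨c, hc, hc'⟩ => by
      obtain ⟨d, hd, hd'⟩ := M.rad₁ y n hn ⟨c, hc, hc'⟩
      exact ⟨d, hd, hd'⟩)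
  obtain ⟨Y, hY, hmY⟩ := M.symm.exists_gen 𝔫 R h2 (RingHom.ker ρ₁) h1
    (by obtain ⟨c, hc, hc'⟩ := M.sep'; exact ⟨c, hc, hc'⟩)
    (fun y n hn ⟨c, hc, hc'⟩ => by
      obtain ⟨d, hd, hd'⟩ := M.rad₂ y n hn ⟨c, hc, hc'⟩
      exact ⟨d, hd, hd'⟩)
  exact ⟨X, Y, x, x', u, hX, hY, hmX, hmY, hu, hxx, hx, hx'⟩

/-- [key S44/ALG-LOC-C] a point which lies only on the first component -/
theorem NodalModel.smooth (M : NodalModel B E Ω₁ Ω₂ ϖ ρ₁ ρ₂ m) [IsLocalRing R] (hϖ0 : algebraMap B R ϖ ≠ 0)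
    (hϖ : ϖ ∈ 𝔫) (h2 : ¬ RingHom.ker ρ₂ ≤ 𝔫) (hne : ∃ c ∈ 𝔫, ρ₁ c ≠ 0) :
    RingHom.ker ρ₁ ≤ 𝔫 ∧ (RingHom.ker ρ₁).map (algebraMap B R) = span {algebraMap B R ϖ} ∧
      Prime (algebraMap B R ϖ) ∧
      ∃ Y : B, maximalIdeal R = span {algebraMap B R ϖ} ⊔ span {algebraMap B R Y} := by
  obtain ⟨c, hc2, hcn⟩ := SetLike.not_le_iff_exists.mp h2
  have hkey : ∀ b, ρ₁ b = 0 → b * c ∈ span {ϖ} := by
    intro b hb
    rw [← M.ker]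
    exact ⟨Ideal.mul_mem_right _ _ hb, Ideal.mul_mem_left _ _ hc2⟩
  have h1 : RingHom.ker ρ₁ ≤ 𝔫 := by
    intro b hb
    have h3 : b * c ∈ 𝔫 := ((Ideal.span_singleton_le_iff_mem 𝔫).mpr hϖ) (hkey b hb)
    exact (h𝔫.isPrime.mem_or_mem h3).resolve_right hcn
  have hcu : IsUnit (algebraMap B R c) := IsLocalization.map_units R (⟨c, hcn⟩ : 𝔫.primeCompl)
  have hϖ1 : ϖ ∈ RingHom.ker ρ₁ := by
    have : ϖ ∈ RingHom.ker ρ₁ ⊓ RingHom.ker ρ₂ := by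
      rw [M.ker]
      exact Ideal.mem_span_singleton_self ϖ
    exact this.1
  have hP : (RingHom.ker ρ₁).map (algebraMap B R) = span {algebraMap B R ϖ} := by
    apply le_antisymm
    · rw [Ideal.map_le_iff_le_comap]
      intro b hb
      rw [Ideal.mem_comap]
      obtain ⟨d, hd⟩ := Ideal.mem_span_singleton'.mp (hkey b hb)
      have e := congrArg (algebraMap B R) hd
      rw [map_mul, map_mul] at e
      have h4 : algebraMap B R b * algebraMap B R c ∈ span {algebraMap B R ϖ} := by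
        rw [← e]
        exact Ideal.mul_mem_left _ _ (Ideal.mem_span_singleton_self _)
      exact (Ideal.unit_mul_mem_iff_mem _ hcu).mp (by rw [mul_comm]; exact h4)
    · rw [Ideal.span_singleton_le_iff_mem]
      exact Ideal.mem_map_of_mem _ hϖ1
  have hprime : Prime (algebraMap B R ϖ) := by
    rw [← Ideal.span_singleton_prime hϖ0, ← hP]
    exact isPrime_map_ker 𝔫 R ρ₁ h1
  obtain ⟨Y, -, hY⟩ := M.exists_gen 𝔫 R h1 𝔫 le_rfl hne (by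
    rintro y n hn ⟨d, hd, hd'⟩
    refine ⟨y, ?_, rfl⟩
    have h5 : y ^ n - d ∈ 𝔫 := h1 (by rw [RingHom.mem_ker, map_sub, map_pow, hd', sub_self])
    have h6 : y ^ n ∈ 𝔫 := by
      have := 𝔫.add_mem h5 hd
      rwa [sub_add_cancel] at this
    exact h𝔫.isPrime.mem_of_pow_mem n h6)
  exact ⟨h1, hP, hprime, Y, by rw [hY, hP]⟩

end Loc

end Fermat.Agent.S44.Alg
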