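import Mathlib

/-!
# S44 / ALG : the interface between MOD (modular input) and the abstract node algebra          (helper14)

`NodalModel B E Ω₁ Ω₂ ϖ ρ₁ ρ₂ m` : an affine chart `Spec B` of a normal arithmetic surface over a DVR with uniformiser `ϖ`, whose special fibre is reduced with two components
(`ρ₁, ρ₂` = restriction to the components, with values in fields), each of them normal of dimension one, crossing transversally (`rad`), together with a function `x` with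
`x x' = unit * ϖ ^ m`, `x` not vanishing on the first, `x'` not vanishing on the second component (`m = 12`, `x = Δ(z)/Δ(pz)` up to units).

It is instantiated by `Fermat.Agent.S44.Mod.nodalModel` (`S44/IfMod.lean`): `B = BB S b`, `E = EE q M1`, `Ω₁ = Ω₂ = k((Q))`, `ϖ = p`, `ρᵢ = rᵢ S b`, `m = 12`.

CONSEQUENCES (abstract; see board #1330):  for a maximal ideal `𝔫 ∋ ϖ` of `B`, `R = B_𝔫`:
* (smooth) if `ker ρ₂ ⊄ 𝔫`: `ϖ` is prime in `R`, `R/(ϖ)` is a DVR;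
* (node) if `ker ρ₁, ker ρ₂ ⊆ 𝔫`: `Pi = (ker ρ₁) R`, `P0 = (ker ρ₂) R` are primes with `P0 ⊓ Pi = (ϖ)`, there are `X ∈ P0`, `Y ∈ Pi` with `𝔪 = Pi ⊔ (X) = P0 ⊔ (Y)`
  (`R/Pi` is a noetherian integrally closed local domain of dimension one, so a DVR; the image of `P0` is a nonzero radical ideal, so it is the maximal ideal);
  [AE1] after changing `X, Y`: `X Y = unit * ϖ ^ e`, `e ∣ m`;  [AE2] `R[X^(1/e), ϖ/X^(1/e)]` is a regular node.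
-/

set_option autoImplicit false

namespace Fermat.Agent.S44.Alg

structure NodalModel (B E Ω₁ Ω₂ : Type*) [CommRing B] [Field E] [Algebra B E] [Field Ω₁] [Field Ω₂]
    (ϖ : B) (ρ₁ : B →+* Ω₁) (ρ₂ : B →+* Ω₂) (m : ℕ) : Prop where
  noeth : IsNoetherianRing B
  frac : IsFractionRing B E
  normal : IsIntegrallyClosed B
  ker : RingHom.ker ρ₁ ⊓ RingHom.ker ρ₂ = Ideal.span {ϖ}
  /-- `ρ₁ B` is integrally closed in its fraction field -/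
  normal₁ : ∀ a b : B, ρ₁ b ≠ 0 → ρ₁.IsIntegralElem (ρ₁ a / ρ₁ b) → ∃ c, ρ₁ c = ρ₁ a / ρ₁ b
  normal₂ : ∀ a b : B, ρ₂ b ≠ 0 → ρ₂.IsIntegralElem (ρ₂ a / ρ₂ b) → ∃ c, ρ₂ c = ρ₂ a / ρ₂ b
  /-- the components have dimension one -/
  dim₁ : ∀ P : Ideal B, P.IsPrime → RingHom.ker ρ₁ < P → P.IsMaximal
  dim₂ : ∀ P : Ideal B, P.IsPrime → RingHom.ker ρ₂ < P → P.IsMaximal
  /-- the crossing ideals are radical -/
  rad₁ : ∀ (y : B) (n : ℕ), 0 < n → (∃ c, ρ₂ c = 0 ∧ ρ₁ c = ρ₁ y ^ n) → ∃ c, ρ₂ c = 0 ∧ ρ₁ c = ρ₁ y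
  rad₂ : ∀ (y : B) (n : ℕ), 0 < n → (∃ c, ρ₁ c = 0 ∧ ρ₂ c = ρ₂ y ^ n) → ∃ c, ρ₁ c = 0 ∧ ρ₂ c = ρ₂ y
  /-- the two components are different -/
  sep : ∃ c, ρ₂ c = 0 ∧ ρ₁ c ≠ 0
  sep' : ∃ c, ρ₁ c = 0 ∧ ρ₂ c ≠ 0
  hm : 0 < m
  xx : ∃ x x' u : B, IsUnit u ∧ x * x' = u * ϖ ^ m ∧ ρ₁ x ≠ 0 ∧ ρ₂ x' ≠ 0

end Fermat.Agent.S44.Alg
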