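import Mathlib

/-!
# S44 / Alg / RootFac   [key S44/ALG-R1]   (Mathlib only)   (helper27; one of four independent lemmas for the root trick AE2)

* R1: `f ≠ 0` is `C a * ∏ (irreducible factors)` (`UniqueFactorizationMonoid.exists_prime_factors` or `normalizedFactors`, `Polynomial.natDegree_multiset_prod` /
  induction with `WfDvdMonoid.induction_on_irreducible`: `P f := f ≠ 0 → (∀ g irreducible, g ∣ f → p ∣ g.natDegree) → p ∣ f.natDegree`; units have degree `0`;
  `natDegree_mul`).  If `p` divided the degree of every irreducible factor, it would divide `natDegree f`.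
-/

set_option autoImplicit false

open Polynomial

namespace Fermat.Agent.S44.Alg

/-- [key S44/ALG-R1] -/
theorem exists_irreducible_factor {K : Type*} [Field K] {p : ℕ} (f : K[X]) (hf : ¬ p ∣ f.natDegree) :
    ∃ g : K[X], Irreducible g ∧ g ∣ f ∧ ¬ p ∣ g.natDegree := by
  by_contra hcon
  push Not at hcon
  apply hf
  have key : ∀ f : K[X], f ≠ 0 → (∀ g : K[X], Irreducible g → g ∣ f → p ∣ g.natDegree) →
      p ∣ f.natDegree := by
    intro f
    refine WfDvdMonoid.induction_on_irreducible f ?_ ?_ ?_
    · intro h
      exact absurd rfl h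
    · intro u hu _ _
      rw [natDegree_eq_zero_of_isUnit hu]
      exact dvd_zero _
    · intro a i ha hi ih _ h
      rw [natDegree_mul hi.ne_zero ha]
      exact dvd_add (h i hi (dvd_mul_right _ _)) (ih ha fun g hg hga => h g hg (hga.mul_left _))
  by_cases h0 : f = 0
  · rw [h0, natDegree_zero]
    exact dvd_zero _
  · exact key f h0 hcon

end Fermat.Agent.S44.Alg
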