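import Fermat.Agent.S44.Alg.UFD
import Fermat.Agent.S44.Alg.Node
import Fermat.Agent.S44.Alg.Thick

/-!
# S44 / Alg / RootRing : the ring `R[S, T]`, `S ^ e = X`, `S T = ϖ`, is a regular node   [key S44/ALG-ROOT]   (Mathlib only)   (helper27; maths helper14 #1330 AE2)
-/

set_option autoImplicit false
set_option linter.style.haveILetI false

open Ideal IsLocalRing

namespace Fermat.Agent.S44.Alg

/-- a noetherian local domain with `𝔪 = (s, t)` and a prime ideal containing `s` but not `t`: `s` is a prime element -/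
theorem prime_of_two_gen {A : Type*} [CommRing A] [IsDomain A] [IsLocalRing A] [IsNoetherianRing A] {s t : A}
    (hm : maximalIdeal A = span {s} ⊔ span {t}) (hs0 : s ≠ 0) {P : Ideal A} [hP : P.IsPrime] (hs : s ∈ P)
    (ht : t ∉ P) : Prime s := by
  have hsm : s ∈ maximalIdeal A := by rw [hm]; exact Submodule.mem_sup_left (mem_span_singleton_self s)
  have hne : span {s} ≠ (⊤ : Ideal A) := by
    intro h
    have : (1 : A) ∈ maximalIdeal A := by
      have h1 : (1 : A) ∈ span {s} := by rw [h]; trivial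
      exact (span_singleton_le_iff_mem _).2 hsm h1
    exact (Ideal.ne_top_iff_one _).1 (maximalIdeal.isMaximal A).ne_top this
  haveI : Nontrivial (A ⧸ span {s}) := Ideal.Quotient.nontrivial_iff.2 hne
  haveI : IsLocalRing (A ⧸ span {s}) :=
    IsLocalRing.of_surjective' (Ideal.Quotient.mk (span {s})) Ideal.Quotient.mk_surjective
  have hl : IsLocalHom (Ideal.Quotient.mk (span {s})) :=
    IsLocalHom.of_surjective _ Ideal.Quotient.mk_surjective
  have key : maximalIdeal (A ⧸ span {s}) = span {Ideal.Quotient.mk (span {s}) t} := by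
    have h1 : maximalIdeal (A ⧸ span {s}) = (maximalIdeal A).map (Ideal.Quotient.mk (span {s})) := by
      have h2 : (maximalIdeal (A ⧸ span {s})).comap (Ideal.Quotient.mk (span {s})) = maximalIdeal A :=
        ((IsLocalRing.local_hom_TFAE (Ideal.Quotient.mk (span {s}))).out 0 4).1 hl
      rw [← h2, Ideal.map_comap_of_surjective _ Ideal.Quotient.mk_surjective]
    rw [h1, hm, Ideal.map_sup, Ideal.map_span, Ideal.map_span, Set.image_singleton, Set.image_singleton]
    have : Ideal.Quotient.mk (span {s}) s = 0 := Ideal.Quotient.eq_zero_iff_mem.2 (mem_span_singleton_self s)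
    rw [this]
    simp
  have hPs : P = span {s} := by
    refine le_antisymm (fun y hy => ?_) ((span_singleton_le_iff_mem _).2 hs)
    by_contra hys
    have hy0 : Ideal.Quotient.mk (span {s}) y ≠ 0 := fun h => hys (Ideal.Quotient.eq_zero_iff_mem.1 h)
    obtain ⟨k, u, hu, e1⟩ := exists_unit_mul_pow key hy0
    obtain ⟨u0, rfl⟩ := Ideal.Quotient.mk_surjective u
    have hu0 : IsUnit u0 := hl.map_nonunit u0 hu
    rw [← map_pow, ← map_mul, Ideal.Quotient.eq] at e1
    have h2 : u0 * t ^ k ∈ P := by
      have h3 : y - u0 * t ^ k ∈ P := (span_singleton_le_iff_mem _).2 hs e1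
      have := P.sub_mem hy h3
      rwa [sub_sub_cancel] at this
    rcases hP.mem_or_mem h2 with h | h
    · exact hP.ne_top (Ideal.eq_top_of_isUnit_mem _ h hu0)
    · exact ht (hP.mem_of_pow_mem k h)
  exact (span_singleton_prime hs0).1 (hPs ▸ hP)

section Root

variable {R : Type*} [CommRing R] {K1 : Type*} [Field K1] [Algebra R K1]

/-- the data of the root trick -/
structure RootData (X Y ϖ c : R) (e : ℕ) (S T : K1) : Prop where
  inj : Function.Injective (algebraMap R K1)
  he : 0 < e
  hc : IsUnit c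
  hS : S ^ e = algebraMap R K1 X
  hT : algebraMap R K1 c * T ^ e = algebraMap R K1 Y
  hST : S * T = algebraMap R K1 ϖ

variable (R) in
/-- `R[S, T]` -/
abbrev rootRing (S T : K1) : Subalgebra R K1 := Algebra.adjoin R {S, T}

variable (R) in
/-- `S` as an element of `R[S, T]` -/
def rS (S T : K1) : rootRing R S T := ⟨S, Algebra.subset_adjoin (by simp)⟩

variable (R) in
/-- `T` as an element of `R[S, T]` -/
def rT (S T : K1) : rootRing R S T := ⟨T, Algebra.subset_adjoin (by simp)⟩

variable {X Y ϖ c : R} {e : ℕ} {S T : K1}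

namespace RootData

variable (h : RootData X Y ϖ c e S T)
include h

theorem isIntegral_S : IsIntegral R S := IsIntegral.of_pow h.he (h.hS ▸ isIntegral_algebraMap)

theorem isIntegral_T : IsIntegral R T := by
  obtain ⟨c', hc'⟩ := h.hc.exists_left_inv
  refine IsIntegral.of_pow h.he ?_
  have : T ^ e = algebraMap R K1 (c' * Y) := by
    rw [map_mul, ← h.hT, ← mul_assoc, ← map_mul, hc', map_one, one_mul]
  rw [this]; exact isIntegral_algebraMap

theorem isIntegral : Algebra.IsIntegral R (rootRing R S T) :=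
  Algebra.IsIntegral.adjoin (by
    intro x hx
    rcases hx with rfl | rfl
    · exact h.isIntegral_S
    · exact h.isIntegral_T)

theorem finite : Module.Finite R (rootRing R S T) := by
  haveI := h.isIntegral
  classical
  haveI : Algebra.FiniteType R (rootRing R S T) :=
    (Subalgebra.fg_iff_finiteType _).1 ⟨({S, T} : Finset K1), by simp⟩
  exact Algebra.IsIntegral.finite

theorem rS_pow : rS R S T ^ e = algebraMap R (rootRing R S T) X := Subtype.ext h.hS

theorem rT_pow : algebraMap R (rootRing R S T) c * rT R S T ^ e = algebraMap R (rootRing R S T) Y :=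
  Subtype.ext h.hT

theorem rS_mul_rT : rS R S T * rT R S T = algebraMap R (rootRing R S T) ϖ := Subtype.ext h.hST

omit h in
/-- `R[S, T] = R + (S, T)` -/
theorem exists_sub_mem (y : rootRing R S T) :
    ∃ r : R, y - algebraMap R (rootRing R S T) r ∈ span {rS R S T} ⊔ span {rT R S T} := by
  obtain ⟨y, hy⟩ := y
  induction hy using Algebra.adjoin_induction with
  | mem x hx =>
    refine ⟨0, ?_⟩
    rw [map_zero, sub_zero]
    rcases hx with rfl | hx
    · exact Submodule.mem_sup_left (mem_span_singleton_self _)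
    · rw [Set.mem_singleton_iff] at hx
      subst hx
      exact Submodule.mem_sup_right (mem_span_singleton_self _)
  | algebraMap r =>
    refine ⟨r, ?_⟩
    have : (⟨algebraMap R K1 r, Subalgebra.algebraMap_mem _ r⟩ : rootRing R S T) =
      algebraMap R (rootRing R S T) r := rfl
    rw [this, sub_self]; exact Submodule.zero_mem _
  | add x y hx hy ihx ihy =>
    obtain ⟨r1, h1⟩ := ihx
    obtain ⟨r2, h2⟩ := ihy
    refine ⟨r1 + r2, ?_⟩
    have : (⟨x + y, Subalgebra.add_mem _ hx hy⟩ : rootRing R S T) - algebraMap R (rootRing R S T) (r1 + r2) =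
        ((⟨x, hx⟩ : rootRing R S T) - algebraMap R (rootRing R S T) r1) +
          ((⟨y, hy⟩ : rootRing R S T) - algebraMap R (rootRing R S T) r2) := by
      rw [map_add]
      apply Subtype.ext
      simp only [Subalgebra.coe_sub, Subalgebra.coe_add]
      ring
    rw [this]; exact Submodule.add_mem _ h1 h2
  | mul x y hx hy ihx ihy =>
    obtain ⟨r1, h1⟩ := ihx
    obtain ⟨r2, h2⟩ := ihy
    refine ⟨r1 * r2, ?_⟩
    have : (⟨x * y, Subalgebra.mul_mem _ hx hy⟩ : rootRing R S T) - algebraMap R (rootRing R S T) (r1 * r2) =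
        (⟨y, hy⟩ : rootRing R S T) * ((⟨x, hx⟩ : rootRing R S T) - algebraMap R (rootRing R S T) r1) +
          algebraMap R (rootRing R S T) r1 * ((⟨y, hy⟩ : rootRing R S T) - algebraMap R (rootRing R S T) r2) := by
      rw [map_mul]
      apply Subtype.ext
      simp only [Subalgebra.coe_sub, Subalgebra.coe_add, Subalgebra.coe_mul]
      ring
    rw [this]
    exact Submodule.add_mem _ (Ideal.mul_mem_left _ _ h1) (Ideal.mul_mem_left _ _ h2)

variable [IsLocalRing R] (hm : maximalIdeal R = span {X} ⊔ span {Y} ⊔ span {ϖ})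
include hm

/-- `𝔪 R[S, T] ⊆ (S, T)` -/
theorem map_mem {r : R} (hr : r ∈ maximalIdeal R) :
    algebraMap R (rootRing R S T) r ∈ span {rS R S T} ⊔ span {rT R S T} := by
  have hle : maximalIdeal R ≤ (span {rS R S T} ⊔ span {rT R S T}).comap (algebraMap R (rootRing R S T)) := by
    rw [hm]
    refine sup_le (sup_le ?_ ?_) ?_ <;> rw [span_singleton_le_iff_mem, Ideal.mem_comap]
    · rw [← h.rS_pow]
      exact Ideal.pow_mem_of_mem _ (Submodule.mem_sup_left (mem_span_singleton_self _)) _ h.he
    · rw [← h.rT_pow]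
      exact Ideal.mul_mem_left _ _
        (Ideal.pow_mem_of_mem _ (Submodule.mem_sup_right (mem_span_singleton_self _)) _ h.he)
    · rw [← h.rS_mul_rT]
      exact Ideal.mul_mem_right _ _ (Submodule.mem_sup_left (mem_span_singleton_self _))
  exact hle hr

/-- every maximal ideal of `R[S, T]` is `(S, T)` -/
theorem eq_of_isMaximal (𝔫 : Ideal (rootRing R S T)) [hn : 𝔫.IsMaximal] :
    𝔫 = span {rS R S T} ⊔ span {rT R S T} := by
  haveI := h.isIntegral
  have h1 : 𝔫.comap (algebraMap R (rootRing R S T)) = maximalIdeal R :=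
    IsLocalRing.eq_maximalIdeal (Ideal.isMaximal_comap_of_isIntegral_of_isMaximal 𝔫)
  have hX : X ∈ maximalIdeal R := by
    rw [hm]; exact Submodule.mem_sup_left (Submodule.mem_sup_left (mem_span_singleton_self X))
  have hY : Y ∈ maximalIdeal R := by
    rw [hm]; exact Submodule.mem_sup_left (Submodule.mem_sup_right (mem_span_singleton_self Y))
  have hS : rS R S T ∈ 𝔫 := by
    refine hn.isPrime.mem_of_pow_mem e ?_
    rw [h.rS_pow, ← Ideal.mem_comap, h1]; exact hX
  have hT : rT R S T ∈ 𝔫 := by
    have h2 : algebraMap R (rootRing R S T) c * rT R S T ^ e ∈ 𝔫 := by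
      rw [h.rT_pow, ← Ideal.mem_comap, h1]; exact hY
    rcases hn.isPrime.mem_or_mem h2 with h3 | h3
    · exact absurd (Ideal.eq_top_of_isUnit_mem _ h3 (h.hc.map _)) hn.ne_top
    · exact hn.isPrime.mem_of_pow_mem e h3
  refine le_antisymm (fun y hy => ?_)
    (sup_le ((span_singleton_le_iff_mem _).2 hS) ((span_singleton_le_iff_mem _).2 hT))
  obtain ⟨r, hr⟩ := exists_sub_mem (R := R) y
  have hr' : y - algebraMap R (rootRing R S T) r ∈ 𝔫 :=
    (sup_le ((span_singleton_le_iff_mem _).2 hS) ((span_singleton_le_iff_mem _).2 hT)) hr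
  have h3 : algebraMap R (rootRing R S T) r ∈ 𝔫 := by
    have := 𝔫.sub_mem hy hr'
    rwa [sub_sub_cancel] at this
  have h4 : r ∈ maximalIdeal R := by rw [← h1]; exact h3
  have := Submodule.add_mem _ hr (h.map_mem hm h4)
  rwa [sub_add_cancel] at this

theorem isLocalRing : IsLocalRing (rootRing R S T) := by
  obtain ⟨𝔫, hn⟩ := Ideal.exists_maximal (rootRing R S T)
  refine IsLocalRing.of_unique_max_ideal ⟨𝔫, hn, fun 𝔫' hn' => ?_⟩
  rw [h.eq_of_isMaximal hm 𝔫, h.eq_of_isMaximal hm 𝔫']

/-- **(AE2)** `R[S, T]` is a UFD in which `S` and `T` are prime -/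
theorem main [IsDomain R] [IsNoetherianRing R] {Q0 Qi : Ideal R} [Q0.IsPrime] [Qi.IsPrime] (hX0 : X ∈ Q0)
    (hY0 : Y ∉ Q0) (hYi : Y ∈ Qi) (hXi : X ∉ Qi) :
    Prime (rS R S T) ∧ Prime (rT R S T) ∧ UniqueFactorizationMonoid (rootRing R S T) := by
  haveI := h.isIntegral
  haveI := h.finite
  haveI := h.isLocalRing hm
  haveI : IsNoetherianRing (rootRing R S T) := IsNoetherianRing.of_finite R _
  have hmax : maximalIdeal (rootRing R S T) = span {rS R S T} ⊔ span {rT R S T} :=
    h.eq_of_isMaximal hm _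
  have hker : RingHom.ker (algebraMap R (rootRing R S T)) = ⊥ := by
    rw [RingHom.ker_eq_bot_iff_eq_zero]
    intro r hr
    exact h.inj (by rw [map_zero]; exact congrArg Subtype.val hr)
  have hS0 : rS R S T ≠ 0 := by
    intro h0
    apply hXi
    have : algebraMap R (rootRing R S T) X = 0 := by rw [← h.rS_pow, h0, zero_pow h.he.ne']
    have : X ∈ RingHom.ker (algebraMap R (rootRing R S T)) := this
    rw [hker] at this
    rw [(Submodule.mem_bot R).1 this]; exact Qi.zero_mem
  have hT0 : rT R S T ≠ 0 := by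
    intro h0
    apply hY0
    have : algebraMap R (rootRing R S T) Y = 0 := by rw [← h.rT_pow, h0, zero_pow h.he.ne', mul_zero]
    have : Y ∈ RingHom.ker (algebraMap R (rootRing R S T)) := this
    rw [hker] at this
    rw [(Submodule.mem_bot R).1 this]; exact Q0.zero_mem
  obtain ⟨P0, -, hP0, e0⟩ := Ideal.exists_ideal_over_prime_of_isIntegral Q0 (⊥ : Ideal (rootRing R S T))
    (by rw [← RingHom.ker_eq_comap_bot, hker]; exact bot_le)
  obtain ⟨P1, -, hP1, e1⟩ := Ideal.exists_ideal_over_prime_of_isIntegral Qi (⊥ : Ideal (rootRing R S T))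
    (by rw [← RingHom.ker_eq_comap_bot, hker]; exact bot_le)
  have hS : Prime (rS R S T) := by
    refine prime_of_two_gen hmax hS0 (P := P0) ?_ ?_
    · refine hP0.mem_of_pow_mem e ?_
      rw [h.rS_pow, ← Ideal.mem_comap, e0]; exact hX0
    · intro hT
      apply hY0
      rw [← e0, Ideal.mem_comap, ← h.rT_pow]
      exact Ideal.mul_mem_left _ _ (Ideal.pow_mem_of_mem _ hT _ h.he)
  have hT : Prime (rT R S T) := by
    refine prime_of_two_gen (by rw [hmax, sup_comm]) hT0 (P := P1) ?_ ?_
    · have h2 : algebraMap R (rootRing R S T) c * rT R S T ^ e ∈ P1 := by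
        rw [h.rT_pow, ← Ideal.mem_comap, e1]; exact hYi
      rcases hP1.mem_or_mem h2 with h3 | h3
      · exact absurd (Ideal.eq_top_of_isUnit_mem _ h3 (h.hc.map _)) hP1.ne_top
      · exact hP1.mem_of_pow_mem e h3
    · intro hS'
      apply hXi
      rw [← e1, Ideal.mem_comap, ← h.rS_pow]
      exact Ideal.pow_mem_of_mem _ hS' _ h.he
  haveI : IsPrincipalIdealRing (rootRing R S T ⧸ span {rS R S T}) := isPrincipalIdealRing_quot hS hmax
  exact ⟨hS, hT, ufd_of_quot _ hS⟩

end RootData

end Root

end Fermat.Agent.S44.Alg
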