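import Mathlib

/-!
# S44 / Alg / UFD : the (ANL) lemma   [key S44/ALG-UFD]   (Mathlib only)

`R` a noetherian local domain, `X ∈ R` a prime element such that `R ⧸ (X)` is a principal ideal ring
(e.g. a DVR).  Then every prime ideal not containing `X` is principal, and `R` is a UFD.

`node_factor` : in a UFD `R` with fraction field `K`, `z ∈ K` all of whose prime exponents outside the primes
`X`, `Y` are divisible by `n` is `z = e * X^i * Y^j * (c/d)^n`, `e ∈ Rˣ`, `c d` prime to `X` and `Y`.
-/

set_option autoImplicit false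

open Ideal

namespace Fermat.Agent.S44.Alg

variable {R : Type*} [CommRing R]

/-- every prime ideal not containing `X` is principal -/
theorem prime_principal [IsNoetherianRing R] [IsLocalRing R] (X : R) (hX : ¬ IsUnit X)
    [IsPrincipalIdealRing (R ⧸ span {X})] (q : Ideal R) [hq : q.IsPrime] (hXq : X ∉ q) :
    ∃ h : R, q = span {h} := by
  -- a generator of the image of `q`
  obtain ⟨hbar, hh⟩ := (IsPrincipalIdealRing.principal (q.map (Ideal.Quotient.mk (span {X})))).1
  have hsurj : Function.Surjective (Ideal.Quotient.mk (span {X})) := Ideal.Quotient.mk_surjective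
  have hmem : hbar ∈ q.map (Ideal.Quotient.mk (span {X})) := by
    rw [hh]; exact Submodule.mem_span_singleton_self _
  obtain ⟨h, hhq, rfl⟩ := (Ideal.mem_map_iff_of_surjective _ hsurj).1 hmem
  refine ⟨h, le_antisymm ?_ ((span_singleton_le_iff_mem _).2 hhq)⟩
  refine Submodule.le_of_le_smul_of_le_jacobson_bot (I := span {X}) (IsNoetherian.noetherian q) ?_ ?_
  · rw [IsLocalRing.jacobson_eq_maximalIdeal ⊥ bot_ne_top, span_singleton_le_iff_mem]
    exact hX
  · intro a ha
    have h1 : Ideal.Quotient.mk (span {X}) a ∈ q.map (Ideal.Quotient.mk (span {X})) :=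
      Ideal.mem_map_of_mem _ ha
    rw [hh] at h1
    obtain ⟨rbar, hr⟩ := Submodule.mem_span_singleton.1 h1
    obtain ⟨r, rfl⟩ := hsurj rbar
    rw [smul_eq_mul, ← map_mul, Ideal.Quotient.eq, mem_span_singleton] at hr
    obtain ⟨b, hb⟩ := hr
    have hbq : b ∈ q := by
      have : X * b ∈ q := by
        rw [← hb]
        exact q.sub_mem (q.mul_mem_left _ hhq) ha
      exact (hq.mem_or_mem this).resolve_left hXq
    have e : a = r * h + - (X * b) := by rw [← hb]; ring
    rw [e]
    refine Submodule.add_mem_sup (mem_span_singleton.2 (Dvd.intro_left _ rfl)) ?_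
    refine Submodule.neg_mem _ ?_
    rw [← smul_eq_mul]
    exact Submodule.smul_mem_smul (mem_span_singleton_self X) hbq

/-- (ANL) `R` is a UFD -/
theorem ufd_of_quot [IsDomain R] [IsNoetherianRing R] [IsLocalRing R] (X : R) (hX : Prime X)
    [IsPrincipalIdealRing (R ⧸ span {X})] : UniqueFactorizationMonoid R := by
  rw [UniqueFactorizationMonoid.iff_exists_prime_mem_of_isPrime]
  intro q hq0 hq
  by_cases hXq : X ∈ q
  · exact ⟨X, hXq, hX⟩
  · obtain ⟨h, rfl⟩ := prime_principal X hX.not_isUnit q hXq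
    refine ⟨h, mem_span_singleton_self h, ?_⟩
    have h0 : h ≠ 0 := by
      rintro rfl
      exact hq0 (by simp)
    exact (span_singleton_prime h0).1 hq

section factor

variable {R : Type*} [CommRing R] [IsDomain R] [UniqueFactorizationMonoid R]

theorem finMult {π a : R} (hπ : Prime π) (ha : a ≠ 0) : FiniteMultiplicity π a :=
  FiniteMultiplicity.of_not_isUnit hπ.not_isUnit ha

/-- the factorisation of an element all of whose prime exponents outside `X`, `Y` are divisible
by `n` -/
theorem node_factor_aux (X Y : R) (hX : Prime X) (hY : Prime Y) (n : ℕ) (a : R) : a ≠ 0 →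
    (∀ π : R, Prime π → ¬ Associated π X → ¬ Associated π Y → n ∣ multiplicity π a) →
    ∃ (e : Rˣ) (i j : ℕ) (c : R), ¬ X ∣ c ∧ ¬ Y ∣ c ∧ a = e * X ^ i * Y ^ j * c ^ n := by
  induction a using UniqueFactorizationMonoid.induction_on_coprime with
  | h0 => intro h; exact absurd rfl h
  | h1 hx =>
    intro _ _
    obtain ⟨u, rfl⟩ := hx
    exact ⟨u, 0, 0, 1, fun h => hX.not_isUnit (isUnit_of_dvd_one h),
      fun h => hY.not_isUnit (isUnit_of_dvd_one h), by simp⟩
  | @hpr π i hπ =>
    intro _ H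
    by_cases h1 : Associated π X
    · obtain ⟨u, rfl⟩ := h1.symm
      exact ⟨u ^ i, i, 0, 1, fun h => hX.not_isUnit (isUnit_of_dvd_one h),
        fun h => hY.not_isUnit (isUnit_of_dvd_one h), by simp [mul_pow, mul_comm]⟩
    by_cases h2 : Associated π Y
    · obtain ⟨u, rfl⟩ := h2.symm
      exact ⟨u ^ i, 0, i, 1, fun h => hX.not_isUnit (isUnit_of_dvd_one h),
        fun h => hY.not_isUnit (isUnit_of_dvd_one h), by simp [mul_pow, mul_comm]⟩
    have h3 := H π hπ h1 h2
    rw [multiplicity_pow_self_of_prime hπ] at h3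
    obtain ⟨k, rfl⟩ := h3
    refine ⟨1, 0, 0, π ^ k, fun h => h1 ?_, fun h => h2 ?_, by simp [← pow_mul, mul_comm]⟩
    · exact ((hX.dvd_prime_iff_associated hπ).1 (hX.dvd_of_dvd_pow h)).symm
    · exact ((hY.dvd_prime_iff_associated hπ).1 (hY.dvd_of_dvd_pow h)).symm
  | @hcp x y hxy ihx ihy =>
    intro hne H
    have hx0 : x ≠ 0 := left_ne_zero_of_mul hne
    have hy0 : y ≠ 0 := right_ne_zero_of_mul hne
    have key : ∀ π : R, Prime π → multiplicity π x = 0 ∨ multiplicity π y = 0 := by
      intro π hπ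
      by_contra hcon
      push Not at hcon
      rw [Ne, multiplicity_eq_zero, not_not, Ne, multiplicity_eq_zero, not_not] at hcon
      exact hπ.not_isUnit (hxy hcon.1 hcon.2)
    obtain ⟨e, i, j, c, c1, c2, rfl⟩ := ihx hx0 (by
      intro π hπ h1 h2
      have h3 := H π hπ h1 h2
      rw [multiplicity_mul hπ (finMult hπ hne)] at h3
      rcases key π hπ with h | h
      · rw [h]; exact dvd_zero _
      · rwa [h, add_zero] at h3)
    obtain ⟨e', i', j', c', c1', c2', rfl⟩ := ihy hy0 (by
      intro π hπ h1 h2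
      have h3 := H π hπ h1 h2
      rw [multiplicity_mul hπ (finMult hπ hne)] at h3
      rcases key π hπ with h | h
      · rwa [h, zero_add] at h3
      · rw [h]; exact dvd_zero _)
    refine ⟨e * e', i + i', j + j', c * c', ?_, ?_, ?_⟩
    · intro h
      rcases hX.dvd_or_dvd h with h | h
      · exact c1 h
      · exact c1' h
    · intro h
      rcases hY.dvd_or_dvd h with h | h
      · exact c2 h
      · exact c2' h
    · push_cast
      ring

/-- splitting off the powers of `X` and `Y` -/
theorem exists_split (X Y : R) (hX : Prime X) (hY : Prime Y) (b : R) (hb : b ≠ 0) :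
    ∃ (s t : ℕ) (d : R), ¬ X ∣ d ∧ ¬ Y ∣ d ∧ b = X ^ s * Y ^ t * d := by
  obtain ⟨b1, h1, h2⟩ := (finMult hX hb).exists_eq_pow_mul_and_not_dvd
  have hb1 : b1 ≠ 0 := by
    rintro rfl
    exact h2 (dvd_zero _)
  obtain ⟨d, h3, h4⟩ := (finMult hY hb1).exists_eq_pow_mul_and_not_dvd
  refine ⟨multiplicity X b, multiplicity Y b1, d, fun h => h2 ?_, h4, ?_⟩
  · rw [h3]; exact Dvd.dvd.mul_left h _
  · rw [mul_assoc, ← h3]; exact h1

variable {K : Type*} [Field K] [Algebra R K] [IsFractionRing R K]

/-- (ANL, node relation) an element of the fraction field all of whose prime exponents outside `X`, `Y`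
are divisible by `n` is `unit * X^i * Y^j * w^n`, `w` prime to `X` and `Y`. -/
theorem node_factor (X Y : R) (hX : Prime X) (hY : Prime Y) (n : ℕ) (hn : 0 < n) (z : K) (hz : z ≠ 0)
    (H : ∀ π : R, Prime π → ¬ Associated π X → ¬ Associated π Y →
      ∃ (k : ℤ) (a' b' : R), ¬ π ∣ a' ∧ ¬ π ∣ b' ∧
        z * algebraMap R K b' = algebraMap R K π ^ ((n : ℤ) * k) * algebraMap R K a') :
    ∃ (e : Rˣ) (i j : ℤ) (c d : R), ¬ X ∣ c ∧ ¬ Y ∣ c ∧ ¬ X ∣ d ∧ ¬ Y ∣ d ∧
      z = algebraMap R K e * algebraMap R K X ^ i * algebraMap R K Y ^ j *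
        (algebraMap R K c / algebraMap R K d) ^ n := by
  have hinj : Function.Injective (algebraMap R K) := IsFractionRing.injective R K
  obtain ⟨a, b, hb, rfl⟩ := IsFractionRing.div_surjective (A := R) z
  have hb0 : b ≠ 0 := nonZeroDivisors.ne_zero hb
  have hbK : algebraMap R K b ≠ 0 := fun h => hb0 (hinj (by rw [h, map_zero]))
  have ha0 : a ≠ 0 := by
    rintro rfl
    exact hz (by simp)
  obtain ⟨m, rfl⟩ : ∃ m, n = m + 1 := ⟨n - 1, by omega⟩
  have hA0 : a * b ^ m ≠ 0 := mul_ne_zero ha0 (pow_ne_zero _ hb0)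
  have hzA : algebraMap R K a / algebraMap R K b =
      algebraMap R K (a * b ^ m) / algebraMap R K b ^ (m + 1) := by
    rw [map_mul, map_pow, pow_succ]
    field_simp
  obtain ⟨e, i, j, c, c1, c2, hA⟩ := node_factor_aux X Y hX hY (m + 1) (a * b ^ m) hA0 (by
    intro π hπ h1 h2
    obtain ⟨k, a', b', ha', hb', hk⟩ := H π hπ h1 h2
    have hπK : algebraMap R K π ≠ 0 := fun h => hπ.ne_zero (hinj (by rw [h, map_zero]))
    have ha'0 : a' ≠ 0 := by rintro rfl; exact ha' (dvd_zero _)
    have hb'0 : b' ≠ 0 := by rintro rfl; exact hb' (dvd_zero _)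
    rw [hzA, div_mul_eq_mul_div, div_eq_iff (pow_ne_zero _ hbK)] at hk
    have ma' : multiplicity π a' = 0 := multiplicity_eq_zero.2 ha'
    have mb' : multiplicity π b' = 0 := multiplicity_eq_zero.2 hb'
    rcases Int.eq_nat_or_neg k with ⟨k0, rfl | rfl⟩
    · have e1 : a * b ^ m * b' = π ^ ((m + 1) * k0) * a' * b ^ (m + 1) := by
        apply hinj
        rw [map_mul, hk, map_mul, map_mul, map_pow, map_pow]
        congr 2
        rw [← zpow_natCast]
        push_cast
        rfl
      have e2 := congrArg (multiplicity π) e1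
      rw [multiplicity_mul hπ (finMult hπ (mul_ne_zero hA0 hb'0)), mb', add_zero,
        multiplicity_mul hπ (finMult hπ (mul_ne_zero (mul_ne_zero (pow_ne_zero _ hπ.ne_zero) ha'0)
          (pow_ne_zero _ hb0))),
        multiplicity_mul hπ (finMult hπ (mul_ne_zero (pow_ne_zero _ hπ.ne_zero) ha'0)), ma', add_zero,
        multiplicity_pow_self_of_prime hπ, (finMult hπ hb0).multiplicity_pow hπ] at e2
      rw [e2, ← mul_add]
      exact Dvd.intro _ rfl
    · have e1 : a * b ^ m * b' * π ^ ((m + 1) * k0) = a' * b ^ (m + 1) := by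
        apply hinj
        rw [map_mul, map_mul (algebraMap R K) (a * b ^ m), hk, map_mul, map_pow, map_pow]
        have : algebraMap R K π ^ (((m + 1 : ℕ) : ℤ) * -(k0 : ℤ)) * algebraMap R K π ^ ((m + 1) * k0) = 1 := by
          rw [← zpow_natCast, ← zpow_add₀ hπK]
          push_cast
          simp
        linear_combination (algebraMap R K a' * algebraMap R K b ^ (m + 1)) * this
      have e2 := congrArg (multiplicity π) e1
      rw [multiplicity_mul hπ (finMult hπ (mul_ne_zero (mul_ne_zero hA0 hb'0)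
          (pow_ne_zero _ hπ.ne_zero))),
        multiplicity_mul hπ (finMult hπ (mul_ne_zero hA0 hb'0)), mb', add_zero,
        multiplicity_mul hπ (finMult hπ (mul_ne_zero ha'0 (pow_ne_zero _ hb0))), ma', zero_add,
        multiplicity_pow_self_of_prime hπ, (finMult hπ hb0).multiplicity_pow hπ] at e2
      have h3 : (m + 1) ∣ multiplicity π (a * b ^ m) + (m + 1) * k0 := by
        rw [e2]; exact Dvd.intro _ rfl
      exact (Nat.dvd_add_left (Dvd.intro _ rfl)).1 h3)
  obtain ⟨s, t, d, d1, d2, hd⟩ := exists_split X Y hX hY b hb0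
  have hXK : algebraMap R K X ≠ 0 := fun h => hX.ne_zero (hinj (by rw [h, map_zero]))
  have hYK : algebraMap R K Y ≠ 0 := fun h => hY.ne_zero (hinj (by rw [h, map_zero]))
  have hdK : algebraMap R K d ≠ 0 := by
    intro h
    apply d1
    rw [hinj (h.trans (map_zero _).symm)]
    exact dvd_zero _
  refine ⟨e, (i : ℤ) - (m + 1 : ℕ) * s, (j : ℤ) - (m + 1 : ℕ) * t, c, d, c1, c2, d1, d2, ?_⟩
  rw [hzA, hA, zpow_sub₀ hXK, zpow_sub₀ hYK, zpow_natCast, zpow_natCast, ← Nat.cast_mul,
    ← Nat.cast_mul, zpow_natCast, zpow_natCast]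
  conv_lhs => rw [hd]
  simp only [map_mul, map_pow, mul_pow, div_pow, ← pow_mul]
  rw [mul_comm s, mul_comm t]
  field_simp

end factor

end Fermat.Agent.S44.Alg
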