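import Mathlib
import Fermat.Prelude.Def_AlgebraicCurve_DivisorClassGroup

/-!
# S44 / Alg / Unr : constant field extensions are unramified   [key S44/ALG-UNR]   (Mathlib + `Place`)   (helper27)

`K0 ⊆ Kb` algebraic, characteristic `0`; `E' ⊆ F'` with `F' = Kb E'`.  A discrete valuation ring `V ⊇ K0` of `E'` with uniformiser `h`
extends to a place `P` of `F' / Kb` with `ord_P h = 1`.
Proof: `V ⊗_{K0} K2` (`K2 / K0` finite) is finite and formally unramified over `V`, so the localisation at a prime over `(h)` is a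
noetherian local ring with maximal ideal `(h)`; Krull's intersection theorem.
-/

set_option autoImplicit false
set_option linter.style.haveILetI false
set_option linter.unusedSectionVars false

open TensorProduct IsLocalRing Ideal

namespace Fermat.Agent.S44.Alg

theorem unrAux_core {K0 V K2 F : Type*} [Field K0] [CharZero K0] [CommRing V] [IsLocalRing V]
    [IsNoetherianRing V] [Algebra K0 V] [Field K2] [Algebra K0 K2] [FiniteDimensional K0 K2] [Field F]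
    (h : V) (hmax : maximalIdeal V = span {h})
    (f : V ⊗[K0] K2 →+* F) (O : ValuationSubring F) (hO : ∀ τ, f τ ∈ O) (hh : (f (h ⊗ₜ 1))⁻¹ ∉ O)
    (τ : V ⊗[K0] K2) (hτ : f τ ≠ 0) :
    ∃ k : ℕ, f τ / f (h ⊗ₜ 1) ^ k ∈ O ∧ (f τ / f (h ⊗ₜ 1) ^ k)⁻¹ ∈ O := by
  classical
  let f' : V ⊗[K0] K2 →+* O := f.codRestrict O.toSubring hO
  let 𝔓 : Ideal (V ⊗[K0] K2) := (maximalIdeal O).comap f'
  haveI : 𝔓.IsPrime := Ideal.comap_isPrime _ _
  let S := Localization.AtPrime 𝔓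
  haveI : Algebra.FormallyUnramified K0 K2 := Algebra.FormallyUnramified.of_isSeparable K0 K2
  haveI : Algebra.FormallyUnramified V (V ⊗[K0] K2) := inferInstance
  haveI : Algebra.FormallyUnramified (V ⊗[K0] K2) S := Algebra.FormallyUnramified.of_isLocalization 𝔓.primeCompl
  haveI : Algebra.FormallyUnramified V S := Algebra.FormallyUnramified.comp V (V ⊗[K0] K2) S
  haveI : Algebra.EssFiniteType V S := inferInstance
  haveI : IsNoetherianRing (V ⊗[K0] K2) :=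
    isNoetherian_of_tower V (isNoetherian_of_isNoetherianRing_of_finite V (V ⊗[K0] K2))
  haveI : IsNoetherianRing S := IsLocalization.isNoetherianRing 𝔓.primeCompl S inferInstance
  -- membership in `𝔓`
  have mem𝔓 : ∀ x : V ⊗[K0] K2, x ∈ 𝔓 ↔ (f x)⁻¹ ∉ O ∨ f x = 0 := by
    intro x
    change f' x ∈ maximalIdeal O ↔ _
    rw [mem_maximalIdeal, mem_nonunits_iff]
    constructor
    · intro hx
      by_cases h0 : f x = 0
      · exact Or.inr h0
      · left
        intro hinv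
        apply hx
        refine IsUnit.of_mul_eq_one ⟨(f x)⁻¹, hinv⟩ (Subtype.ext ?_)
        change f x * (f x)⁻¹ = 1
        exact mul_inv_cancel₀ h0
    · rintro (hx | hx) hu
      · obtain ⟨y, hy⟩ := hu.exists_right_inv
        have h1 : f x * (y : F) = 1 := congrArg Subtype.val hy
        have : (f x)⁻¹ = y := inv_eq_of_mul_eq_one_right h1
        rw [this] at hx
        exact hx y.2
      · have : f' x = 0 := Subtype.ext hx
        rw [this] at hu
        exact not_isUnit_zero hu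
  have hh𝔓 : (h ⊗ₜ[K0] (1 : K2)) ∈ 𝔓 := (mem𝔓 _).2 (Or.inl hh)
  have halg : ∀ v : V, algebraMap V S v = algebraMap (V ⊗[K0] K2) S (v ⊗ₜ 1) := fun v => by
    rw [IsScalarTower.algebraMap_apply V (V ⊗[K0] K2) S]; rfl
  haveI : IsLocalHom (algebraMap V S) := by
    constructor
    intro v hv
    by_contra hnv
    have h1 : v ∈ maximalIdeal V := (mem_maximalIdeal v).2 hnv
    rw [hmax] at h1
    obtain ⟨v', rfl⟩ := mem_span_singleton.1 h1
    have h2 : ((h * v') ⊗ₜ[K0] (1 : K2)) ∈ 𝔓 := by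
      have : ((h * v') ⊗ₜ[K0] (1 : K2)) = (h ⊗ₜ 1) * (v' ⊗ₜ 1) := by
        rw [Algebra.TensorProduct.tmul_mul_tmul, mul_one]
      rw [this]; exact 𝔓.mul_mem_right _ hh𝔓
    rw [halg] at hv
    exact (IsLocalization.AtPrime.isUnit_to_map_iff S 𝔓 _).1 hv h2
  have hmS : maximalIdeal S = span {algebraMap (V ⊗[K0] K2) S (h ⊗ₜ 1)} := by
    rw [← Algebra.FormallyUnramified.map_maximalIdeal (R := V) (S := S), hmax, Ideal.map_span,
      Set.image_singleton, halg]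
  have hunit : ∀ x : V ⊗[K0] K2, x ∉ 𝔓 → f x ≠ 0 ∧ (f x)⁻¹ ∈ O := by
    intro x hx
    rw [mem𝔓] at hx
    push Not at hx
    exact ⟨hx.2, hx.1⟩
  have hτS : algebraMap (V ⊗[K0] K2) S τ ≠ 0 := by
    intro h0
    obtain ⟨m, hm⟩ := (IsLocalization.map_eq_zero_iff 𝔓.primeCompl S τ).1 h0
    have h1 : f (m : V ⊗[K0] K2) * f τ = 0 := by rw [← map_mul, hm, map_zero]
    rcases mul_eq_zero.1 h1 with h2 | h2
    · exact (hunit _ m.2).1 h2
    · exact hτ h2
  have hex : ∃ k : ℕ, algebraMap (V ⊗[K0] K2) S τ ∉ maximalIdeal S ^ k := by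
    by_contra hcon
    push Not at hcon
    have h1 : algebraMap (V ⊗[K0] K2) S τ ∈ ⨅ i : ℕ, maximalIdeal S ^ i := by
      rw [Ideal.mem_iInf]; exact hcon
    rw [Ideal.iInf_pow_eq_bot_of_isLocalRing _ (maximalIdeal.isMaximal S).ne_top] at h1
    exact hτS h1
  have hk := Nat.find_spec hex
  have hkmin := fun m => Nat.find_min hex (m := m)
  obtain ⟨m, hm⟩ : ∃ m, Nat.find hex = m + 1 := by
    rcases Nat.eq_zero_or_pos (Nat.find hex) with h0 | h0
    · rw [h0, pow_zero, Ideal.one_eq_top] at hk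
      exact absurd Submodule.mem_top hk
    · exact ⟨Nat.find hex - 1, by omega⟩
  have h1 : algebraMap (V ⊗[K0] K2) S τ ∈ maximalIdeal S ^ m := by
    by_contra hc
    exact hkmin m (by omega) hc
  rw [hmS, Ideal.span_singleton_pow, mem_span_singleton] at h1
  obtain ⟨τ', hτ'⟩ := h1
  have hτ'u : IsUnit τ' := by
    by_contra hc
    have h2 : τ' ∈ maximalIdeal S := (mem_maximalIdeal _).2 hc
    apply hk
    rw [hm, pow_succ, hτ']
    refine Ideal.mul_mem_mul ?_ h2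
    rw [hmS, Ideal.span_singleton_pow]
    exact mem_span_singleton_self _
  obtain ⟨a, s, rfl⟩ := IsLocalization.exists_mk'_eq 𝔓.primeCompl τ'
  have ha : a ∉ 𝔓 := fun h => (IsLocalization.AtPrime.isUnit_mk'_iff S 𝔓 a s).1 hτ'u h
  have h3 : algebraMap (V ⊗[K0] K2) S (τ * s) = algebraMap (V ⊗[K0] K2) S ((h ⊗ₜ 1) ^ m * a) := by
    rw [map_mul, map_mul, map_pow, hτ', mul_assoc, IsLocalization.mk'_spec]
  obtain ⟨c, hc⟩ := (IsLocalization.eq_iff_exists 𝔓.primeCompl S).1 h3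
  have h4 : f τ * f s = f (h ⊗ₜ 1) ^ m * f a := by
    have := congrArg f hc
    rw [map_mul, map_mul, map_mul, map_mul, map_pow] at this
    exact mul_left_cancel₀ (hunit _ c.2).1 this
  have hh0 : f (h ⊗ₜ[K0] (1 : K2)) ≠ 0 := by
    intro h0
    rw [h0, inv_zero] at hh
    exact hh O.zero_mem
  obtain ⟨hs0, hsi⟩ := hunit _ s.2
  obtain ⟨ha0, hai⟩ := hunit _ ha
  have h5 : f τ / f (h ⊗ₜ 1) ^ m = f a * (f s)⁻¹ := by
    field_simp
    linear_combination h4
  refine ⟨m, ?_, ?_⟩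
  · rw [h5]; exact mul_mem (hO a) hsi
  · rw [h5, mul_inv, inv_inv]; exact mul_mem hai (hO s)

section DVR

variable {F : Type*} [Field F]

/-- normal form in a discrete valuation subring given by a uniformiser -/
theorem unrAux_nf (O : ValuationSubring F) {h : F} (hh : h ∈ O) (hh' : h⁻¹ ∉ O)
    (hO : ∀ y : F, y ≠ 0 → ∃ k : ℤ, y * h ^ k ∈ O ∧ (y * h ^ k)⁻¹ ∈ O) {x : F} (hx : x ∈ O) (hx0 : x ≠ 0) :
    ∃ (n : ℕ) (u : F), u ∈ O ∧ u⁻¹ ∈ O ∧ u ≠ 0 ∧ x = u * h ^ n := by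
  have hh0 : h ≠ 0 := by
    rintro rfl
    rw [inv_zero] at hh'
    exact hh' O.zero_mem
  obtain ⟨k, h1, h2⟩ := hO x hx0
  have hu0 : x * h ^ k ≠ 0 := mul_ne_zero hx0 (zpow_ne_zero _ hh0)
  rcases le_or_gt k 0 with hk | hk
  · obtain ⟨n, hn⟩ := Int.eq_ofNat_of_zero_le (neg_nonneg.2 hk)
    refine ⟨n, x * h ^ k, h1, h2, hu0, ?_⟩
    have : k = -(n : ℤ) := by omega
    rw [this, zpow_neg, zpow_natCast]
    field_simp
  · exfalso
    apply hh'
    obtain ⟨n, hn⟩ := Int.eq_ofNat_of_zero_le (by omega : 0 ≤ k - 1)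
    have e : h⁻¹ = (x * h ^ k)⁻¹ * (x * h ^ n) := by
      have : k = (n : ℤ) + 1 := by omega
      rw [this, zpow_add₀ hh0, zpow_natCast, zpow_one]
      field_simp
    rw [e]
    exact mul_mem h2 (mul_mem hx (pow_mem hh n))

theorem unrAux_max (O : ValuationSubring F) {h : F} (hh : h ∈ O) (hh' : h⁻¹ ∉ O)
    (hO : ∀ y : F, y ≠ 0 → ∃ k : ℤ, y * h ^ k ∈ O ∧ (y * h ^ k)⁻¹ ∈ O) :
    maximalIdeal O = span {(⟨h, hh⟩ : O)} := by
  have hh0 : h ≠ 0 := by
    rintro rfl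
    rw [inv_zero] at hh'
    exact hh' O.zero_mem
  apply le_antisymm
  · intro x hx
    by_cases hx0 : (x : F) = 0
    · have : x = 0 := Subtype.ext hx0
      rw [this]; exact Ideal.zero_mem _
    obtain ⟨n, u, hu, hu', hu0, e⟩ := unrAux_nf O hh hh' hO x.2 hx0
    rcases Nat.eq_zero_or_pos n with rfl | hn
    · exfalso
      rw [pow_zero, mul_one] at e
      refine (mem_maximalIdeal x).1 hx (IsUnit.of_mul_eq_one ⟨u⁻¹, hu'⟩ (Subtype.ext ?_))
      change (x : F) * u⁻¹ = 1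
      rw [e]; exact mul_inv_cancel₀ hu0
    · obtain ⟨m, rfl⟩ : ∃ m, n = m + 1 := ⟨n - 1, by omega⟩
      refine mem_span_singleton.2 ⟨⟨u * h ^ m, mul_mem hu (pow_mem hh m)⟩, Subtype.ext ?_⟩
      change (x : F) = h * (u * h ^ m)
      rw [e, pow_succ]; ring
  · rw [span_singleton_le_iff_mem, mem_maximalIdeal, mem_nonunits_iff]
    intro hu
    obtain ⟨y, hy⟩ := hu.exists_right_inv
    have h1 : h * (y : F) = 1 := congrArg Subtype.val hy
    have : h⁻¹ = y := inv_eq_of_mul_eq_one_right h1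
    rw [this] at hh'
    exact hh' y.2

theorem unrAux_irr (O : ValuationSubring F) {h : F} (hh : h ∈ O) (hh' : h⁻¹ ∉ O)
    (hO : ∀ y : F, y ≠ 0 → ∃ k : ℤ, y * h ^ k ∈ O ∧ (y * h ^ k)⁻¹ ∈ O) : Irreducible (⟨h, hh⟩ : O) := by
  refine IsDiscreteValuationRing.irreducible_of_span_eq_maximalIdeal _ ?_ (unrAux_max O hh hh' hO)
  intro h0
  have : h = 0 := congrArg Subtype.val h0
  rw [this, inv_zero] at hh'
  exact hh' O.zero_mem

theorem unrAux_dvr (O : ValuationSubring F) {h : F} (hh : h ∈ O) (hh' : h⁻¹ ∉ O)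
    (hO : ∀ y : F, y ≠ 0 → ∃ k : ℤ, y * h ^ k ∈ O ∧ (y * h ^ k)⁻¹ ∈ O) : IsDiscreteValuationRing O := by
  apply IsDiscreteValuationRing.ofHasUnitMulPowIrreducibleFactorization
  refine ⟨⟨h, hh⟩, unrAux_irr O hh hh' hO, ?_⟩
  intro x hx
  have hx0 : (x : F) ≠ 0 := fun h0 => hx (Subtype.ext h0)
  obtain ⟨n, u, hu, hu', hu0, e⟩ := unrAux_nf O hh hh' hO x.2 hx0
  refine ⟨n, ?_⟩
  have huu : IsUnit (⟨u, hu⟩ : O) := IsUnit.of_mul_eq_one ⟨u⁻¹, hu'⟩ (Subtype.ext (mul_inv_cancel₀ hu0))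
  refine ⟨huu.unit, Subtype.ext ?_⟩
  change h ^ n * u = (x : F)
  rw [e]; ring

end DVR

section Main

variable {K0 Kb E' F' : Type*} [Field K0] [CharZero K0] [Field Kb] [Algebra K0 Kb] [Algebra.IsAlgebraic K0 Kb]
  [Field E'] [Field F'] [Algebra K0 E'] [Algebra Kb F'] [Algebra E' F'] [Algebra K0 F']
  [IsScalarTower K0 Kb F'] [IsScalarTower K0 E' F']

/-- a valuation ring of `F'` dominating `V` is discrete with the same uniformiser -/
theorem unrAux_ext
    (hgen : ∀ x : F', ∃ (n : ℕ) (c : Fin n → Kb) (e : Fin n → E'),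
      x = ∑ i, algebraMap Kb F' (c i) * algebraMap E' F' (e i))
    (V : ValuationSubring E') (h : E') (hK : ∀ a : K0, algebraMap K0 E' a ∈ V) (hh : h ∈ V) (hh' : h⁻¹ ∉ V)
    (hV : ∀ y : E', y ≠ 0 → ∃ k : ℤ, y * h ^ k ∈ V ∧ (y * h ^ k)⁻¹ ∈ V)
    (O : ValuationSubring F') (hVO : ∀ y ∈ V, algebraMap E' F' y ∈ O) (hKO : ∀ c : Kb, algebraMap Kb F' c ∈ O)
    (hhO : (algebraMap E' F' h)⁻¹ ∉ O) (x : F') (hx : x ≠ 0) :
    ∃ k : ℤ, x * algebraMap E' F' h ^ k ∈ O ∧ (x * algebraMap E' F' h ^ k)⁻¹ ∈ O := by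
  classical
  have hh0 : h ≠ 0 := by
    rintro rfl
    rw [inv_zero] at hh'
    exact hh' V.zero_mem
  have hhF : algebraMap E' F' h ≠ 0 := (map_ne_zero _).2 hh0
  obtain ⟨n, c, e, rfl⟩ := hgen x
  -- the finite extension
  let K2 : IntermediateField K0 Kb := IntermediateField.adjoin K0 (Set.range c)
  haveI : FiniteDimensional K0 K2 :=
    IntermediateField.finiteDimensional_adjoin (fun x _ => Algebra.IsIntegral.isIntegral x)
  have hc : ∀ i, c i ∈ K2 := fun i => IntermediateField.subset_adjoin K0 _ ⟨i, rfl⟩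
  -- common denominator
  have hden : ∀ i, ∃ m : ℕ, ∀ m', m ≤ m' → e i * h ^ m' ∈ V := by
    intro i
    by_cases h0 : e i = 0
    · exact ⟨0, fun m' _ => by rw [h0, zero_mul]; exact V.zero_mem⟩
    obtain ⟨k, h1, -⟩ := hV (e i) h0
    refine ⟨k.toNat, fun m' hm' => ?_⟩
    obtain ⟨j, hj⟩ := Int.eq_ofNat_of_zero_le (by omega : 0 ≤ (m' : ℤ) - k)
    have : e i * h ^ m' = (e i * h ^ k) * h ^ j := by
      rw [mul_assoc, ← zpow_natCast h j, ← zpow_add₀ hh0, ← hj, ← zpow_natCast h m']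
      congr 2; ring
    rw [this]
    exact mul_mem h1 (pow_mem hh j)
  choose mm hmm using hden
  let m := Finset.univ.sup mm
  have hm : ∀ i, e i * h ^ m ∈ V := fun i => hmm i m (Finset.le_sup (Finset.mem_univ i))
  -- the algebra structures
  letI : Algebra K0 V := ((algebraMap K0 E').codRestrict V.toSubring hK).toAlgebra
  haveI : IsDiscreteValuationRing V := unrAux_dvr V hh hh' hV
  let g1 : V →ₐ[K0] F' :=
    { toRingHom := (algebraMap E' F').comp V.subtype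
      commutes' := fun a => (IsScalarTower.algebraMap_apply K0 E' F' a).symm }
  let g2 : K2 →ₐ[K0] F' := (IsScalarTower.toAlgHom K0 Kb F').comp K2.val
  let f : V ⊗[K0] K2 →ₐ[K0] F' := Algebra.TensorProduct.productMap g1 g2
  have hf : ∀ (v : V) (d : K2), f (v ⊗ₜ d) = algebraMap E' F' (v : E') * algebraMap Kb F' (d : Kb) :=
    fun v d => Algebra.TensorProduct.productMap_apply_tmul g1 g2 v d
  have hfO : ∀ τ, f τ ∈ O := by
    intro τ
    induction τ using TensorProduct.induction_on with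
    | zero => rw [map_zero]; exact O.zero_mem
    | tmul v d => rw [hf]; exact mul_mem (hVO _ v.2) (hKO _)
    | add a b ha hb => rw [map_add]; exact add_mem ha hb
  let τ : V ⊗[K0] K2 := ∑ i, (⟨e i * h ^ m, hm i⟩ : V) ⊗ₜ[K0] (⟨c i, hc i⟩ : K2)
  have hτ : f τ = (∑ i, algebraMap Kb F' (c i) * algebraMap E' F' (e i)) * algebraMap E' F' h ^ m := by
    rw [map_sum, Finset.sum_mul]
    refine Finset.sum_congr rfl fun i _ => ?_
    rw [hf]
    change algebraMap E' F' (e i * h ^ m) * algebraMap Kb F' (c i) = _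
    rw [map_mul, map_pow]; ring
  have hf1 : f ((⟨h, hh⟩ : V) ⊗ₜ[K0] (1 : K2)) = algebraMap E' F' h := by
    rw [hf]
    change algebraMap E' F' h * algebraMap Kb F' 1 = _
    rw [map_one, mul_one]
  obtain ⟨k, h1, h2⟩ := unrAux_core (⟨h, hh⟩ : V) (unrAux_max V hh hh' hV) f.toRingHom O hfO
    (by
      change (f ((⟨h, hh⟩ : V) ⊗ₜ[K0] (1 : K2)))⁻¹ ∉ O
      rw [hf1]; exact hhO) τ
    (by
      change f τ ≠ 0
      rw [hτ]; exact mul_ne_zero hx (pow_ne_zero _ hhF))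
  change f τ / f ((⟨h, hh⟩ : V) ⊗ₜ[K0] (1 : K2)) ^ k ∈ O at h1
  change (f τ / f ((⟨h, hh⟩ : V) ⊗ₜ[K0] (1 : K2)) ^ k)⁻¹ ∈ O at h2
  rw [hf1, hτ] at h1 h2
  have e1 : (∑ i, algebraMap Kb F' (c i) * algebraMap E' F' (e i)) * algebraMap E' F' h ^ ((m : ℤ) - k) =
      (∑ i, algebraMap Kb F' (c i) * algebraMap E' F' (e i)) * algebraMap E' F' h ^ m / algebraMap E' F' h ^ k := by
    rw [zpow_sub₀ hhF, zpow_natCast, zpow_natCast]; ring
  exact ⟨(m : ℤ) - k, by rw [e1]; exact h1, by rw [e1]; exact h2⟩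

/-- **(UNR)** -/
theorem unr
    (hgen : ∀ x : F', ∃ (n : ℕ) (c : Fin n → Kb) (e : Fin n → E'),
      x = ∑ i, algebraMap Kb F' (c i) * algebraMap E' F' (e i))
    (V : ValuationSubring E') (h : E') (hK : ∀ a : K0, algebraMap K0 E' a ∈ V) (hh : h ∈ V) (hh' : h⁻¹ ∉ V)
    (hV : ∀ y : E', y ≠ 0 → ∃ k : ℤ, y * h ^ k ∈ V ∧ (y * h ^ k)⁻¹ ∈ V) :
    ∃ P : AlgebraicCurve.Place Kb F', ∀ (y : E') (k : ℤ), y ≠ 0 → y * h ^ k ∈ V → (y * h ^ k)⁻¹ ∈ V →
      P.ord (algebraMap E' F' y) = -k := by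
  have hh0 : h ≠ 0 := by
    rintro rfl
    rw [inv_zero] at hh'
    exact hh' V.zero_mem
  have hhF : algebraMap E' F' h ≠ 0 := (map_ne_zero _).2 hh0
  obtain ⟨O, hO, hloc⟩ := IsLocalRing.exists_factor_valuationRing ((algebraMap E' F').comp V.subtype)
  have hVO : ∀ y ∈ V, algebraMap E' F' y ∈ O := fun y hy => hO ⟨y, hy⟩
  have hhO : (algebraMap E' F' h)⁻¹ ∉ O := by
    intro hi
    have hu : IsUnit (((algebraMap E' F').comp V.subtype).codRestrict O.toSubring hO ⟨h, hh⟩) :=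
      IsUnit.of_mul_eq_one ⟨(algebraMap E' F' h)⁻¹, hi⟩ (Subtype.ext (mul_inv_cancel₀ hhF))
    have hu2 := hloc.map_nonunit _ hu
    obtain ⟨y, hy⟩ := hu2.exists_right_inv
    have h1 : h * (y : E') = 1 := congrArg Subtype.val hy
    have : h⁻¹ = y := inv_eq_of_mul_eq_one_right h1
    rw [this] at hh'
    exact hh' y.2
  have hKO : ∀ c : Kb, algebraMap Kb F' c ∈ O := by
    intro c
    have hc : IsIntegral K0 c := Algebra.IsIntegral.isIntegral c
    have h1 : IsIntegral K0 (algebraMap Kb F' c) := hc.map (IsScalarTower.toAlgHom K0 Kb F')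
    letI : Algebra K0 O := ((algebraMap K0 F').codRestrict O.toSubring (fun a => by
      rw [IsScalarTower.algebraMap_apply K0 E' F']; exact hVO _ (hK a))).toAlgebra
    haveI : IsScalarTower K0 O F' := IsScalarTower.of_algebraMap_eq fun a => rfl
    have h2 : IsIntegral O (algebraMap Kb F' c) := h1.tower_top
    obtain ⟨y, hy⟩ := IsIntegrallyClosed.isIntegral_iff.1 h2
    rw [← hy]; exact y.2
  have key := unrAux_ext hgen V h hK hh hh' hV O hVO hKO hhO
  have hhO' : algebraMap E' F' h ∈ O := hVO h hh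
  haveI := unrAux_dvr O hhO' hhO key
  let P : AlgebraicCurve.Place Kb F' :=
    { toValuationSubring := O
      algebraMap_mem' := hKO
      ne_top' := fun ht => hhO (by rw [ht]; exact ValuationSubring.mem_top _)
      isPrincipalIdealRing' := inferInstance }
  refine ⟨P, fun y k hy h1 h2 => ?_⟩
  have hyF : algebraMap E' F' y ≠ 0 := (map_ne_zero _).2 hy
  have hord : P.ord (algebraMap E' F' h) = 1 :=
    P.ord_coe_irreducible (π := ⟨algebraMap E' F' h, hhO'⟩) (unrAux_irr O hhO' hhO key)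
  have hu : IsUnit (⟨algebraMap E' F' (y * h ^ k), hVO _ h1⟩ : O) := by
    refine IsUnit.of_mul_eq_one ⟨algebraMap E' F' (y * h ^ k)⁻¹, hVO _ h2⟩ (Subtype.ext ?_)
    change algebraMap E' F' (y * h ^ k) * algebraMap E' F' (y * h ^ k)⁻¹ = 1
    rw [← map_mul, mul_inv_cancel₀ (mul_ne_zero hy (zpow_ne_zero _ hh0)), map_one]
  have h0 : P.ord (algebraMap E' F' (y * h ^ k)) = 0 := P.ord_coe_unit hu.unit
  rw [map_mul, map_zpow₀, P.ord_mul hyF (zpow_ne_zero _ hhF), P.ord_zpow, hord] at h0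
  omega

/-- the hypothesis `H` of `Sheet.node_rel` -/
theorem unr_pow
    (hgen : ∀ x : F', ∃ (n : ℕ) (c : Fin n → Kb) (e : Fin n → E'),
      x = ∑ i, algebraMap Kb F' (c i) * algebraMap E' F' (e i))
    (V : ValuationSubring E') (h : E') (hK : ∀ a : K0, algebraMap K0 E' a ∈ V) (hh : h ∈ V) (hh' : h⁻¹ ∉ V)
    (hV : ∀ y : E', y ≠ 0 → ∃ k : ℤ, y * h ^ k ∈ V ∧ (y * h ^ k)⁻¹ ∈ V)
    (N : ℕ) (z : E') (hz : z ≠ 0) (hdiv : ∀ P : AlgebraicCurve.Place Kb F', (N : ℤ) ∣ P.ord (algebraMap E' F' z)) :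
    ∃ w : E', w ≠ 0 ∧ z * w ^ N ∈ V ∧ (z * w ^ N)⁻¹ ∈ V := by
  have hh0 : h ≠ 0 := by
    rintro rfl
    rw [inv_zero] at hh'
    exact hh' V.zero_mem
  obtain ⟨P, hP⟩ := unr (K0 := K0) (Kb := Kb) hgen V h hK hh hh' hV
  obtain ⟨k, h1, h2⟩ := hV z hz
  obtain ⟨j, hj⟩ := hdiv P
  rw [hP z k hz h1 h2] at hj
  have e : z * (h ^ (-j)) ^ N = z * h ^ k := by
    rw [← zpow_natCast, ← zpow_mul]
    congr 2
    have : k = -((N : ℤ) * j) := by omega
    rw [this]; ring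
  exact ⟨h ^ (-j), zpow_ne_zero _ hh0, by rw [e]; exact h1, by rw [e]; exact h2⟩

end Main

end Fermat.Agent.S44.Alg
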